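import Mathlib
import Fermat.Agent.ESJ.ParHom.Bound

/-!
# S41 / WP-D (DUALITY) : the cellular cup-product pairing on parabolic-elliptic homomorphisms

Setting of `ESJ/ParHom/Bound.lean`: `Γ` a finite-index subgroup of `SL(2, ℤ)`, `X = SL(2, ℤ) ⧸ Γ`,
`fgenA g φ v x = cphA φ g x + (v (g • x) - v x)` the crossed map attached to a homomorphism
`φ : Γ → A` and a gauge `v : X → A`.

For homomorphisms `φ, ψ : Γ → A` (`A` a commutative ring):

* `IsZeta Γ φ ζ` : there is a gauge `w` with `fgenA S φ w = 0` ("`S`-gauge") and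
  `fgenA T φ w = ζ ∘ T - ζ` (`ζ` is a `T`-primitive of the crossed map of `T`);
* `IsNu Γ ψ ν`   : there is a gauge `u` with `fgenA (S * T) ψ u = 0` ("`ST`-gauge") and
  `fgenA S ψ u = ν` (`ν` is the modular symbol of `ψ`);
* `cellB Γ φ ψ = ∑ x, ζ x * ν x` for any such `ζ`, `ν` (`cellB_eq`).

Main results: `cellB_eq` (independence of all choices, for parabolic-elliptic homomorphisms),
bilinearity (`cellB_add_left`, ...), compatibility with a change of coefficients (`cellB_map`),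
and **left-nondegeneracy over any field** when the Euler-characteristic bound of ESJ is an
equality (`cellB_nondeg`).  No division by `2` or `3` occurs anywhere.
-/

set_option autoImplicit false

open scoped MatrixGroups
open ModularGroup

namespace Fermat.Agent.S41.Dual

open Fermat.Agent.ESJ.ParHom Fermat.Agent.S21.ParabolicBound

noncomputable section

variable (Γ : Subgroup SL(2, ℤ)) {A : Type*} [CommRing A]

/-- `ζ` is a `T`-primitive of the crossed map of `T` attached to `φ` in an `S`-gauge. -/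
def IsZeta (φ : Additive Γ →+ A) (ζ : (SL(2, ℤ) ⧸ Γ) → A) : Prop :=
  ∃ w : (SL(2, ℤ) ⧸ Γ) → A, (∀ x, fgenA S φ w x = 0) ∧ ∀ x, fgenA T φ w x = ζ (T • x) - ζ x

/-- `ν` is the crossed map of `S` attached to `ψ` in an `S * T`-gauge (the modular symbol). -/
def IsNu (ψ : Additive Γ →+ A) (ν : (SL(2, ℤ) ⧸ Γ) → A) : Prop :=
  ∃ u : (SL(2, ℤ) ⧸ Γ) → A, (∀ x, fgenA (S * T) ψ u x = 0) ∧ ∀ x, fgenA S ψ u x = ν x

variable {Γ}

theorem exists_isZeta [Finite (SL(2, ℤ) ⧸ Γ)] {φ : Additive Γ →+ A} (hφ : IsPEHom Γ φ) :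
    ∃ ζ, IsZeta Γ φ ζ := by
  obtain ⟨w₀, hw₀⟩ := exists_primitive_fgenA hφ (0 : (SL(2, ℤ) ⧸ Γ) → A) S trace_S_pow_sq_le
  have hS : ∀ x, fgenA S φ (-w₀) x = 0 := by
    intro x
    have h := hw₀ x
    simp only [fgenA, Pi.zero_apply, sub_self, add_zero] at h
    simp only [fgenA, Pi.neg_apply, h]
    ring
  obtain ⟨ζ, hζ⟩ := exists_primitive_fgenA hφ (-w₀) T trace_T_pow_sq_le
  exact ⟨ζ, -w₀, hS, hζ⟩

theorem exists_isNu [Finite (SL(2, ℤ) ⧸ Γ)] {ψ : Additive Γ →+ A} (hψ : IsPEHom Γ ψ) :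
    ∃ ν, IsNu Γ ψ ν := by
  obtain ⟨u₀, hu₀⟩ := exists_primitive_fgenA hψ (0 : (SL(2, ℤ) ⧸ Γ) → A) (S * T)
    trace_ST_pow_sq_le
  have hR : ∀ x, fgenA (S * T) ψ (-u₀) x = 0 := by
    intro x
    have h := hu₀ x
    simp only [fgenA, Pi.zero_apply, sub_self, add_zero] at h
    simp only [fgenA, Pi.neg_apply, h]
    ring
  exact ⟨fgenA S ψ (-u₀), -u₀, hR, fun _ => rfl⟩

variable (Γ)

open Classical in
/-- The cellular pairing `∑ x, ζ x * ν x` (`0` if no `ζ` or no `ν` exists). -/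
def cellB [Finite (SL(2, ℤ) ⧸ Γ)] (φ ψ : Additive Γ →+ A) : A :=
  if h : (∃ ζ, IsZeta Γ φ ζ) ∧ (∃ ν, IsNu Γ ψ ν) then
    letI := Fintype.ofFinite (SL(2, ℤ) ⧸ Γ)
    ∑ x, h.1.choose x * h.2.choose x
  else 0

variable {Γ}

/-! ### Orbit-sum lemmas -/

section sums

variable [Fintype (SL(2, ℤ) ⧸ Γ)]

theorem sum_comp_smul (g : SL(2, ℤ)) (f : (SL(2, ℤ) ⧸ Γ) → A) :
    ∑ x, f (g • x) = ∑ x, f x :=
  Equiv.sum_comp (MulAction.toPerm g) f

/-- An invariant function is orthogonal to the coboundaries. -/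
theorem sum_mul_coboundary (g : SL(2, ℤ)) {a : (SL(2, ℤ) ⧸ Γ) → A} (ha : ∀ x, a (g • x) = a x)
    (m : (SL(2, ℤ) ⧸ Γ) → A) : ∑ x, a x * (m (g • x) - m x) = 0 := by
  have h1 : ∑ x, a x * m (g • x) = ∑ x, a x * m x := by
    rw [← sum_comp_smul g (fun x => a x * m x)]
    exact Finset.sum_congr rfl fun x _ => by rw [ha]
  simp only [mul_sub, Finset.sum_sub_distrib, h1, sub_self]

/-- `ν` is orthogonal to the `S`-invariant functions. -/
theorem IsNu.sum_mul_of_S {ψ : Additive Γ →+ A} {ν : (SL(2, ℤ) ⧸ Γ) → A} (hν : IsNu Γ ψ ν)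
    (hψ : IsPEHom Γ ψ) {a : (SL(2, ℤ) ⧸ Γ) → A} (ha : ∀ x, a (S • x) = a x) :
    ∑ x, a x * ν x = 0 := by
  obtain ⟨u, -, h2⟩ := hν
  obtain ⟨m, hm⟩ := exists_primitive_fgenA hψ u S trace_S_pow_sq_le
  have e : ∀ x, ν x = m (S • x) - m x := fun x => by rw [← h2, hm]
  simp only [e]
  exact sum_mul_coboundary S ha m

/-- `ν` is orthogonal to the `T`-invariant functions. -/
theorem IsNu.sum_mul_of_T {ψ : Additive Γ →+ A} {ν : (SL(2, ℤ) ⧸ Γ) → A} (hν : IsNu Γ ψ ν)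
    (hψ : IsPEHom Γ ψ) {a : (SL(2, ℤ) ⧸ Γ) → A} (ha : ∀ x, a (T • x) = a x) :
    ∑ x, a x * ν x = 0 := by
  obtain ⟨u, h1, h2⟩ := hν
  obtain ⟨m, hm⟩ := exists_primitive_fgenA hψ u T trace_T_pow_sq_le
  have e : ∀ x, ν (T • x) = -(m (T • x) - m x) := by
    intro x
    have h := h1 x
    rw [fgenA_mul, h2, hm] at h
    linear_combination h
  have h3 : ∑ x, a x * ν x = ∑ x, a x * ν (T • x) := by
    rw [← sum_comp_smul T (fun x => a x * ν x)]
    exact Finset.sum_congr rfl fun x _ => by rw [ha]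
  rw [h3]
  simp only [e, mul_neg, Finset.sum_neg_distrib, neg_eq_zero]
  exact sum_mul_coboundary T ha m

/-- `ζ` is orthogonal to the `S`-coboundaries of the `S * T`-invariant functions. -/
theorem IsZeta.sum_mul_of_ST {φ : Additive Γ →+ A} {ζ : (SL(2, ℤ) ⧸ Γ) → A} (hζ : IsZeta Γ φ ζ)
    (hφ : IsPEHom Γ φ) {b : (SL(2, ℤ) ⧸ Γ) → A} (hb : ∀ x, b ((S * T) • x) = b x) :
    ∑ x, ζ x * (b (S • x) - b x) = 0 := by
  obtain ⟨w, h1, h2⟩ := hζ
  obtain ⟨m, hm⟩ := exists_primitive_fgenA hφ w (S * T) trace_ST_pow_sq_le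
  have e : ∀ x, ζ (T • x) - ζ x = m ((S * T) • x) - m x := by
    intro x
    rw [← hm, fgenA_mul, h1, zero_add, h2]
  have h3 : ∑ x, ζ x * b (S • x) = ∑ x, ζ (T • x) * b x := by
    rw [← sum_comp_smul T (fun x => ζ x * b (S • x))]
    exact Finset.sum_congr rfl fun x _ => by rw [← mul_smul, hb]
  have h4 : ∑ x, ζ x * (b (S • x) - b x) = ∑ x, b x * (m ((S * T) • x) - m x) := by
    simp only [mul_sub, Finset.sum_sub_distrib, h3]
    rw [← Finset.sum_sub_distrib, ← Finset.sum_sub_distrib]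
    refine Finset.sum_congr rfl fun x _ => ?_
    linear_combination b x * e x
  rw [h4]
  exact sum_mul_coboundary (S * T) hb m

/-- Two `ζ`'s for the same homomorphism pair equally with every `ν`. -/
theorem IsZeta.sum_mul_eq {φ ψ : Additive Γ →+ A} {ζ ζ' ν : (SL(2, ℤ) ⧸ Γ) → A}
    (hζ : IsZeta Γ φ ζ) (hζ' : IsZeta Γ φ ζ') (hν : IsNu Γ ψ ν) (hψ : IsPEHom Γ ψ) :
    ∑ x, ζ x * ν x = ∑ x, ζ' x * ν x := by
  obtain ⟨w, h1, h2⟩ := hζ
  obtain ⟨w', h1', h2'⟩ := hζ'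
  have hd : ∀ x, (w - w') (S • x) = (w - w') x := by
    intro x
    have h := h1 x
    have h' := h1' x
    simp only [fgenA] at h h'
    simp only [Pi.sub_apply]
    linear_combination h - h'
  have he : ∀ x, (ζ - ζ' - (w - w')) (T • x) = (ζ - ζ' - (w - w')) x := by
    intro x
    have h := h2 x
    have h' := h2' x
    simp only [fgenA] at h h'
    simp only [Pi.sub_apply]
    linear_combination h' - h
  have e1 := hν.sum_mul_of_S hψ hd
  have e2 := hν.sum_mul_of_T hψ he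
  have e3 : ∑ x, ζ x * ν x - ∑ x, ζ' x * ν x
      = ∑ x, (w - w') x * ν x + ∑ x, (ζ - ζ' - (w - w')) x * ν x := by
    rw [← Finset.sum_sub_distrib, ← Finset.sum_add_distrib]
    refine Finset.sum_congr rfl fun x _ => ?_
    simp only [Pi.sub_apply]
    ring
  rw [e1, e2, add_zero] at e3
  exact sub_eq_zero.mp e3

/-- Two `ν`'s for the same homomorphism pair equally with every `ζ`. -/
theorem IsNu.sum_mul_eq {φ ψ : Additive Γ →+ A} {ζ ν ν' : (SL(2, ℤ) ⧸ Γ) → A}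
    (hν : IsNu Γ ψ ν) (hν' : IsNu Γ ψ ν') (hζ : IsZeta Γ φ ζ) (hφ : IsPEHom Γ φ) :
    ∑ x, ζ x * ν x = ∑ x, ζ x * ν' x := by
  obtain ⟨u, h1, h2⟩ := hν
  obtain ⟨u', h1', h2'⟩ := hν'
  have hd : ∀ x, (u - u') ((S * T) • x) = (u - u') x := by
    intro x
    have h := h1 x
    have h' := h1' x
    simp only [fgenA] at h h'
    simp only [Pi.sub_apply]
    linear_combination h - h'
  have e : ∀ x, ν x - ν' x = (u - u') (S • x) - (u - u') x := by
    intro x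
    rw [← h2, ← h2']
    simp only [fgenA, Pi.sub_apply]
    ring
  have e1 := hζ.sum_mul_of_ST hφ hd
  have e3 : ∑ x, ζ x * ν x - ∑ x, ζ x * ν' x
      = ∑ x, ζ x * ((u - u') (S • x) - (u - u') x) := by
    rw [← Finset.sum_sub_distrib]
    refine Finset.sum_congr rfl fun x _ => ?_
    rw [← e]
    ring
  rw [e1] at e3
  exact sub_eq_zero.mp e3

/-- **The cellular pairing is independent of all choices.** -/
theorem cellB_eq {φ ψ : Additive Γ →+ A} {ζ ν : (SL(2, ℤ) ⧸ Γ) → A} (hφ : IsPEHom Γ φ)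
    (hψ : IsPEHom Γ ψ) (hζ : IsZeta Γ φ ζ) (hν : IsNu Γ ψ ν) :
    cellB Γ φ ψ = ∑ x, ζ x * ν x := by
  classical
  have h : (∃ ζ, IsZeta Γ φ ζ) ∧ (∃ ν, IsNu Γ ψ ν) := ⟨⟨ζ, hζ⟩, ⟨ν, hν⟩⟩
  rw [cellB, dif_pos h]
  have e : (Fintype.ofFinite (SL(2, ℤ) ⧸ Γ)) = ‹Fintype (SL(2, ℤ) ⧸ Γ)› :=
    Subsingleton.elim _ _
  rw [e]
  rw [h.1.choose_spec.sum_mul_eq hζ h.2.choose_spec hψ,
    h.2.choose_spec.sum_mul_eq hν hζ hφ]

end sums

end

end Fermat.Agent.S41.Dual
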