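import Mathlib
import Fermat.Agent.ESJ.ParHom.HeckeGamma0

/-!
# S41 / WP-D (D4): conjugation by a positive-determinant normaliser permutes the cusp classes

`X = SL(2, ℤ) ⧸ Γ` is the coset model, `kap Γ g x = (out (g • x))⁻¹ * g * out x ∈ Γ`.

* `IsPosUnip A` : `A` is a positive unipotent of `SL(2, ℤ)` (trace `2`, `A₀₁ - A₁₀ > 0`),
  i.e. a conjugate of `T ^ n`, `n ≥ 1` (`Cusp.exists_conj_T_pow`);
* `Cusp.isPosUnip_of_conj` : conjugation by an element of `GL(2, ℝ)` of positive determinant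
  preserves positive unipotents;
* `Cusp.cuspGen Γ x = out⁻¹ * T ^ period * out` : the cusp generator of the coset `x`;
  every positive unipotent of `Γ` is `Γ`-conjugate to a power of a cusp generator
  (`Cusp.exists_conj_cuspGen_pow`), cusp generators are primitive and determine the `T`-orbit
  (`Cusp.eq_one_of_cuspGen_eq_conj`);
* `Cusp.sum_div_per_smul` : orbit sums;
* `sum_comp_conj_eq` : the deliverable consumed by `Dual/Kappa.lean`.
-/

set_option autoImplicit false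

open scoped MatrixGroups
open ModularGroup Fermat.Agent.S21.ParabolicBound Fermat.Agent.ESJ.ParHom

namespace Fermat.Agent.S41.Dual

/-- positive unipotent: a conjugate of `T ^ n`, `n ≥ 1`. -/
def IsPosUnip (A : SL(2, ℤ)) : Prop := A.1.trace = 2 ∧ 0 < A.1 0 1 - A.1 1 0

namespace Cusp

theorem det_entries (A : SL(2, ℤ)) : A.1 0 0 * A.1 1 1 - A.1 0 1 * A.1 1 0 = 1 := by
  have h := A.2
  rw [Matrix.det_fin_two] at h
  exact h

theorem trace_entries (A : SL(2, ℤ)) : A.1.trace = A.1 0 0 + A.1 1 1 := by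
  rw [Matrix.trace_fin_two]

theorem isPosUnip_iff (A : SL(2, ℤ)) :
    IsPosUnip A ↔ A.1 0 0 + A.1 1 1 = 2 ∧ 0 < A.1 0 1 - A.1 1 0 := by
  unfold IsPosUnip
  rw [trace_entries]

/-- sign information on the entries of a positive unipotent. -/
theorem entries_of_isPosUnip {A : SL(2, ℤ)} (h : IsPosUnip A) :
    0 ≤ A.1 0 1 ∧ A.1 1 0 ≤ 0 ∧ (A.1 0 0 - 1) ^ 2 = -(A.1 0 1 * A.1 1 0) := by
  rw [isPosUnip_iff] at h
  obtain ⟨ht, hp⟩ := h
  have hd := det_entries A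
  have hsq : (A.1 0 0 - 1) ^ 2 = -(A.1 0 1 * A.1 1 0) := by
    have : A.1 1 1 = 2 - A.1 0 0 := by linarith
    rw [this] at hd
    linear_combination -hd
  have hle : A.1 0 1 * A.1 1 0 ≤ 0 := by nlinarith [sq_nonneg (A.1 0 0 - 1)]
  refine ⟨?_, ?_, hsq⟩
  · by_contra hb
    push Not at hb
    have hc : A.1 1 0 < 0 := by linarith
    nlinarith
  · by_contra hc
    push Not at hc
    have hb : 0 < A.1 0 1 := by linarith
    nlinarith

/-- real-number core of the conjugation lemma. -/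
theorem real_core (a b c d a' b' c' d' p q r s : ℝ) (hD : 0 < p * s - q * r)
    (h00 : a' * p + b' * r = p * a + q * c)
    (h01 : a' * q + b' * s = p * b + q * d)
    (h10 : c' * p + d' * r = r * a + s * c)
    (h11 : c' * q + d' * s = r * b + s * d)
    (htR : a + d = 2) (hbR : 0 ≤ b) (hpR : 0 < b - c) (hsqR : (a - 1) ^ 2 = -(b * c)) :
    a' + d' = 2 ∧ 0 < b' - c' := by
  have hDne : p * s - q * r ≠ 0 := hD.ne'
  -- trace
  have htr' : (a' + d') * (p * s - q * r) = (a + d) * (p * s - q * r) := by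
    linear_combination s * h00 - r * h01 + p * h11 - q * h10
  have htr : a' + d' = 2 := by
    have := mul_right_cancel₀ hDne htr'
    linarith
  -- the off-diagonal difference
  have hE : (b' - c') * (p * s - q * r)
      = (p ^ 2 + r ^ 2) * b + (p * q + r * s) * (d - a) - (q ^ 2 + s ^ 2) * c := by
    linear_combination p * h01 - q * h00 - s * h10 + r * h11
  have hEpos : 0 < (p ^ 2 + r ^ 2) * b + (p * q + r * s) * (d - a) - (q ^ 2 + s ^ 2) * c := by
    have hda : d - a = 2 * (1 - a) := by linarith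
    rw [hda]
    rcases hbR.lt_or_eq with hbpos | hb0
    · -- b > 0
      have key : b * ((p ^ 2 + r ^ 2) * b + (p * q + r * s) * (2 * (1 - a)) - (q ^ 2 + s ^ 2) * c)
          = (p * b + q * (1 - a)) ^ 2 + (r * b + s * (1 - a)) ^ 2 := by
        have h1 : (1 - a) ^ 2 = -(b * c) := by rw [← hsqR]; ring
        linear_combination (-(q ^ 2) - s ^ 2) * h1
      by_contra hneg
      push Not at hneg
      have h0 : (p * b + q * (1 - a)) ^ 2 + (r * b + s * (1 - a)) ^ 2 ≤ 0 := by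
        rw [← key]
        exact mul_nonpos_of_nonneg_of_nonpos hbpos.le hneg
      have hs1 := sq_nonneg (p * b + q * (1 - a))
      have hs2 := sq_nonneg (r * b + s * (1 - a))
      have h1 : p * b + q * (1 - a) = 0 := by
        have : (p * b + q * (1 - a)) ^ 2 = 0 := by linarith
        exact pow_eq_zero_iff (two_ne_zero) |>.mp this
      have h2 : r * b + s * (1 - a) = 0 := by
        have : (r * b + s * (1 - a)) ^ 2 = 0 := by linarith
        exact pow_eq_zero_iff (two_ne_zero) |>.mp this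
      have h3 : b * (p * s - q * r) = 0 := by linear_combination s * h1 - q * h2
      rcases mul_eq_zero.mp h3 with h | h
      · exact hbpos.ne' h
      · exact hDne h
    · -- b = 0
      have hb0' : b = 0 := hb0.symm
      have ha1 : a = 1 := by
        have : (a - 1) ^ 2 = 0 := by rw [hsqR, hb0']; ring
        have := pow_eq_zero_iff (two_ne_zero) |>.mp this
        linarith
      have hcneg : c < 0 := by rw [hb0'] at hpR; linarith
      rw [hb0', ha1]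
      have hqs : 0 < q ^ 2 + s ^ 2 := by
        by_contra h
        push Not at h
        have hq2 := sq_nonneg q
        have hs2 := sq_nonneg s
        have hq : q = 0 := by
          have : q ^ 2 = 0 := by linarith
          exact pow_eq_zero_iff (two_ne_zero) |>.mp this
        have hs : s = 0 := by
          have : s ^ 2 = 0 := by linarith
          exact pow_eq_zero_iff (two_ne_zero) |>.mp this
        rw [hq, hs] at hD
        simp at hD
      have : 0 < (q ^ 2 + s ^ 2) * (-c) := mul_pos hqs (by linarith)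
      linarith
  have hfin : 0 < b' - c' := by
    by_contra h
    push Not at h
    have : (b' - c') * (p * s - q * r) ≤ 0 := mul_nonpos_of_nonpos_of_nonneg h hD.le
    linarith
  exact ⟨htr, hfin⟩

/-- conjugation by a real matrix `[[p, q], [r, s]]` of positive determinant preserves positive
unipotents (entrywise form of `A' W = W A`). -/
theorem isPosUnip_of_conj_real {A A' : SL(2, ℤ)} (p q r s : ℝ) (hD : 0 < p * s - q * r)
    (h00 : (A'.1 0 0 : ℝ) * p + A'.1 0 1 * r = p * A.1 0 0 + q * A.1 1 0)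
    (h01 : (A'.1 0 0 : ℝ) * q + A'.1 0 1 * s = p * A.1 0 1 + q * A.1 1 1)
    (h10 : (A'.1 1 0 : ℝ) * p + A'.1 1 1 * r = r * A.1 0 0 + s * A.1 1 0)
    (h11 : (A'.1 1 0 : ℝ) * q + A'.1 1 1 * s = r * A.1 0 1 + s * A.1 1 1)
    (hA : IsPosUnip A) : IsPosUnip A' := by
  obtain ⟨hb, hc, hsq⟩ := entries_of_isPosUnip hA
  rw [isPosUnip_iff] at hA ⊢
  obtain ⟨ht, hp⟩ := hA
  have h := real_core (A.1 0 0 : ℝ) (A.1 0 1 : ℝ) (A.1 1 0 : ℝ) (A.1 1 1 : ℝ)
    (A'.1 0 0 : ℝ) (A'.1 0 1 : ℝ) (A'.1 1 0 : ℝ) (A'.1 1 1 : ℝ) p q r s hD h00 h01 h10 h11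
    (by exact_mod_cast ht) (by exact_mod_cast hb) (by exact_mod_cast hp) (by exact_mod_cast hsq)
  exact ⟨by exact_mod_cast h.1, by exact_mod_cast h.2⟩

/-- conjugation by an element of `GL(2, ℝ)` of positive determinant preserves positive
unipotents. -/
theorem isPosUnip_of_conj {A A' : SL(2, ℤ)} (w : GL (Fin 2) ℝ) (hw : 0 < w.det.val)
    (h : w * Matrix.SpecialLinearGroup.mapGL ℝ A = Matrix.SpecialLinearGroup.mapGL ℝ A' * w)
    (hA : IsPosUnip A) : IsPosUnip A' := by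
  have hdet : 0 < (w : Matrix (Fin 2) (Fin 2) ℝ) 0 0 * (w : Matrix (Fin 2) (Fin 2) ℝ) 1 1
      - (w : Matrix (Fin 2) (Fin 2) ℝ) 0 1 * (w : Matrix (Fin 2) (Fin 2) ℝ) 1 0 := by
    have : w.det.val = (w : Matrix (Fin 2) (Fin 2) ℝ).det := rfl
    rw [this, Matrix.det_fin_two] at hw
    exact hw
  have e : ∀ i j, ((w * Matrix.SpecialLinearGroup.mapGL ℝ A : GL (Fin 2) ℝ) :
      Matrix (Fin 2) (Fin 2) ℝ) i j
      = ((Matrix.SpecialLinearGroup.mapGL ℝ A' * w : GL (Fin 2) ℝ) :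
      Matrix (Fin 2) (Fin 2) ℝ) i j := fun i j => by rw [h]
  simp only [Units.val_mul, Matrix.mul_apply, Fin.sum_univ_two, coe_mapGL_apply] at e
  exact isPosUnip_of_conj_real _ _ _ _ hdet (e 0 0).symm (e 0 1).symm (e 1 0).symm (e 1 1).symm hA

/-- conjugation inside `SL(2, ℤ)` preserves positive unipotents. -/
theorem isPosUnip_conj (g : SL(2, ℤ)) {A : SL(2, ℤ)} (hA : IsPosUnip A) :
    IsPosUnip (g * A * g⁻¹) := by
  have e : ∀ i j, ((g * A * g⁻¹ * g : SL(2, ℤ)) : Matrix (Fin 2) (Fin 2) ℤ) i j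
      = ((g * A : SL(2, ℤ)) : Matrix (Fin 2) (Fin 2) ℤ) i j := fun i j => by
    rw [inv_mul_cancel_right]
  have e' : ∀ i j, (((g * A * g⁻¹ : SL(2, ℤ)) : Matrix (Fin 2) (Fin 2) ℤ) * g.1) i j
      = (g.1 * A.1) i j := fun i j => by
    have := e i j
    rwa [Matrix.SpecialLinearGroup.coe_mul (g * A * g⁻¹) g,
      Matrix.SpecialLinearGroup.coe_mul g A] at this
  simp only [Matrix.mul_apply, Fin.sum_univ_two] at e'
  have hdet : (0 : ℝ) < (g.1 0 0 : ℝ) * g.1 1 1 - g.1 0 1 * g.1 1 0 := by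
    have := det_entries g
    have h1 : ((g.1 0 0 : ℝ) * g.1 1 1 - g.1 0 1 * g.1 1 0) = 1 := by exact_mod_cast this
    rw [h1]; exact one_pos
  exact isPosUnip_of_conj_real _ _ _ _ hdet (by exact_mod_cast e' 0 0) (by exact_mod_cast e' 0 1)
    (by exact_mod_cast e' 1 0) (by exact_mod_cast e' 1 1) hA

theorem isPosUnip_conj' (g : SL(2, ℤ)) {A : SL(2, ℤ)} (hA : IsPosUnip A) :
    IsPosUnip (g⁻¹ * A * g) := by
  have := isPosUnip_conj g⁻¹ hA
  rwa [inv_inv] at this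

theorem coe_T_pow (n : ℕ) : ((T ^ n : SL(2, ℤ)) : Matrix (Fin 2) (Fin 2) ℤ) = !![1, (n : ℤ); 0, 1] := by
  rw [← zpow_natCast, coe_T_zpow]

theorem isPosUnip_T_pow {n : ℕ} (hn : 0 < n) : IsPosUnip (T ^ n) := by
  rw [isPosUnip_iff, coe_T_pow]
  simp
  exact_mod_cast hn

/-- **Structure of positive unipotents**: conjugates of positive powers of `T`. -/
theorem exists_conj_T_pow {A : SL(2, ℤ)} (hA : IsPosUnip A) :
    ∃ (g : SL(2, ℤ)) (n : ℕ), 0 < n ∧ A = g⁻¹ * T ^ n * g := by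
  obtain ⟨hb, hc, hsq⟩ := entries_of_isPosUnip hA
  have hA' := (isPosUnip_iff A).mp hA
  obtain ⟨ht, hp⟩ := hA'
  -- a primitive vector `(v₁, v₂)` in the kernel of `A - 1`
  obtain ⟨v₁, v₂, hcop, hv⟩ : ∃ v₁ v₂ : ℤ, IsCoprime v₁ v₂ ∧
      A.1 1 0 * v₁ ^ 2 + (A.1 1 1 - A.1 0 0) * v₁ * v₂ - A.1 0 1 * v₂ ^ 2 = 0 := by
    by_cases hb0 : A.1 0 1 = 0
    · exact ⟨0, 1, isCoprime_zero_left.mpr isUnit_one, by rw [hb0]; ring⟩
    · have hg : 0 < Int.gcd (A.1 0 1) (1 - A.1 0 0) := Int.gcd_pos_of_ne_zero_left _ hb0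
      refine ⟨A.1 0 1 / Int.gcd (A.1 0 1) (1 - A.1 0 0),
        (1 - A.1 0 0) / Int.gcd (A.1 0 1) (1 - A.1 0 0), ?_, ?_⟩
      · rw [Int.isCoprime_iff_gcd_eq_one]
        exact Int.gcd_div_gcd_div_gcd hg
      · set G : ℤ := (Int.gcd (A.1 0 1) (1 - A.1 0 0) : ℤ) with hG
        have hG0 : G ≠ 0 := by rw [hG]; exact_mod_cast hg.ne'
        have h1 : A.1 0 1 = G * (A.1 0 1 / G) := (Int.mul_ediv_cancel' (Int.gcd_dvd_left _ _)).symm
        have h2 : 1 - A.1 0 0 = G * ((1 - A.1 0 0) / G) :=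
          (Int.mul_ediv_cancel' (Int.gcd_dvd_right _ _)).symm
        set v₁ := A.1 0 1 / G
        set v₂ := (1 - A.1 0 0) / G
        have hd : A.1 1 1 = 2 - A.1 0 0 := by linarith
        have key : G ^ 2 * (A.1 1 0 * v₁ ^ 2 + (A.1 1 1 - A.1 0 0) * v₁ * v₂ - A.1 0 1 * v₂ ^ 2)
            = 0 := by
          have e1 : G ^ 2 * (A.1 1 0 * v₁ ^ 2 + (A.1 1 1 - A.1 0 0) * v₁ * v₂ - A.1 0 1 * v₂ ^ 2)
              = A.1 1 0 * (G * v₁) ^ 2 + (A.1 1 1 - A.1 0 0) * (G * v₁) * (G * v₂)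
                - A.1 0 1 * (G * v₂) ^ 2 := by ring
          rw [e1, ← h1, ← h2, hd]
          have : (1 - A.1 0 0) ^ 2 = -(A.1 0 1 * A.1 1 0) := by rw [← hsq]; ring
          linear_combination (A.1 0 1) * this
        rcases mul_eq_zero.mp key with h | h
        · exact absurd (pow_eq_zero_iff (two_ne_zero) |>.mp h) hG0
        · exact h
  obtain ⟨x, y, hxy⟩ := hcop
  -- the matrix `g = [[x, y], [-v₂, v₁]]`
  let g : SL(2, ℤ) := ⟨!![x, y; -v₂, v₁], by rw [Matrix.det_fin_two_of]; linarith⟩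
  have hg00 : g.1 0 0 = x := rfl
  have hg01 : g.1 0 1 = y := rfl
  have hg10 : g.1 1 0 = -v₂ := rfl
  have hg11 : g.1 1 1 = v₁ := rfl
  set B : SL(2, ℤ) := g * A * g⁻¹ with hB
  have hBpos : IsPosUnip B := isPosUnip_conj g hA
  -- `B * g = g * A` entrywise
  have e : ∀ i j, (B.1 * g.1) i j = (g.1 * A.1) i j := fun i j => by
    have : B * g = g * A := by rw [hB, inv_mul_cancel_right]
    rw [← Matrix.SpecialLinearGroup.coe_mul, ← Matrix.SpecialLinearGroup.coe_mul, this]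
  simp only [Matrix.mul_apply, Fin.sum_univ_two] at e
  have hB10 : B.1 1 0 = 0 := by
    have e10 := e 1 0
    have e11 := e 1 1
    rw [hg00, hg10, hg11] at e10
    rw [hg01, hg10, hg11] at e11
    -- B10 * x + B11 * (-v₂) = -v₂ * a + v₁ * c ;  B10 * y + B11 * v₁ = -v₂ * b + v₁ * d
    have : B.1 1 0 * (x * v₁ + y * v₂) = 0 := by
      linear_combination v₁ * e10 + v₂ * e11 + hv
    rw [hxy, mul_one] at this
    exact this
  obtain ⟨htB, hpB⟩ := (isPosUnip_iff B).mp hBpos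
  have hdB := det_entries B
  rw [hB10, mul_zero, sub_zero] at hdB
  have hB00 : B.1 0 0 = 1 := by
    have : (B.1 0 0 - 1) ^ 2 = 0 := by
      have : B.1 1 1 = 2 - B.1 0 0 := by linarith
      rw [this] at hdB
      linear_combination -hdB
    have := pow_eq_zero_iff (two_ne_zero) |>.mp this
    linarith
  have hB11 : B.1 1 1 = 1 := by linarith
  have hn : 0 < B.1 0 1 := by rw [hB10] at hpB; linarith
  have hBT : B = T ^ (B.1 0 1).toNat := by
    apply Subtype.ext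
    rw [coe_T_pow, Int.toNat_of_nonneg hn.le]
    ext i j
    fin_cases i <;> fin_cases j <;> simp [hB00, hB10, hB11]
  refine ⟨g, (B.1 0 1).toNat, ?_, ?_⟩
  · exact Int.pos_iff_toNat_pos.mp hn
  · rw [← hBT, hB]; group

/-- an element of `SL(2, ℤ)` intertwining two positive powers of `T` is `± T ^ j`, and the
two powers coincide. -/
theorem eq_T_zpow_of_mul_T_pow {h : SL(2, ℤ)} {m n : ℕ} (hn : 0 < n)
    (e : h * T ^ m = T ^ n * h) : m = n ∧ ∃ j : ℤ, h = T ^ j ∨ h = -T ^ j := by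
  have e' : ∀ i j, (h.1 * (T ^ m : SL(2, ℤ)).1) i j = ((T ^ n : SL(2, ℤ)).1 * h.1) i j :=
    fun i j => by
      rw [← Matrix.SpecialLinearGroup.coe_mul, ← Matrix.SpecialLinearGroup.coe_mul, e]
  simp only [coe_T_pow, Matrix.mul_apply, Fin.sum_univ_two, Matrix.of_apply, Matrix.cons_val',
    Matrix.cons_val_zero, Matrix.cons_val_one, Matrix.empty_val', Matrix.cons_val_fin_one] at e'
  have e00 := e' 0 0
  have e01 := e' 0 1
  simp at e00 e01
  have hc : h.1 1 0 = 0 := by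
    rcases e00 with h0 | h0
    · exact absurd h0 hn.ne'
    · exact h0
  have hd := det_entries h
  rw [hc, mul_zero, sub_zero] at hd
  rcases Int.eq_one_or_neg_one_of_mul_eq_one' hd with ⟨ha, hd1⟩ | ⟨ha, hd1⟩
  · rw [ha, hd1] at e01
    refine ⟨by exact_mod_cast (by linarith : (m : ℤ) = n), h.1 0 1, Or.inl ?_⟩
    apply Subtype.ext
    rw [coe_T_zpow]
    ext i j
    fin_cases i <;> fin_cases j <;> simp [ha, hc, hd1]
  · rw [ha, hd1] at e01
    refine ⟨by exact_mod_cast (by linarith : (m : ℤ) = n), -h.1 0 1, Or.inr ?_⟩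
    apply Subtype.ext
    rw [Matrix.SpecialLinearGroup.coe_neg, coe_T_zpow]
    ext i j
    fin_cases i <;> fin_cases j <;> simp [ha, hc, hd1]

/-! ### Cusp generators in the coset model -/

theorem inv_conj_pow {G : Type*} [Group G] (a b : G) (k : ℕ) :
    (a⁻¹ * b * a) ^ k = a⁻¹ * b ^ k * a := by
  have := conj_pow (i := k) (a := a⁻¹) (b := b)
  simpa using this

theorem isPosUnip_pow {A : SL(2, ℤ)} (hA : IsPosUnip A) {k : ℕ} (hk : 0 < k) :
    IsPosUnip (A ^ k) := by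
  obtain ⟨g, n, hn, rfl⟩ := exists_conj_T_pow hA
  rw [inv_conj_pow, ← pow_mul]
  exact isPosUnip_conj' g (isPosUnip_T_pow (Nat.mul_pos hn hk))

variable (Γ : Subgroup SL(2, ℤ))

/-- the `T`-period of a coset. -/
noncomputable def per (x : SL(2, ℤ) ⧸ Γ) : ℕ := MulAction.period (T : SL(2, ℤ)) x

/-- the cusp generator attached to a coset: `out⁻¹ * T ^ period * out`. -/
noncomputable def cuspGen (x : SL(2, ℤ) ⧸ Γ) : Γ := kap Γ (T ^ per Γ x) x

theorem coe_cuspGen (x : SL(2, ℤ) ⧸ Γ) :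
    (cuspGen Γ x : SL(2, ℤ)) = (Quotient.out x)⁻¹ * T ^ per Γ x * Quotient.out x :=
  kap_of_smul_eq Γ (MulAction.pow_period_smul T x)

theorem per_dvd {M : ℕ} {x : SL(2, ℤ) ⧸ Γ} (hMx : T ^ M • x = x) : per Γ x ∣ M :=
  MulAction.pow_smul_eq_iff_period_dvd.mp hMx

theorem per_pos {M : ℕ} (hM : 0 < M) {x : SL(2, ℤ) ⧸ Γ} (hMx : T ^ M • x = x) : 0 < per Γ x :=
  MulAction.period_pos_of_fixed hM hMx

theorem kap_T_pow_eq {M : ℕ} {x : SL(2, ℤ) ⧸ Γ} (hMx : T ^ M • x = x) :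
    kap Γ (T ^ M) x = cuspGen Γ x ^ (M / per Γ x) := by
  apply Subtype.ext
  rw [kap_of_smul_eq Γ hMx, Subgroup.coe_pow, coe_cuspGen, inv_conj_pow, ← pow_mul,
    Nat.mul_div_cancel' (per_dvd Γ hMx)]

theorem isPosUnip_cuspGen {x : SL(2, ℤ) ⧸ Γ} (hx : 0 < per Γ x) :
    IsPosUnip (cuspGen Γ x : SL(2, ℤ)) := by
  rw [coe_cuspGen]
  exact isPosUnip_conj' _ (isPosUnip_T_pow hx)

theorem per_zpow_smul (j : ℤ) (x : SL(2, ℤ) ⧸ Γ) : per Γ (T ^ j • x) = per Γ x := by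
  unfold per
  have hc : ∀ n : ℕ, (T : SL(2, ℤ)) ^ n * T ^ j = T ^ j * T ^ n := fun n =>
    (((Commute.refl (T : SL(2, ℤ))).pow_left n).zpow_right j).eq
  apply Nat.dvd_antisymm
  · rw [← MulAction.pow_smul_eq_iff_period_dvd, smul_smul, hc, ← smul_smul,
      MulAction.pow_period_smul]
  · rw [← MulAction.pow_smul_eq_iff_period_dvd]
    have h := MulAction.pow_period_smul (T : SL(2, ℤ)) (T ^ j • x)
    rw [smul_smul, hc, ← smul_smul] at h
    exact smul_left_cancel _ h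

/-- the cusp generators along a `T`-orbit are `Γ`-conjugate. -/
theorem cuspGen_zpow_smul (j : ℤ) (x : SL(2, ℤ) ⧸ Γ) :
    ∃ δ : Γ, cuspGen Γ (T ^ j • x) = δ * cuspGen Γ x * δ⁻¹ := by
  refine ⟨kap Γ (T ^ j) x, ?_⟩
  apply Subtype.ext
  rw [Subgroup.coe_mul, Subgroup.coe_mul, Subgroup.coe_inv, coe_cuspGen, coe_cuspGen,
    per_zpow_smul]
  show _ = ((Quotient.out (T ^ j • x))⁻¹ * T ^ j * Quotient.out x) * _ *
    ((Quotient.out (T ^ j • x))⁻¹ * T ^ j * Quotient.out x)⁻¹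
  group

/-- every positive unipotent of `Γ` is `Γ`-conjugate to a positive power of a cusp generator. -/
theorem exists_conj_cuspGen_pow (A : Γ) (hA : IsPosUnip (A : SL(2, ℤ))) :
    ∃ (x : SL(2, ℤ) ⧸ Γ) (k : ℕ) (γ : Γ), 0 < k ∧ A = γ * cuspGen Γ x ^ k * γ⁻¹ := by
  obtain ⟨g, n, hn, hg⟩ := exists_conj_T_pow hA
  set x : SL(2, ℤ) ⧸ Γ := (g : SL(2, ℤ) ⧸ Γ) with hx
  have hfix : T ^ n • x = x := by
    rw [hx]
    show ((T ^ n * g : SL(2, ℤ)) : SL(2, ℤ) ⧸ Γ) = g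
    rw [eq_comm, QuotientGroup.eq]
    have : g⁻¹ * (T ^ n * g) = (A : SL(2, ℤ)) := by rw [hg]; group
    rw [this]
    exact A.2
  obtain ⟨k, hk⟩ := per_dvd Γ hfix
  have hkpos : 0 < k := by
    rcases Nat.eq_zero_or_pos k with h | h
    · rw [h, mul_zero] at hk
      omega
    · exact h
  have hγ : g⁻¹ * Quotient.out x ∈ Γ := by
    rw [← QuotientGroup.eq, QuotientGroup.out_eq']
  refine ⟨x, k, ⟨_, hγ⟩, hkpos, ?_⟩
  apply Subtype.ext
  rw [Subgroup.coe_mul, Subgroup.coe_mul, Subgroup.coe_inv, Subgroup.coe_pow, coe_cuspGen,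
    inv_conj_pow, ← pow_mul, ← hk, hg]
  show _ = g⁻¹ * Quotient.out x * _ * (g⁻¹ * Quotient.out x)⁻¹
  group

/-- **Primitivity and uniqueness of the cusp**: a cusp generator is not a proper power of a
conjugate of another one, and the two cosets are then in the same `T`-orbit. -/
theorem eq_one_of_cuspGen_eq_conj (hneg : (-1 : SL(2, ℤ)) ∈ Γ) {x x' : SL(2, ℤ) ⧸ Γ}
    (hx : 0 < per Γ x) (hx' : 0 < per Γ x') {k : ℕ} (hk : 0 < k) {γ : Γ}
    (e : cuspGen Γ x = γ * cuspGen Γ x' ^ k * γ⁻¹) : k = 1 ∧ ∃ j : ℤ, T ^ j • x = x' := by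
  have e' : (Quotient.out x)⁻¹ * T ^ per Γ x * Quotient.out x
      = γ * ((Quotient.out x')⁻¹ * T ^ (per Γ x' * k) * Quotient.out x') * (γ : SL(2, ℤ))⁻¹ := by
    have := congrArg (Subtype.val) e
    rw [Subgroup.coe_mul, Subgroup.coe_mul, Subgroup.coe_inv, Subgroup.coe_pow, coe_cuspGen,
      coe_cuspGen, inv_conj_pow, ← pow_mul] at this
    exact this
  set o := Quotient.out x with ho
  set o' := Quotient.out x' with ho'
  set h : SL(2, ℤ) := o' * (γ : SL(2, ℤ))⁻¹ * o⁻¹ with hh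
  have hcomm : h * T ^ per Γ x = T ^ (per Γ x' * k) * h := by
    have : T ^ per Γ x
        = o * (γ * (o'⁻¹ * T ^ (per Γ x' * k) * o') * (γ : SL(2, ℤ))⁻¹) * o⁻¹ := by
      rw [← e']; group
    rw [this, hh]; group
  obtain ⟨hmn, j, hj⟩ := eq_T_zpow_of_mul_T_pow (Nat.mul_pos hx' hk) hcomm
  have hx'eq : x' = h • x := by
    have h1 : o' = h * o * γ := by rw [hh]; group
    calc x' = ((o' : SL(2, ℤ)) : SL(2, ℤ) ⧸ Γ) := (QuotientGroup.out_eq' x').symm
      _ = ((h * o * γ : SL(2, ℤ)) : SL(2, ℤ) ⧸ Γ) := by rw [← h1]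
      _ = ((h * o : SL(2, ℤ)) : SL(2, ℤ) ⧸ Γ) := QuotientGroup.mk_mul_of_mem _ γ.2
      _ = h • ((o : SL(2, ℤ)) : SL(2, ℤ) ⧸ Γ) := rfl
      _ = h • x := by rw [QuotientGroup.out_eq']
  have hjx : T ^ j • x = x' := by
    rcases hj with hj | hj
    · rw [hx'eq, hj]
    · rw [hx'eq, hj, show (-T ^ j : SL(2, ℤ)) = (-1) * T ^ j by simp, mul_smul,
        neg_one_smul_coset hneg]
  refine ⟨?_, j, hjx⟩
  have hper : per Γ x' = per Γ x := by rw [← hjx, per_zpow_smul]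
  rw [hper] at hmn
  have : per Γ x * 1 = per Γ x * k := by rw [mul_one]; exact hmn
  exact (Nat.eq_of_mul_eq_mul_left hx this).symm

theorem orbit_of_conj_eq (hneg : (-1 : SL(2, ℤ)) ∈ Γ) (hper : ∀ x, 0 < per Γ x)
    {y y' : SL(2, ℤ) ⧸ Γ} {γ γ' : Γ}
    (e : γ * cuspGen Γ y * γ⁻¹ = γ' * cuspGen Γ y' * γ'⁻¹) : ∃ j : ℤ, T ^ j • y = y' := by
  have h : cuspGen Γ y = (γ⁻¹ * γ') * cuspGen Γ y' ^ 1 * (γ⁻¹ * γ')⁻¹ := by
    have : cuspGen Γ y = γ⁻¹ * (γ * cuspGen Γ y * γ⁻¹) * γ := by group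
    rw [this, e, pow_one]; group
  exact (eq_one_of_cuspGen_eq_conj Γ hneg (hper y) (hper y') one_pos h).2

/-- A pair of mutually inverse endomorphisms of `Γ` preserving positive unipotents maps each
cusp generator to a conjugate of a cusp generator. -/
theorem exists_conj_cuspGen_of_auto (hneg : (-1 : SL(2, ℤ)) ∈ Γ) (hper : ∀ x, 0 < per Γ x)
    (φ ψ : Γ →* Γ)
    (hφ : ∀ u : Γ, IsPosUnip (u : SL(2, ℤ)) → IsPosUnip (φ u : SL(2, ℤ)))
    (hψ : ∀ u : Γ, IsPosUnip (u : SL(2, ℤ)) → IsPosUnip (ψ u : SL(2, ℤ)))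
    (hψφ : ∀ γ, ψ (φ γ) = γ) (x : SL(2, ℤ) ⧸ Γ) :
    ∃ (y : SL(2, ℤ) ⧸ Γ) (γ : Γ), φ (cuspGen Γ x) = γ * cuspGen Γ y * γ⁻¹ := by
  obtain ⟨y, k, γ, hk, e⟩ := exists_conj_cuspGen_pow Γ _ (hφ _ (isPosUnip_cuspGen Γ (hper x)))
  obtain ⟨z, k', γ', hk', e'⟩ :=
    exists_conj_cuspGen_pow Γ _ (hψ _ (isPosUnip_cuspGen Γ (hper y)))
  have e2 : cuspGen Γ x = (ψ γ * γ') * cuspGen Γ z ^ (k' * k) * (ψ γ * γ')⁻¹ := by
    have := congrArg ψ e
    rw [hψφ, map_mul, map_mul, map_pow, map_inv, e'] at this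
    rw [this, conj_pow, pow_mul]; group
  obtain ⟨hkk, -⟩ := eq_one_of_cuspGen_eq_conj Γ hneg (hper x) (hper z) (Nat.mul_pos hk' hk) e2
  have hk1 : k = 1 := Nat.eq_one_of_mul_eq_one_left hkk
  refine ⟨y, γ, ?_⟩
  rw [e, hk1, pow_one]

theorem mem_orbit_zpowers_iff {x y : SL(2, ℤ) ⧸ Γ} :
    y ∈ MulAction.orbit (Subgroup.zpowers (T : SL(2, ℤ))) x ↔ ∃ j : ℤ, T ^ j • x = y := by
  constructor
  · rintro ⟨⟨g, j, rfl⟩, hg⟩
    exact ⟨j, hg⟩
  · rintro ⟨j, rfl⟩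
    exact ⟨⟨T ^ j, j, rfl⟩, rfl⟩

/-- the setoid of `T`-orbits on the coset space. -/
abbrev orbS : Setoid (SL(2, ℤ) ⧸ Γ) :=
  MulAction.orbitRel (Subgroup.zpowers (T : SL(2, ℤ))) (SL(2, ℤ) ⧸ Γ)

theorem orbS_iff {x y : SL(2, ℤ) ⧸ Γ} : (orbS Γ).r y x ↔ ∃ j : ℤ, T ^ j • x = y := by
  rw [← mem_orbit_zpowers_iff]
  exact MulAction.orbitRel_apply

/-- **Orbit sums**: a function of the `T`-orbit, weighted by `M / period`, sums to `M` times the
sum over the orbits. -/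
theorem sum_div_per_smul [Fintype (SL(2, ℤ) ⧸ Γ)] [Fintype (Quotient (orbS Γ))]
    (M : ℕ) (hMx : ∀ x : SL(2, ℤ) ⧸ Γ, T ^ M • x = x)
    {B : Type*} [AddCommGroup B] (Ψ : Quotient (orbS Γ) → B) :
    ∑ x, (M / per Γ x) • Ψ (Quotient.mk (orbS Γ) x) = M • ∑ ω, Ψ ω := by
  classical
  rw [Finset.smul_sum,
    ← Finset.sum_fiberwise (Finset.univ) (fun x => Quotient.mk (orbS Γ) x)]
  apply Finset.sum_congr rfl
  intro ω _
  induction ω using Quotient.inductionOn with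
  | _ x₀ =>
    have h1 : ∀ x ∈ Finset.univ.filter (fun x => Quotient.mk (orbS Γ) x = Quotient.mk (orbS Γ) x₀),
        (M / per Γ x) • Ψ (Quotient.mk (orbS Γ) x)
          = (M / per Γ x₀) • Ψ (Quotient.mk (orbS Γ) x₀) := by
      intro x hx
      rw [Finset.mem_filter] at hx
      have hx' := hx.2
      rw [hx']
      obtain ⟨j, rfl⟩ := (orbS_iff Γ).mp (Quotient.exact hx')
      rw [per_zpow_smul]
    rw [Finset.sum_congr rfl h1, Finset.sum_const, smul_smul]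
    congr 1
    have hcard : (Finset.univ.filter
        (fun x => Quotient.mk (orbS Γ) x = Quotient.mk (orbS Γ) x₀)).card = per Γ x₀ := by
      unfold per
      rw [MulAction.period_eq_minimalPeriod, MulAction.minimalPeriod_eq_card,
        ← Fintype.card_subtype]
      apply Fintype.card_congr
      exact Equiv.subtypeEquivRight (fun x => by
        rw [Quotient.eq]
        exact MulAction.orbitRel_apply)
    rw [hcard, Nat.mul_div_cancel' (per_dvd Γ (hMx x₀))]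

end Cusp

/-- **WP-D (D4)**: conjugation by a positive-determinant normaliser of `Γ` permutes the
`Γ`-classes of the cusp generators; hence any class function `F` on positive unipotents that is
additive on powers has the same total over the cosets before and after conjugation. -/
theorem sum_comp_conj_eq (Γ : Subgroup SL(2, ℤ)) [Fintype (SL(2, ℤ) ⧸ Γ)]
    (hneg : (-1 : SL(2, ℤ)) ∈ Γ) (w : GL (Fin 2) ℝ) (hw : 0 < w.det.val)
    (α β : Γ →* Γ) (hα : ∀ γ, w * jSub Γ γ = jSub Γ (α γ) * w)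
    (hβ : ∀ γ, jSub Γ γ * w = w * jSub Γ (β γ))
    (M : ℕ) (hM : 0 < M) (hMx : ∀ x : SL(2, ℤ) ⧸ Γ, T ^ M • x = x)
    {B : Type*} [AddCommGroup B] (F : Γ → B)
    (hconj : ∀ γ u : Γ, IsPosUnip u → F (γ * u * γ⁻¹) = F u)
    (hpow : ∀ u : Γ, IsPosUnip u → ∀ n : ℕ, F (u ^ n) = n • F u) :
    ∑ x, F (α (kap Γ (T ^ M) x)) = ∑ x, F (kap Γ (T ^ M) x) := by
  classical
  have hper : ∀ x, 0 < Cusp.per Γ x := fun x => Cusp.per_pos Γ hM (hMx x)
  have hαpos : ∀ u : Γ, IsPosUnip (u : SL(2, ℤ)) → IsPosUnip (α u : SL(2, ℤ)) :=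
    fun u hu => Cusp.isPosUnip_of_conj w hw (hα u) hu
  have hw' : 0 < (w⁻¹).det.val := by
    rw [map_inv, Units.val_inv_eq_inv_val]
    exact inv_pos.mpr hw
  have hβpos : ∀ u : Γ, IsPosUnip (u : SL(2, ℤ)) → IsPosUnip (β u : SL(2, ℤ)) := by
    intro u hu
    refine Cusp.isPosUnip_of_conj w⁻¹ hw' ?_ hu
    have h := hβ u
    rw [jSub_apply, jSub_apply] at h
    rw [inv_mul_eq_iff_eq_mul, ← mul_assoc, eq_mul_inv_iff_mul_eq]
    exact h
  have hβα : ∀ γ, β (α γ) = γ := fun γ => by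
    apply jSub_injective Γ
    exact (mul_left_cancel ((hα γ).trans (hβ (α γ)))).symm
  have hαβ : ∀ γ, α (β γ) = γ := fun γ => by
    apply jSub_injective Γ
    exact (mul_right_cancel ((hβ γ).trans (hα (β γ)))).symm
  choose σ cγ hσ using Cusp.exists_conj_cuspGen_of_auto Γ hneg hper α β hαpos hβpos hβα
  choose σ' cγ' hσ' using Cusp.exists_conj_cuspGen_of_auto Γ hneg hper β α hβpos hαpos hαβ
  -- `σ`, `σ'` respect the orbits
  have hσorb : ∀ (x : SL(2, ℤ) ⧸ Γ) (j : ℤ), ∃ j' : ℤ, T ^ j' • σ x = σ (T ^ j • x) := by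
    intro x j
    obtain ⟨δ, hδ⟩ := Cusp.cuspGen_zpow_smul Γ j x
    have h1 := hσ (T ^ j • x)
    rw [hδ, map_mul, map_mul, map_inv, hσ x] at h1
    have h2 : (α δ * cγ x) * Cusp.cuspGen Γ (σ x) * (α δ * cγ x)⁻¹
        = cγ (T ^ j • x) * Cusp.cuspGen Γ (σ (T ^ j • x)) * (cγ (T ^ j • x))⁻¹ := by
      rw [← h1]; group
    exact Cusp.orbit_of_conj_eq Γ hneg hper h2
  have hσ'orb : ∀ (x : SL(2, ℤ) ⧸ Γ) (j : ℤ), ∃ j' : ℤ, T ^ j' • σ' x = σ' (T ^ j • x) := by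
    intro x j
    obtain ⟨δ, hδ⟩ := Cusp.cuspGen_zpow_smul Γ j x
    have h1 := hσ' (T ^ j • x)
    rw [hδ, map_mul, map_mul, map_inv, hσ' x] at h1
    have h2 : (β δ * cγ' x) * Cusp.cuspGen Γ (σ' x) * (β δ * cγ' x)⁻¹
        = cγ' (T ^ j • x) * Cusp.cuspGen Γ (σ' (T ^ j • x)) * (cγ' (T ^ j • x))⁻¹ := by
      rw [← h1]; group
    exact Cusp.orbit_of_conj_eq Γ hneg hper h2
  have hσ'σ : ∀ x : SL(2, ℤ) ⧸ Γ, ∃ j : ℤ, T ^ j • x = σ' (σ x) := by
    intro x
    have h1 := congrArg β (hσ x)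
    rw [hβα, map_mul, map_mul, map_inv, hσ' (σ x)] at h1
    have h2 : (1 : Γ) * Cusp.cuspGen Γ x * (1 : Γ)⁻¹
        = (β (cγ x) * cγ' (σ x)) * Cusp.cuspGen Γ (σ' (σ x)) * (β (cγ x) * cγ' (σ x))⁻¹ := by
      rw [h1]; group
    exact Cusp.orbit_of_conj_eq Γ hneg hper h2
  have hσσ' : ∀ x : SL(2, ℤ) ⧸ Γ, ∃ j : ℤ, T ^ j • x = σ (σ' x) := by
    intro x
    have h1 := congrArg α (hσ' x)
    rw [hαβ, map_mul, map_mul, map_inv, hσ (σ' x)] at h1
    have h2 : (1 : Γ) * Cusp.cuspGen Γ x * (1 : Γ)⁻¹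
        = (α (cγ' x) * cγ (σ' x)) * Cusp.cuspGen Γ (σ (σ' x)) * (α (cγ' x) * cγ (σ' x))⁻¹ := by
      rw [h1]; group
    exact Cusp.orbit_of_conj_eq Γ hneg hper h2
  -- the induced maps on the orbit space
  let Ω := Quotient (Cusp.orbS Γ)
  have : Fintype Ω := Fintype.ofFinite Ω
  let σbar : Ω → Ω := Quotient.map σ (fun a b hab => by
    obtain ⟨j, rfl⟩ := (Cusp.orbS_iff Γ).mp hab
    exact (Cusp.orbS_iff Γ).mpr (hσorb b j))
  let σbar' : Ω → Ω := Quotient.map σ' (fun a b hab => by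
    obtain ⟨j, rfl⟩ := (Cusp.orbS_iff Γ).mp hab
    exact (Cusp.orbS_iff Γ).mpr (hσ'orb b j))
  have hleft : Function.LeftInverse σbar' σbar := by
    intro ω
    induction ω using Quotient.inductionOn with
    | _ x => exact Quotient.sound ((Cusp.orbS_iff Γ).mpr (hσ'σ x))
  have hright : Function.RightInverse σbar' σbar := by
    intro ω
    induction ω using Quotient.inductionOn with
    | _ x => exact Quotient.sound ((Cusp.orbS_iff Γ).mpr (hσσ' x))
  have hbij : Function.Bijective σbar := ⟨hleft.injective, hright.surjective⟩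
  -- the class function on orbits
  let Φbar : Ω → B := Quotient.lift (fun x => F (Cusp.cuspGen Γ x)) (fun a b hab => by
    obtain ⟨j, rfl⟩ := (Cusp.orbS_iff Γ).mp hab
    obtain ⟨δ, hδ⟩ := Cusp.cuspGen_zpow_smul Γ j b
    show F (Cusp.cuspGen Γ (T ^ j • b)) = F (Cusp.cuspGen Γ b)
    rw [hδ]
    exact hconj δ _ (Cusp.isPosUnip_cuspGen Γ (hper b)))
  have key1 : ∀ x, F (α (kap Γ (T ^ M) x))
      = (M / Cusp.per Γ x) • Φbar (σbar (Quotient.mk (Cusp.orbS Γ) x)) := by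
    intro x
    rw [Cusp.kap_T_pow_eq Γ (hMx x), map_pow,
      hpow _ (hαpos _ (Cusp.isPosUnip_cuspGen Γ (hper x))), hσ x,
      hconj _ _ (Cusp.isPosUnip_cuspGen Γ (hper (σ x)))]
    rfl
  have key2 : ∀ x, F (kap Γ (T ^ M) x)
      = (M / Cusp.per Γ x) • Φbar (Quotient.mk (Cusp.orbS Γ) x) := by
    intro x
    rw [Cusp.kap_T_pow_eq Γ (hMx x), hpow _ (Cusp.isPosUnip_cuspGen Γ (hper x))]
    rfl
  calc ∑ x, F (α (kap Γ (T ^ M) x))
      = ∑ x, (M / Cusp.per Γ x) • (Φbar ∘ σbar) (Quotient.mk (Cusp.orbS Γ) x) :=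
        Finset.sum_congr rfl (fun x _ => key1 x)
    _ = M • ∑ ω, (Φbar ∘ σbar) ω := Cusp.sum_div_per_smul Γ M hMx _
    _ = M • ∑ ω, Φbar ω := congrArg (M • ·) (Function.Bijective.sum_comp hbij Φbar)
    _ = ∑ x, (M / Cusp.per Γ x) • Φbar (Quotient.mk (Cusp.orbS Γ) x) :=
        (Cusp.sum_div_per_smul Γ M hMx _).symm
    _ = ∑ x, F (kap Γ (T ^ M) x) := Finset.sum_congr rfl (fun x _ => (key2 x).symm)

end Fermat.Agent.S41.Dual

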