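import Mathlib
import Fermat.Agent.S41.Dual.Cell
import Fermat.Agent.S41.Dual.Cusp

/-!
# S41 / WP-D (D5, second half): what follows formally from the existence of `κ`

`Γ ≤ SL(2, ℤ)` of finite index, `X = SL(2, ℤ) ⧸ Γ`, `kap Γ g x = (out (g • x))⁻¹ * g * out x ∈ Γ`.
For `ℤ`-valued homomorphisms `φ, ψ` of `Γ`, a *`κ` for `(φ, ψ)`* is a function `κ : Γ → ℤ` with
`κ (γ * δ) = κ γ + κ δ + φ γ * ψ δ` (a bounding cochain of the cup product).  Its *cusp trace* is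
`∑ x, κ (kap Γ (T ^ M) x)` (`M` a common multiple of the cusp widths).

* `cuspTr_eq_of_kappa` : the cusp trace does not depend on the choice of `κ` (two choices differ by
  a homomorphism `Γ → ℤ`, whose transfer to `SL(2, ℤ)` vanishes since `SL(2, ℤ)` is generated by
  elements of finite order);
* `cellB_antisymm_of_kappa` : if the cusp traces of a `κ` for `(φ, ψ)` and of a `κ` for `(ψ, φ)`
  are `M * cellB Γ φ ψ` and `M * cellB Γ ψ φ`, then `cellB Γ ψ φ = - cellB Γ φ ψ`;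
* `cellB_comp_conj_of_kappa` : invariance of `cellB` under a positive-determinant normaliser
  (consumes `sum_comp_conj_eq` of `Dual/Cusp.lean`);
* `KappaHyp Γ` : the existence statement owed by `Dual/Kappa.lean`, as a proposition;
  `cellB_antisymm_of_kappaHyp`, `cellB_comp_conj_of_kappaHyp` are the two consequences in the
  form consumed by `Dual/Main.lean`.
-/

set_option autoImplicit false

open scoped MatrixGroups
open ModularGroup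

namespace Fermat.Agent.S41.Dual

open Fermat.Agent.ESJ.ParHom Fermat.Agent.S21.ParabolicBound

noncomputable section

namespace KappaInv

/-- an additive function on `SL(2, ℤ)` with values in `ℤ` kills `T`. -/
theorem map_T_eq_zero (τ : SL(2, ℤ) → ℤ) (h : ∀ g h : SL(2, ℤ), τ (g * h) = τ g + τ h) :
    τ T = 0 := by
  have h1 : τ 1 = 0 := by
    have := h 1 1
    rw [mul_one] at this
    linarith
  have hneg : τ (-1) = 0 := by
    have := h (-1) (-1)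
    rw [neg_mul_neg, mul_one, h1] at this
    linarith
  have hS : τ S = 0 := by
    have := h S S
    rw [S_mul_S, hneg] at this
    linarith
  have hST : τ (S * T) = 0 := by
    have := h (S * T * (S * T)) (S * T)
    rw [ST_cube, hneg, h (S * T) (S * T)] at this
    linarith
  have := h S T
  linarith

theorem map_pow_eq (τ : SL(2, ℤ) → ℤ) (h : ∀ g h : SL(2, ℤ), τ (g * h) = τ g + τ h)
    (g : SL(2, ℤ)) (n : ℕ) : τ (g ^ n) = n * τ g := by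
  induction n with
  | zero =>
    have := h 1 1
    rw [mul_one] at this
    rw [pow_zero]
    push_cast
    linarith
  | succ n ih =>
    rw [pow_succ, h, ih]
    push_cast
    ring

variable {Γ : Subgroup SL(2, ℤ)} {φ ψ : Additive Γ →+ ℤ} {κ : Γ → ℤ}

theorem kappa_one
    (hκ : ∀ γ δ : Γ, κ (γ * δ) = κ γ + κ δ + φ (Additive.ofMul γ) * ψ (Additive.ofMul δ)) :
    κ 1 = 0 := by
  have := hκ 1 1
  rw [mul_one, ofMul_one, map_zero, zero_mul, add_zero] at this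
  linarith

theorem kappa_inv
    (hκ : ∀ γ δ : Γ, κ (γ * δ) = κ γ + κ δ + φ (Additive.ofMul γ) * ψ (Additive.ofMul δ))
    (γ : Γ) : κ γ⁻¹ = φ (Additive.ofMul γ) * ψ (Additive.ofMul γ) - κ γ := by
  have := hκ γ γ⁻¹
  rw [mul_inv_cancel, kappa_one hκ, ofMul_inv, map_neg] at this
  linarith

/-- `κ` is a class function at the elements killed by `φ` and `ψ`. -/
theorem kappa_conj
    (hκ : ∀ γ δ : Γ, κ (γ * δ) = κ γ + κ δ + φ (Additive.ofMul γ) * ψ (Additive.ofMul δ))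
    (γ u : Γ) (hφu : φ (Additive.ofMul u) = 0) (hψu : ψ (Additive.ofMul u) = 0) :
    κ (γ * u * γ⁻¹) = κ u := by
  rw [hκ, hκ, kappa_inv hκ, ofMul_mul, map_add, hφu, hψu, ofMul_inv, map_neg]
  ring

/-- `κ` is additive on the powers of an element killed by `ψ`. -/
theorem kappa_pow
    (hκ : ∀ γ δ : Γ, κ (γ * δ) = κ γ + κ δ + φ (Additive.ofMul γ) * ψ (Additive.ofMul δ))
    (u : Γ) (hψu : ψ (Additive.ofMul u) = 0) (n : ℕ) : κ (u ^ n) = n • κ u := by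
  induction n with
  | zero => rw [pow_zero, kappa_one hκ, zero_smul]
  | succ n ih =>
    rw [pow_succ, hκ, ih, hψu, mul_zero, add_zero, succ_nsmul]

theorem isPEHom_apply_of_isPosUnip {χ : Additive Γ →+ ℤ} (hχ : IsPEHom Γ χ) (u : Γ)
    (hu : IsPosUnip (u : SL(2, ℤ))) : χ (Additive.ofMul u) = 0 := by
  apply hχ
  rw [hu.1]
  norm_num

end KappaInv

open KappaInv

variable {Γ : Subgroup SL(2, ℤ)}

/-- **Independence of the cusp trace**: two bounding cochains of `φ ∪ ψ` have the same cusp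
trace. -/
theorem cuspTr_eq_of_kappa [Fintype (SL(2, ℤ) ⧸ Γ)] {φ ψ : Additive Γ →+ ℤ} {κ κ' : Γ → ℤ}
    (hκ : ∀ γ δ : Γ, κ (γ * δ) = κ γ + κ δ + φ (Additive.ofMul γ) * ψ (Additive.ofMul δ))
    (hκ' : ∀ γ δ : Γ, κ' (γ * δ) = κ' γ + κ' δ + φ (Additive.ofMul γ) * ψ (Additive.ofMul δ))
    (M : ℕ) :
    ∑ x, κ (kap Γ (T ^ M) x) = ∑ x, κ' (kap Γ (T ^ M) x) := by
  set τ : SL(2, ℤ) → ℤ := fun g => ∑ x, (κ' (kap Γ g x) - κ (kap Γ g x)) with hτ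
  have hmul : ∀ g h, τ (g * h) = τ g + τ h := by
    intro g h
    simp only [hτ]
    rw [← sum_comp_smul h (fun x => κ' (kap Γ g x) - κ (kap Γ g x)), ← Finset.sum_add_distrib]
    refine Finset.sum_congr rfl fun x _ => ?_
    rw [kap_mul, hκ, hκ']
    ring
  have h0 : τ (T ^ M) = 0 := by rw [map_pow_eq τ hmul, map_T_eq_zero τ hmul, mul_zero]
  simp only [hτ, Finset.sum_sub_distrib] at h0
  linarith

/-- A homomorphism composed with a `GL(2, ℝ)`-conjugation normalising `Γ` is again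
parabolic-elliptic. -/
theorem isPEHom_comp_conj (w : GL (Fin 2) ℝ) (α : Γ →* Γ)
    (hα : ∀ γ, w * jSub Γ γ = jSub Γ (α γ) * w) {A : Type*} [AddCommGroup A]
    {φ : Additive Γ →+ A} (hφ : IsPEHom Γ φ) : IsPEHom Γ (φ.comp (MonoidHom.toAdditive α)) := by
  intro γ hγ
  show φ (Additive.ofMul (α γ)) = 0
  apply hφ
  have h := hα γ
  rw [jSub_apply, jSub_apply] at h
  rw [trace_eq_of_conj w h]
  exact hγ

/-- **Antisymmetry of the cellular pairing**, from the trace formula for one `κ` of `(φ, ψ)` and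
one `κ` of `(ψ, φ)`. -/
theorem cellB_antisymm_of_kappa [Fintype (SL(2, ℤ) ⧸ Γ)] {φ ψ : Additive Γ →+ ℤ}
    (hφ : IsPEHom Γ φ) {M : ℕ} (hM : 0 < M)
    (hMx : ∀ x : SL(2, ℤ) ⧸ Γ, T ^ M • x = x) {κ₁ κ₂ : Γ → ℤ}
    (h₁ : ∀ γ δ : Γ, κ₁ (γ * δ) = κ₁ γ + κ₁ δ + φ (Additive.ofMul γ) * ψ (Additive.ofMul δ))
    (t₁ : ∑ x, κ₁ (kap Γ (T ^ M) x) = M * cellB Γ φ ψ)
    (h₂ : ∀ γ δ : Γ, κ₂ (γ * δ) = κ₂ γ + κ₂ δ + ψ (Additive.ofMul γ) * φ (Additive.ofMul δ))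
    (t₂ : ∑ x, κ₂ (kap Γ (T ^ M) x) = M * cellB Γ ψ φ) :
    cellB Γ ψ φ = - cellB Γ φ ψ := by
  have h₃ : ∀ γ δ : Γ,
      (fun γ : Γ => φ (Additive.ofMul γ) * ψ (Additive.ofMul γ) - κ₁ γ) (γ * δ)
        = (fun γ : Γ => φ (Additive.ofMul γ) * ψ (Additive.ofMul γ) - κ₁ γ) γ
          + (fun γ : Γ => φ (Additive.ofMul γ) * ψ (Additive.ofMul γ) - κ₁ γ) δ
          + ψ (Additive.ofMul γ) * φ (Additive.ofMul δ) := by
    intro γ δ
    simp only [h₁, ofMul_mul, map_add]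
    ring
  have e := cuspTr_eq_of_kappa
    (κ' := fun γ : Γ => φ (Additive.ofMul γ) * ψ (Additive.ofMul γ) - κ₁ γ) h₂ h₃ M
  have hz : ∀ x, φ (Additive.ofMul (kap Γ (T ^ M) x)) = 0 := fun x =>
    cphA_eq_zero_of_fixed hφ (hMx x) (trace_T_pow_sq_le M)
  simp only [hz, zero_mul, zero_sub, Finset.sum_neg_distrib] at e
  rw [t₁, t₂] at e
  have hM' : (M : ℤ) ≠ 0 := by exact_mod_cast hM.ne'
  apply mul_left_cancel₀ hM'
  rw [e]
  ring

/-- **Invariance of the cellular pairing under a positive-determinant normaliser**, from the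
trace formula for one `κ` of `(φ, ψ)` and one `κ` of `(φ ∘ α, ψ ∘ α)`. -/
theorem cellB_comp_conj_of_kappa [Fintype (SL(2, ℤ) ⧸ Γ)] (hneg : (-1 : SL(2, ℤ)) ∈ Γ)
    (w : GL (Fin 2) ℝ) (hw : 0 < w.det.val) (α β : Γ →* Γ)
    (hα : ∀ γ, w * jSub Γ γ = jSub Γ (α γ) * w) (hβ : ∀ γ, jSub Γ γ * w = w * jSub Γ (β γ))
    {φ ψ : Additive Γ →+ ℤ} (hφ : IsPEHom Γ φ) (hψ : IsPEHom Γ ψ) {M : ℕ} (hM : 0 < M)
    (hMx : ∀ x : SL(2, ℤ) ⧸ Γ, T ^ M • x = x) {κ₁ κ₂ : Γ → ℤ}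
    (h₁ : ∀ γ δ : Γ, κ₁ (γ * δ) = κ₁ γ + κ₁ δ + φ (Additive.ofMul γ) * ψ (Additive.ofMul δ))
    (t₁ : ∑ x, κ₁ (kap Γ (T ^ M) x) = M * cellB Γ φ ψ)
    (h₂ : ∀ γ δ : Γ, κ₂ (γ * δ) = κ₂ γ + κ₂ δ
      + (φ.comp (MonoidHom.toAdditive α)) (Additive.ofMul γ)
        * (ψ.comp (MonoidHom.toAdditive α)) (Additive.ofMul δ))
    (t₂ : ∑ x, κ₂ (kap Γ (T ^ M) x)
      = M * cellB Γ (φ.comp (MonoidHom.toAdditive α)) (ψ.comp (MonoidHom.toAdditive α))) :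
    cellB Γ (φ.comp (MonoidHom.toAdditive α)) (ψ.comp (MonoidHom.toAdditive α))
      = cellB Γ φ ψ := by
  have h₃ : ∀ γ δ : Γ, (fun γ : Γ => κ₁ (α γ)) (γ * δ)
      = (fun γ : Γ => κ₁ (α γ)) γ + (fun γ : Γ => κ₁ (α γ)) δ
        + (φ.comp (MonoidHom.toAdditive α)) (Additive.ofMul γ)
          * (ψ.comp (MonoidHom.toAdditive α)) (Additive.ofMul δ) := by
    intro γ δ
    show κ₁ (α (γ * δ)) = κ₁ (α γ) + κ₁ (α δ)
      + φ (Additive.ofMul (α γ)) * ψ (Additive.ofMul (α δ))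
    rw [map_mul, h₁]
  have e := cuspTr_eq_of_kappa (κ' := fun γ : Γ => κ₁ (α γ)) h₂ h₃ M
  have e2 := sum_comp_conj_eq Γ hneg w hw α β hα hβ M hM hMx κ₁
    (fun γ u hu => kappa_conj h₁ γ u (isPEHom_apply_of_isPosUnip hφ u hu)
      (isPEHom_apply_of_isPosUnip hψ u hu))
    (fun u hu n => kappa_pow h₁ u (isPEHom_apply_of_isPosUnip hψ u hu) n)
  rw [e2, t₁, t₂] at e
  have hM' : (M : ℤ) ≠ 0 := by exact_mod_cast hM.ne'
  exact mul_left_cancel₀ hM' e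

/-! ### The two consequences, against the existence statement of `Dual/Kappa.lean` -/

/-- The existence statement owed by `Dual/Kappa.lean`: for `ℤ`-valued parabolic-elliptic `φ, ψ`
there is a bounding cochain `κ` of `φ ∪ ψ` whose cusp trace is `M * ∑ x, ζ x * ν x`. -/
def KappaHyp (Γ : Subgroup SL(2, ℤ)) [Fintype (SL(2, ℤ) ⧸ Γ)] : Prop :=
  ∀ (φ ψ : Additive Γ →+ ℤ), IsPEHom Γ φ → IsPEHom Γ ψ →
    ∀ (ζ ν : (SL(2, ℤ) ⧸ Γ) → ℤ), IsZeta Γ φ ζ → IsNu Γ ψ ν →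
    ∀ M : ℕ, 0 < M → (∀ x : SL(2, ℤ) ⧸ Γ, T ^ M • x = x) →
    ∃ κ : Γ → ℤ,
      (∀ γ δ : Γ, κ (γ * δ) = κ γ + κ δ + φ (Additive.ofMul γ) * ψ (Additive.ofMul δ)) ∧
      ∑ x, κ (kap Γ (T ^ M) x) = M * ∑ x, ζ x * ν x

theorem KappaHyp.exists_cellB [Fintype (SL(2, ℤ) ⧸ Γ)] (hK : KappaHyp Γ)
    {φ ψ : Additive Γ →+ ℤ} (hφ : IsPEHom Γ φ) (hψ : IsPEHom Γ ψ) {M : ℕ} (hM : 0 < M)
    (hMx : ∀ x : SL(2, ℤ) ⧸ Γ, T ^ M • x = x) :
    ∃ κ : Γ → ℤ,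
      (∀ γ δ : Γ, κ (γ * δ) = κ γ + κ δ + φ (Additive.ofMul γ) * ψ (Additive.ofMul δ)) ∧
      ∑ x, κ (kap Γ (T ^ M) x) = M * cellB Γ φ ψ := by
  obtain ⟨ζ, hζ⟩ := exists_isZeta hφ
  obtain ⟨ν, hν⟩ := exists_isNu hψ
  obtain ⟨κ, h1, h2⟩ := hK φ ψ hφ hψ ζ ν hζ hν M hM hMx
  exact ⟨κ, h1, by rw [h2, cellB_eq hφ hψ hζ hν]⟩

/-- **(A) Antisymmetry of the cellular pairing on `ℤ`-valued parabolic-elliptic homomorphisms.** -/
theorem cellB_antisymm_of_kappaHyp [Fintype (SL(2, ℤ) ⧸ Γ)] (hK : KappaHyp Γ)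
    {φ ψ : Additive Γ →+ ℤ} (hφ : IsPEHom Γ φ) (hψ : IsPEHom Γ ψ) :
    cellB Γ ψ φ = - cellB Γ φ ψ := by
  obtain ⟨M, hM, hMx⟩ := exists_pow_smul_trivial (Γ := Γ) T
  obtain ⟨κ₁, h₁, t₁⟩ := hK.exists_cellB hφ hψ hM hMx
  obtain ⟨κ₂, h₂, t₂⟩ := hK.exists_cellB hψ hφ hM hMx
  exact cellB_antisymm_of_kappa hφ hM hMx h₁ t₁ h₂ t₂

/-- **(W) Invariance of the cellular pairing under a positive-determinant normaliser.** -/
theorem cellB_comp_conj_of_kappaHyp [Fintype (SL(2, ℤ) ⧸ Γ)] (hK : KappaHyp Γ)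
    (hneg : (-1 : SL(2, ℤ)) ∈ Γ) (w : GL (Fin 2) ℝ) (hw : 0 < w.det.val) (α β : Γ →* Γ)
    (hα : ∀ γ, w * jSub Γ γ = jSub Γ (α γ) * w) (hβ : ∀ γ, jSub Γ γ * w = w * jSub Γ (β γ))
    {φ ψ : Additive Γ →+ ℤ} (hφ : IsPEHom Γ φ) (hψ : IsPEHom Γ ψ) :
    cellB Γ (φ.comp (MonoidHom.toAdditive α)) (ψ.comp (MonoidHom.toAdditive α))
      = cellB Γ φ ψ := by
  obtain ⟨M, hM, hMx⟩ := exists_pow_smul_trivial (Γ := Γ) T
  obtain ⟨κ₁, h₁, t₁⟩ := hK.exists_cellB hφ hψ hM hMx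
  obtain ⟨κ₂, h₂, t₂⟩ := hK.exists_cellB (isPEHom_comp_conj w α hα hφ)
    (isPEHom_comp_conj w α hα hψ) hM hMx
  exact cellB_comp_conj_of_kappa hneg w hw α β hα hβ hφ hψ hM hMx h₁ t₁ h₂ t₂

end

end Fermat.Agent.S41.Dual
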