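/-
S41, WP-D D2: the universal property of `PSL(2, ℤ) = C₂ * C₃`, stated on `SL(2, ℤ)`.

`exists_hom_of_sq_cube` : for `s`, `r` in a group `K` with `s² = 1`, `r³ = 1` there is a
homomorphism `SL(2, ℤ) →* K` with `S ↦ s` and `S * T ↦ r`.

Proof: ping-pong for the action of `SL(2, ℤ)` on the upper half plane (through the permutation
group of `ℍ`, where `-1` acts trivially) with the sets `{0 < re}` and `{re < 0}`.
-/
import Mathlib

set_option autoImplicit false

namespace Fermat.Agent.S41.Dual

open ModularGroup MatrixGroups UpperHalfPlane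
open scoped Pointwise

noncomputable section

namespace PSL

/-- The homomorphism from the cyclic group of order `n` attached to an element of order dividing
`n`. -/
def cyc {G : Type*} [Group G] (n : ℕ) (g : G) (hg : g ^ n = 1) : Multiplicative (ZMod n) →* G :=
  AddMonoidHom.toMultiplicativeLeft
    (ZMod.lift n ⟨zmultiplesHom (Additive G) (Additive.ofMul g), by
      rw [zmultiplesHom_apply, natCast_zsmul, ← ofMul_pow, hg]
      rfl⟩)

theorem cyc_ofAdd_intCast {G : Type*} [Group G] (n : ℕ) (g : G) (hg : g ^ n = 1) (m : ℤ) :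
    cyc n g hg (Multiplicative.ofAdd (m : ZMod n)) = g ^ m := by
  show Additive.toMul (ZMod.lift n _ (m : ZMod n)) = g ^ m
  rw [ZMod.lift_coe]
  show Additive.toMul (zmultiplesHom (Additive G) (Additive.ofMul g) m) = g ^ m
  rw [zmultiplesHom_apply, ← ofMul_zpow]
  rfl

theorem cyc_apply {G : Type*} [Group G] (n : ℕ) [NeZero n] (g : G) (hg : g ^ n = 1)
    (h : Multiplicative (ZMod n)) : cyc n g hg h = g ^ (Multiplicative.toAdd h).val := by
  have h1 : h = Multiplicative.ofAdd ((((Multiplicative.toAdd h).val : ℕ) : ℤ) : ZMod n) := by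
    rw [Int.cast_natCast, ZMod.natCast_zmod_val]
    rfl
  conv_lhs => rw [h1]
  rw [cyc_ofAdd_intCast, zpow_natCast]

/-- The action of `SL(2, ℤ)` on the upper half plane as a homomorphism to the permutation
group. -/
def perm : SL(2, ℤ) →* Equiv.Perm ℍ := MulAction.toPermHom SL(2, ℤ) ℍ

theorem perm_apply (g : SL(2, ℤ)) (z : ℍ) : perm g z = g • z := rfl

theorem perm_neg_one : perm (-1) = 1 := by
  ext1 z
  show (-1 : SL(2, ℤ)) • z = z
  rw [SL_neg_smul, one_smul]

theorem perm_S_sq : perm S ^ 2 = 1 := by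
  have h : (S ^ 2 : SL(2, ℤ)) = -1 := by decide
  rw [← map_pow, ← perm_neg_one, h]

theorem perm_R_cube : perm (S * T) ^ 3 = 1 := by
  have h : ((S * T) ^ 3 : SL(2, ℤ)) = -1 := by decide
  rw [← map_pow, ← perm_neg_one, h]

/-- The orders of the two cyclic factors. -/
def ord : Bool → ℕ
  | false => 2
  | true => 3

instance (b : Bool) : NeZero (ord b) := by
  cases b
  · exact ⟨by decide⟩
  · exact ⟨by decide⟩

/-- The two cyclic factors. -/
abbrev H (b : Bool) : Type := Multiplicative (ZMod (ord b))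

/-- The images of the generators of the two factors. -/
def gen : Bool → Equiv.Perm ℍ
  | false => perm S
  | true => perm (S * T)

theorem gen_pow (b : Bool) : gen b ^ ord b = 1 := by
  cases b
  · exact perm_S_sq
  · exact perm_R_cube

/-- The two homomorphisms into the permutation group of `ℍ`. -/
def f (b : Bool) : H b →* Equiv.Perm ℍ := cyc (ord b) (gen b) (gen_pow b)

/-- The ping-pong sets. -/
def X : Bool → Set ℍ
  | false => {z | 0 < z.re}
  | true => {z | z.re < 0}

theorem re_S_smul (z : ℍ) : (S • z).re = -z.re / Complex.normSq z := by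
  rw [UpperHalfPlane.modular_S_smul]
  show ((-(z : ℂ))⁻¹).re = _
  rw [Complex.inv_re, Complex.neg_re, Complex.normSq_neg]
  rfl

theorem normSq_pos (z : ℍ) : 0 < Complex.normSq (z : ℂ) :=
  Complex.normSq_pos.mpr z.ne_zero

theorem re_S_smul_pos (z : ℍ) (hz : z.re < 0) : 0 < (S • z).re := by
  rw [re_S_smul]
  exact div_pos (by linarith) (normSq_pos z)

theorem re_S_smul_neg (z : ℍ) (hz : 0 < z.re) : (S • z).re < 0 := by
  rw [re_S_smul]
  exact div_neg_of_neg_of_pos (by linarith) (normSq_pos z)

theorem re_R_smul_neg (z : ℍ) (hz : 0 < z.re) : ((S * T) • z).re < 0 := by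
  rw [mul_smul]
  apply re_S_smul_neg
  rw [re_T_smul]
  linarith

theorem re_R_sq_smul_neg (z : ℍ) (hz : 0 < z.re) : ((S * T) • (S * T) • z).re < 0 := by
  rw [mul_smul, mul_smul]
  apply re_S_smul_neg
  rw [re_T_smul, re_S_smul, re_T_smul]
  have h1 : 0 < Complex.normSq ((T • z : ℍ) : ℂ) := normSq_pos _
  have h2 : Complex.normSq ((T • z : ℍ) : ℂ) = (z.re + 1) ^ 2 + z.im ^ 2 := by
    rw [Complex.normSq_apply]
    have e1 : ((T • z : ℍ) : ℂ).re = z.re + 1 := re_T_smul z
    have e2 : ((T • z : ℍ) : ℂ).im = z.im := im_T_smul z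
    rw [e1, e2]
    ring
  rw [h2] at h1 ⊢
  have h3 : -(z.re + 1) / ((z.re + 1) ^ 2 + z.im ^ 2) + 1 =
      ((z.re + 1) ^ 2 + z.im ^ 2 - (z.re + 1)) / ((z.re + 1) ^ 2 + z.im ^ 2) := by
    field_simp
    ring
  rw [h3]
  apply div_pos _ h1
  nlinarith [sq_nonneg z.im]

theorem f_apply (b : Bool) (h : H b) : f b h = gen b ^ (Multiplicative.toAdd h).val :=
  cyc_apply _ _ _ h

theorem cyc_gen {G : Type*} [Group G] (n : ℕ) (g : G) (hg : g ^ n = 1) :
    cyc n g hg (Multiplicative.ofAdd 1) = g := by
  have h := cyc_ofAdd_intCast n g hg 1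
  rwa [Int.cast_one, zpow_one] at h

theorem X_nonempty (i : Bool) : (X i).Nonempty := by
  cases i
  · refine ⟨UpperHalfPlane.mk (1 + Complex.I) (by simp), ?_⟩
    show 0 < (1 + Complex.I).re
    simp
  · refine ⟨UpperHalfPlane.mk (-1 + Complex.I) (by simp), ?_⟩
    show (-1 + Complex.I).re < 0
    simp

theorem X_disjoint : Pairwise (Function.onFun Disjoint X) := by
  intro i j hij
  show Disjoint (X i) (X j)
  rw [Set.disjoint_left]
  intro z h1 h2
  cases i <;> cases j
  · exact hij rfl
  · have h1' : 0 < z.re := h1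
    have h2' : z.re < 0 := h2
    linarith
  · have h1' : z.re < 0 := h1
    have h2' : 0 < z.re := h2
    linarith
  · exact hij rfl

theorem pingpong : Pairwise fun i j => ∀ h : H i, h ≠ 1 → f i h • X j ⊆ X i := by
  intro i j hij h hh
  have hval : (Multiplicative.toAdd h).val ≠ 0 := by
    intro h0
    apply hh
    have h1 : Multiplicative.toAdd h = 0 := (ZMod.val_eq_zero _).mp h0
    exact h1
  have hlt : (Multiplicative.toAdd h).val < ord i := ZMod.val_lt _
  rw [f_apply, Set.smul_set_subset_iff]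
  intro z hz
  rw [Equiv.Perm.smul_def]
  cases i <;> cases j
  · exact absurd rfl hij
  · have h1 : (Multiplicative.toAdd h).val = 1 := by
      have h2 : (Multiplicative.toAdd h).val < 2 := hlt
      omega
    rw [h1, pow_one]
    exact re_S_smul_pos z hz
  · have h1 : (Multiplicative.toAdd h).val = 1 ∨ (Multiplicative.toAdd h).val = 2 := by
      have h2 : (Multiplicative.toAdd h).val < 3 := hlt
      omega
    rcases h1 with h1 | h1
    · rw [h1, pow_one]
      exact re_R_smul_neg z hz
    · rw [h1, pow_two]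
      exact re_R_sq_smul_neg z hz
  · exact absurd rfl hij

theorem card_H_true : 3 ≤ Cardinal.mk (H true) := by
  have h : Cardinal.mk (H true) = 3 := by
    rw [Cardinal.mk_fintype, Fintype.card_multiplicative, ZMod.card]
    rfl
  rw [h]

/-- The free product of the two cyclic groups embeds into the permutation group of `ℍ`. -/
theorem lift_injective : Function.Injective (Monoid.CoprodI.lift f) :=
  Monoid.CoprodI.lift_injective_of_ping_pong f (Or.inr ⟨true, card_H_true⟩) X X_nonempty
    X_disjoint pingpong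

theorem lift_of_gen (b : Bool) :
    Monoid.CoprodI.lift f (Monoid.CoprodI.of (i := b) (Multiplicative.ofAdd 1)) = gen b := by
  rw [Monoid.CoprodI.lift_of]
  exact cyc_gen _ _ _

theorem perm_mem_range (g : SL(2, ℤ)) : perm g ∈ (Monoid.CoprodI.lift f).range := by
  have hS : perm S ∈ (Monoid.CoprodI.lift f).range := ⟨_, lift_of_gen false⟩
  have hR : perm (S * T) ∈ (Monoid.CoprodI.lift f).range := ⟨_, lift_of_gen true⟩
  have hT : perm T ∈ (Monoid.CoprodI.lift f).range := by
    have h1 : T = S⁻¹ * (S * T) := by group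
    rw [h1, map_mul, map_inv]
    exact mul_mem (inv_mem hS) hR
  have hle : Subgroup.closure {S, T} ≤ (Monoid.CoprodI.lift f).range.comap perm := by
    rw [Subgroup.closure_le]
    rintro x (rfl | rfl)
    · exact hS
    · exact hT
  have hg : g ∈ Subgroup.closure {S, T} := by
    rw [SpecialLinearGroup.SL2Z_generators]
    exact Subgroup.mem_top g
  exact hle hg

/-- The homomorphism from `SL(2, ℤ)` to the free product `C₂ * C₃`. -/
def toCoprod : SL(2, ℤ) →* Monoid.CoprodI H :=
  (MonoidHom.ofInjective lift_injective).symm.toMonoidHom.comp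
    (perm.codRestrict (Monoid.CoprodI.lift f).range perm_mem_range)

theorem toCoprod_eq (g : SL(2, ℤ)) (x : Monoid.CoprodI H)
    (h : Monoid.CoprodI.lift f x = perm g) : toCoprod g = x := by
  show (MonoidHom.ofInjective lift_injective).symm ⟨perm g, perm_mem_range g⟩ = x
  rw [MulEquiv.symm_apply_eq]
  exact Subtype.ext h.symm

theorem toCoprod_S : toCoprod S = Monoid.CoprodI.of (i := false) (Multiplicative.ofAdd 1) :=
  toCoprod_eq S _ (lift_of_gen false)

theorem toCoprod_R : toCoprod (S * T) = Monoid.CoprodI.of (i := true) (Multiplicative.ofAdd 1) :=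
  toCoprod_eq (S * T) _ (lift_of_gen true)

end PSL

/-- The universal property of `PSL(2, ℤ) = C₂ * C₃` on `SL(2, ℤ)`: an element `s` with `s² = 1`
and an element `r` with `r³ = 1` of a group `K` define a homomorphism `SL(2, ℤ) →* K` with
`S ↦ s`, `S * T ↦ r`. -/
theorem exists_hom_of_sq_cube {K : Type*} [Group K] (s r : K) (hs : s * s = 1)
    (hr : r * r * r = 1) : ∃ f : SL(2, ℤ) →* K, f S = s ∧ f (S * T) = r := by
  let genK : Bool → K := fun b => match b with
    | false => s
    | true => r
  have hgenK : ∀ b, genK b ^ PSL.ord b = 1 := by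
    intro b
    cases b
    · show s ^ 2 = 1
      rw [pow_two, hs]
    · show r ^ 3 = 1
      rw [pow_succ, pow_two, hr]
  let fK : ∀ b, PSL.H b →* K := fun b => PSL.cyc (PSL.ord b) (genK b) (hgenK b)
  refine ⟨(Monoid.CoprodI.lift fK).comp PSL.toCoprod, ?_, ?_⟩
  · show Monoid.CoprodI.lift fK (PSL.toCoprod S) = s
    rw [PSL.toCoprod_S, Monoid.CoprodI.lift_of]
    exact PSL.cyc_gen _ _ _
  · show Monoid.CoprodI.lift fK (PSL.toCoprod (S * T)) = r
    rw [PSL.toCoprod_R, Monoid.CoprodI.lift_of]
    exact PSL.cyc_gen _ _ _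

end

end Fermat.Agent.S41.Dual
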