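import Mathlib
import Fermat.Agent.S41.Dual.Cell
import Fermat.Agent.S41.Dual.PSL
import Fermat.Agent.S41.Dual.Cusp
import Fermat.Agent.S41.Dual.KappaInv

/-!
# S41 / WP-D (DUALITY) D5 : the primitive `κ` of the cup product and its cusp trace

For `ℤ`-valued parabolic-elliptic homomorphisms `φ, ψ` of `Γ` (finite index in `SL(2, ℤ)`,
`-1 ∈ Γ`) a function `κ : Γ → ℤ` with `κ (γ δ) = κ γ + κ δ + φ γ * ψ δ` (`IsKappa`) exists, and
its *cusp trace* `∑ x, κ (kap Γ (T ^ M) x)` (`T ^ M` acting trivially on `X = SL(2, ℤ) ⧸ Γ`)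
equals `M * cellB Γ φ ψ` (`exists_kappa`); the cusp trace does not depend on `κ`
(`cuspTr_eq_of_isKappa`).  Consequences: antisymmetry of `cellB` (`cellB_antisymm_int`) and
invariance under conjugation by a positive-determinant normaliser of `Γ`
(`cellB_comp_conj_int`, `cellB_eq_of_conj_int`; abstract form `cellB_comp_hom_int`).

Construction of `κ`: the Heisenberg lift.  With gauges `w`, `u` as in `IsZeta`, `IsNu` put
`F g x = fgenA g φ w x`, `G g x = fgenA g ψ u x`.  The universal property of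
`PSL(2, ℤ) = C₂ * C₃` (`exists_hom_of_sq_cube` of `Dual/PSL.lean`) gives a homomorphism
`Θ : SL(2, ℤ) → Perm (X × ℤ × ℤ × ℤ)` with
`Θ S (x, a, b, k) = (S • x, a, b + ν x, k)` and
`Θ (S T) (x, a, b, k) = (S T • x, a + F (S T) x, b, k + F (S T) x * b)`;
every `Θ g` has the form `(x, a, b, k) ↦ (g • x, a + F g x, b + G g x, k + K g x + F g x * b)`
and `κ γ := K γ x₀`.
-/

set_option autoImplicit false

open scoped MatrixGroups
open ModularGroup

namespace Fermat.Agent.S41.Dual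

open Fermat.Agent.ESJ.ParHom Fermat.Agent.S21.ParabolicBound

namespace Kap

/-! ### The abstract Heisenberg lift -/

section heis

variable {G₀ X A : Type*} [Group G₀] [MulAction G₀ X] [CommRing A]

/-- The permutation `π` of `X × A × A × A` is the Heisenberg translation over `g` attached to
the crossed maps `F`, `G` and the function `K`. -/
def HeisForm (F G : G₀ → X → A) (π : Equiv.Perm (X × A × A × A)) (g : G₀) (K : X → A) : Prop :=
  ∀ (x : X) (a b k : A), π (x, a, b, k) = (g • x, a + F g x, b + G g x, k + K x + F g x * b)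

variable {F G : G₀ → X → A}

theorem HeisForm.eq_fst {π : Equiv.Perm (X × A × A × A)} {g : G₀} {K : X → A}
    (h : HeisForm F G π g K) (x : X) : K x = (π (x, 0, 0, 0)).2.2.2 := by
  rw [h x 0 0 0]
  simp

theorem HeisForm.congr {π : Equiv.Perm (X × A × A × A)} {g : G₀} {K : X → A}
    (h : HeisForm F G π g K) : HeisForm F G π g (fun x => (π (x, 0, 0, 0)).2.2.2) := by
  have e : K = fun x => (π (x, 0, 0, 0)).2.2.2 := funext h.eq_fst
  rw [← e]
  exact h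

theorem crossed_one (hF : ∀ g h x, F (g * h) x = F g (h • x) + F h x) (x : X) : F 1 x = 0 := by
  have h := hF 1 1 x
  rw [one_mul, one_smul] at h
  exact left_eq_add.mp h

theorem crossed_inv (hF : ∀ g h x, F (g * h) x = F g (h • x) + F h x) (g : G₀) (x : X) :
    F g⁻¹ x = - F g (g⁻¹ • x) := by
  have h := hF g g⁻¹ x
  rw [mul_inv_cancel, crossed_one hF] at h
  exact eq_neg_of_add_eq_zero_right h.symm

theorem HeisForm.one (hF : ∀ g h x, F (g * h) x = F g (h • x) + F h x)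
    (hG : ∀ g h x, G (g * h) x = G g (h • x) + G h x) :
    HeisForm F G (1 : Equiv.Perm (X × A × A × A)) (1 : G₀) (fun _ => 0) := by
  intro x a b k
  simp [crossed_one hF, crossed_one hG]

theorem HeisForm.mul (hF : ∀ g h x, F (g * h) x = F g (h • x) + F h x)
    (hG : ∀ g h x, G (g * h) x = G g (h • x) + G h x)
    {π ρ : Equiv.Perm (X × A × A × A)} {g h : G₀} {Kg Kh : X → A}
    (hg : HeisForm F G π g Kg) (hh : HeisForm F G ρ h Kh) :
    HeisForm F G (π * ρ) (g * h) (fun x => Kh x + Kg (h • x) + F g (h • x) * G h x) := by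
  intro x a b k
  rw [Equiv.Perm.mul_apply, hh x a b k, hg, mul_smul, hF, hG]
  refine Prod.ext rfl (Prod.ext ?_ (Prod.ext ?_ ?_))
  · simp only; ring
  · simp only; ring
  · simp only; ring

theorem HeisForm.inv (hF : ∀ g h x, F (g * h) x = F g (h • x) + F h x)
    (hG : ∀ g h x, G (g * h) x = G g (h • x) + G h x)
    {π : Equiv.Perm (X × A × A × A)} {g : G₀} {Kg : X → A}
    (hg : HeisForm F G π g Kg) :
    HeisForm F G π⁻¹ g⁻¹ (fun x => - Kg (g⁻¹ • x) - F g (g⁻¹ • x) * G g⁻¹ x) := by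
  intro x a b k
  have e1 := crossed_inv hF g x
  have e2 := crossed_inv hG g x
  rw [Equiv.Perm.inv_eq_iff_eq, hg, smul_inv_smul]
  refine Prod.ext rfl (Prod.ext ?_ (Prod.ext ?_ ?_))
  · simp only [e1]; ring
  · simp only [e2]; ring
  · simp only [e1, e2]; ring

/-- If a homomorphism to the permutations of `X × A × A × A` has Heisenberg form on a generating
set, then it has Heisenberg form everywhere. -/
theorem exists_heisForm (hF : ∀ g h x, F (g * h) x = F g (h • x) + F h x)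
    (hG : ∀ g h x, G (g * h) x = G g (h • x) + G h x)
    (f : G₀ →* Equiv.Perm (X × A × A × A)) (s : Set G₀) (hs : Subgroup.closure s = ⊤)
    (hf : ∀ g ∈ s, ∃ K, HeisForm F G (f g) g K) (g : G₀) :
    HeisForm F G (f g) g (fun x => (f g (x, 0, 0, 0)).2.2.2) := by
  have hg : g ∈ Subgroup.closure s := hs ▸ Subgroup.mem_top g
  suffices h : ∃ K, HeisForm F G (f g) g K by
    obtain ⟨K, hK⟩ := h
    exact hK.congr
  induction hg using Subgroup.closure_induction with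
  | mem g hg => exact hf g hg
  | one => exact ⟨_, by rw [map_one]; exact HeisForm.one hF hG⟩
  | mul g h _ _ ihg ihh =>
    obtain ⟨Kg, hKg⟩ := ihg
    obtain ⟨Kh, hKh⟩ := ihh
    exact ⟨_, by rw [map_mul]; exact hKg.mul hF hG hKh⟩
  | inv g _ ih =>
    obtain ⟨Kg, hKg⟩ := ih
    exact ⟨_, by rw [map_inv]; exact hKg.inv hF hG⟩

/-- The cocycle relation of the third coordinate. -/
theorem heis_cocycle (hF : ∀ g h x, F (g * h) x = F g (h • x) + F h x)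
    (hG : ∀ g h x, G (g * h) x = G g (h • x) + G h x)
    (f : G₀ →* Equiv.Perm (X × A × A × A))
    (hf : ∀ g, HeisForm F G (f g) g (fun x => (f g (x, 0, 0, 0)).2.2.2)) (g h : G₀) (x : X) :
    (f (g * h) (x, 0, 0, 0)).2.2.2
      = (f h (x, 0, 0, 0)).2.2.2 + (f g (h • x, 0, 0, 0)).2.2.2 + F g (h • x) * G h x := by
  have h1 := ((hf g).mul hF hG (hf h)).eq_fst x
  rw [← map_mul] at h1
  exact h1.symm

end heis

/-! ### Elementary facts on `SL(2, ℤ) ⧸ Γ` -/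

section coset

variable {Γ : Subgroup SL(2, ℤ)}

theorem neg_one_smul_coset (hneg : (-1 : SL(2, ℤ)) ∈ Γ) (x : SL(2, ℤ) ⧸ Γ) :
    (-1 : SL(2, ℤ)) • x = x := by
  induction x using QuotientGroup.induction_on with
  | H g =>
    show (((-1 : SL(2, ℤ)) * g : SL(2, ℤ)) : SL(2, ℤ) ⧸ Γ) = (g : SL(2, ℤ) ⧸ Γ)
    rw [eq_comm, QuotientGroup.eq]
    have e : g⁻¹ * ((-1 : SL(2, ℤ)) * g) = -1 := by simp
    rw [e]
    exact hneg

theorem S_mul_S_eq_neg_one : (S * S : SL(2, ℤ)) = -1 := by decide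

theorem ST_cube_eq_neg_one : ((S * T) * (S * T) * (S * T) : SL(2, ℤ)) = -1 := by decide

theorem trace_neg_one_sq_le :
    ((-1 : SL(2, ℤ)) : Matrix (Fin 2) (Fin 2) ℤ).trace ^ 2 ≤ 4 := by decide

/-- The base point of `SL(2, ℤ) ⧸ Γ`. -/
abbrev basePt (Γ : Subgroup SL(2, ℤ)) : SL(2, ℤ) ⧸ Γ := ((1 : SL(2, ℤ)) : SL(2, ℤ) ⧸ Γ)

theorem smul_basePt (γ : Γ) : (γ : SL(2, ℤ)) • basePt Γ = basePt Γ := by
  show (((γ : SL(2, ℤ)) * 1 : SL(2, ℤ)) : SL(2, ℤ) ⧸ Γ) = ((1 : SL(2, ℤ)) : SL(2, ℤ) ⧸ Γ)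
  rw [mul_one, QuotientGroup.eq, mul_one]
  exact Γ.inv_mem γ.2

theorem out_smul_basePt (x : SL(2, ℤ) ⧸ Γ) : (Quotient.out x : SL(2, ℤ)) • basePt Γ = x := by
  show (((Quotient.out x : SL(2, ℤ)) * 1 : SL(2, ℤ)) : SL(2, ℤ) ⧸ Γ) = x
  rw [mul_one]
  exact QuotientGroup.out_eq' x

theorem out_mul_kap (g : SL(2, ℤ)) (x : SL(2, ℤ) ⧸ Γ) :
    Quotient.out (g • x) * (kap Γ g x : SL(2, ℤ)) = g * Quotient.out x := by
  simp only [kap]
  group

theorem closure_S_ST : Subgroup.closure ({S, S * T} : Set SL(2, ℤ)) = ⊤ := by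
  rw [eq_top_iff, ← SpecialLinearGroup.SL2Z_generators, Subgroup.closure_le]
  have h1 : S ∈ Subgroup.closure ({S, S * T} : Set SL(2, ℤ)) :=
    Subgroup.subset_closure (Set.mem_insert _ _)
  have h2 : S * T ∈ Subgroup.closure ({S, S * T} : Set SL(2, ℤ)) :=
    Subgroup.subset_closure (Set.mem_insert_of_mem _ rfl)
  rintro g (rfl | rfl)
  · exact h1
  · have e : (T : SL(2, ℤ)) = S⁻¹ * (S * T) := by group
    have h3 : S⁻¹ * (S * T) ∈ Subgroup.closure ({S, S * T} : Set SL(2, ℤ)) :=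
      mul_mem (inv_mem h1) h2
    rw [← e] at h3
    exact h3

variable {A : Type*} [AddCommGroup A]

theorem fgenA_basePt (φ : Additive Γ →+ A) (v : (SL(2, ℤ) ⧸ Γ) → A) (γ : Γ) :
    fgenA (γ : SL(2, ℤ)) φ v (basePt Γ) = φ (Additive.ofMul γ) := by
  rw [fgenA, smul_basePt, sub_self, add_zero]
  exact cphA_base φ γ

theorem fgenA_S_add (hneg : (-1 : SL(2, ℤ)) ∈ Γ) {ψ : Additive Γ →+ A} (hψ : IsPEHom Γ ψ)
    (u : (SL(2, ℤ) ⧸ Γ) → A) (x : SL(2, ℤ) ⧸ Γ) :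
    fgenA S ψ u (S • x) + fgenA S ψ u x = 0 := by
  rw [← fgenA_mul]
  apply fgenA_eq_zero_of_fixed hψ u
  · rw [S_mul_S_eq_neg_one]
    exact neg_one_smul_coset hneg x
  · rw [S_mul_S_eq_neg_one]
    exact trace_neg_one_sq_le

theorem fgenA_ST_add (hneg : (-1 : SL(2, ℤ)) ∈ Γ) {φ : Additive Γ →+ A} (hφ : IsPEHom Γ φ)
    (w : (SL(2, ℤ) ⧸ Γ) → A) (x : SL(2, ℤ) ⧸ Γ) :
    fgenA (S * T) φ w ((S * T) • (S * T) • x) + fgenA (S * T) φ w ((S * T) • x)
      + fgenA (S * T) φ w x = 0 := by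
  have h : fgenA ((S * T) * (S * T) * (S * T)) φ w x = 0 := by
    apply fgenA_eq_zero_of_fixed hφ w
    · rw [ST_cube_eq_neg_one]
      exact neg_one_smul_coset hneg x
    · rw [ST_cube_eq_neg_one]
      exact trace_neg_one_sq_le
  rw [fgenA_mul, fgenA_mul] at h
  exact h

end coset

/-! ### The Heisenberg lift over `SL(2, ℤ) ⧸ Γ` -/

section lift

variable {Γ : Subgroup SL(2, ℤ)} {A : Type*} [CommRing A]

/-- The map `(x, a, b, k) ↦ (σ x, a + α x, b + β x, k + α x * b)`. -/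
def heisFun {X : Type*} (σ : X → X) (α β : X → A) (p : X × A × A × A) : X × A × A × A :=
  (σ p.1, p.2.1 + α p.1, p.2.2.1 + β p.1, p.2.2.2 + α p.1 * p.2.2.1)

/-- A function whose square is the identity, as a permutation. -/
def permOfSq {α : Type*} (f : α → α) (h : ∀ p, f (f p) = p) : Equiv.Perm α :=
  ⟨f, f, h, h⟩

/-- A function whose cube is the identity, as a permutation. -/
def permOfCube {α : Type*} (f : α → α) (h : ∀ p, f (f (f p)) = p) : Equiv.Perm α :=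
  ⟨f, f ∘ f, h, h⟩

/-- **The primitive of the cup product of the crossed maps** of `φ` (in an `S`-gauge `w`) and
`ψ` (in an `S * T`-gauge `u`), normalised at `S` and `S * T`. -/
theorem exists_cup_primitive
    (hneg : (-1 : SL(2, ℤ)) ∈ Γ) {φ ψ : Additive Γ →+ A} (hφ : IsPEHom Γ φ) (hψ : IsPEHom Γ ψ)
    (w u : (SL(2, ℤ) ⧸ Γ) → A) (hw : ∀ x, fgenA S φ w x = 0)
    (hu : ∀ x, fgenA (S * T) ψ u x = 0) :
    ∃ K : SL(2, ℤ) → (SL(2, ℤ) ⧸ Γ) → A,
      (∀ g h x, K (g * h) x = K h x + K g (h • x) + fgenA g φ w (h • x) * fgenA h ψ u x) ∧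
      (∀ x, K S x = 0) ∧ (∀ x, K (S * T) x = 0) := by
  set F : SL(2, ℤ) → (SL(2, ℤ) ⧸ Γ) → A := fun g x => fgenA g φ w x with hFdef
  set G : SL(2, ℤ) → (SL(2, ℤ) ⧸ Γ) → A := fun g x => fgenA g ψ u x with hGdef
  have hF : ∀ g h x, F (g * h) x = F g (h • x) + F h x := fun g h x => fgenA_mul g h φ w x
  have hG : ∀ g h x, G (g * h) x = G g (h • x) + G h x := fun g h x => fgenA_mul g h ψ u x
  have hs : ∀ p : (SL(2, ℤ) ⧸ Γ) × A × A × A,
      heisFun (fun x => S • x) (fun _ => 0) (G S)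
        (heisFun (fun x => S • x) (fun _ => 0) (G S) p) = p := by
    rintro ⟨x, a, b, k⟩
    have e1 : S • S • x = x := by
      rw [← mul_smul, S_mul_S_eq_neg_one]
      exact neg_one_smul_coset hneg x
    have e2 : G S (S • x) + G S x = 0 := fgenA_S_add hneg hψ u x
    simp only [heisFun]
    refine Prod.ext e1 (Prod.ext ?_ (Prod.ext ?_ ?_))
    · simp
    · simp only
      linear_combination e2
    · simp
  have hr : ∀ p : (SL(2, ℤ) ⧸ Γ) × A × A × A,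
      heisFun (fun x => (S * T) • x) (F (S * T)) (fun _ => 0)
        (heisFun (fun x => (S * T) • x) (F (S * T)) (fun _ => 0)
          (heisFun (fun x => (S * T) • x) (F (S * T)) (fun _ => 0) p)) = p := by
    rintro ⟨x, a, b, k⟩
    have e1 : (S * T) • (S * T) • (S * T) • x = x := by
      have e0 : (S * T) • (S * T) • (S * T) • x = ((S * T) * (S * T) * (S * T)) • x := by
        simp only [mul_smul]
      rw [e0, ST_cube_eq_neg_one]
      exact neg_one_smul_coset hneg x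
    have e2 : F (S * T) ((S * T) • (S * T) • x) + F (S * T) ((S * T) • x) + F (S * T) x = 0 :=
      fgenA_ST_add hneg hφ w x
    simp only [heisFun]
    refine Prod.ext e1 (Prod.ext ?_ (Prod.ext ?_ ?_))
    · simp only
      linear_combination e2
    · simp
    · simp only
      linear_combination b * e2
  obtain ⟨f, hfS, hfR⟩ := exists_hom_of_sq_cube (permOfSq _ hs) (permOfCube _ hr)
    (Equiv.ext hs) (Equiv.ext hr)
  have hform := exists_heisForm hF hG f {S, S * T} closure_S_ST (by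
    rintro g (rfl | rfl)
    · refine ⟨fun _ => 0, fun x a b k => ?_⟩
      rw [hfS]
      have e : F S x = 0 := hw x
      show heisFun (fun x => S • x) (fun _ => 0) (G S) (x, a, b, k) = _
      simp only [heisFun, e]
      simp
    · refine ⟨fun _ => 0, fun x a b k => ?_⟩
      rw [hfR]
      have e : G (S * T) x = 0 := hu x
      show heisFun (fun x => (S * T) • x) (F (S * T)) (fun _ => 0) (x, a, b, k) = _
      simp only [heisFun, e]
      simp)
  refine ⟨fun g x => (f g (x, 0, 0, 0)).2.2.2, heis_cocycle hF hG f hform, fun x => ?_,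
    fun x => ?_⟩
  · show (f S (x, 0, 0, 0)).2.2.2 = 0
    rw [hfS]
    show (heisFun (fun x => S • x) (fun _ => 0) (G S) (x, 0, 0, 0)).2.2.2 = 0
    simp [heisFun]
  · show (f (S * T) (x, 0, 0, 0)).2.2.2 = 0
    rw [hfR]
    show (heisFun (fun x => (S * T) • x) (F (S * T)) (fun _ => 0) (x, 0, 0, 0)).2.2.2 = 0
    simp [heisFun]

end lift

end Kap

open Kap

/-! ### From the primitive on `SL(2, ℤ) × X` to `κ` on `Γ` -/

section kappa

variable {Γ : Subgroup SL(2, ℤ)} {A : Type*} [CommRing A]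

/-- `κ` is a primitive of the cup product `φ ∪ ψ`. -/
def IsKappa (φ ψ : Additive Γ →+ A) (κ : Γ → A) : Prop :=
  ∀ γ δ : Γ, κ (γ * δ) = κ γ + κ δ + φ (Additive.ofMul γ) * ψ (Additive.ofMul δ)

/-- `K` is a primitive of the cup product of the crossed maps of `(φ, w)` and `(ψ, u)`. -/
def IsCupPrim (φ ψ : Additive Γ →+ A) (w u : (SL(2, ℤ) ⧸ Γ) → A)
    (K : SL(2, ℤ) → (SL(2, ℤ) ⧸ Γ) → A) : Prop :=
  ∀ g h x, K (g * h) x = K h x + K g (h • x) + fgenA g φ w (h • x) * fgenA h ψ u x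

variable {φ ψ : Additive Γ →+ A} {w u : (SL(2, ℤ) ⧸ Γ) → A}
  {K : SL(2, ℤ) → (SL(2, ℤ) ⧸ Γ) → A}

theorem IsCupPrim.isKappa (hK : IsCupPrim φ ψ w u K) :
    IsKappa φ ψ (fun γ => K (γ : SL(2, ℤ)) (basePt Γ)) := by
  intro γ δ
  have h := hK (γ : SL(2, ℤ)) (δ : SL(2, ℤ)) (basePt Γ)
  rw [smul_basePt, fgenA_basePt, fgenA_basePt] at h
  show K ((γ * δ : Γ) : SL(2, ℤ)) _ = _
  rw [Subgroup.coe_mul, h]
  ring

theorem IsCupPrim.one (hK : IsCupPrim φ ψ w u K) (x : SL(2, ℤ) ⧸ Γ) : K 1 x = 0 := by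
  have h := hK 1 1 x
  rw [one_mul, one_smul, fgenA_one, zero_mul, add_zero] at h
  exact left_eq_add.mp h

theorem IsCupPrim.kap_formula (hK : IsCupPrim φ ψ w u K) (g : SL(2, ℤ)) (x : SL(2, ℤ) ⧸ Γ) :
    K (kap Γ g x : SL(2, ℤ)) (basePt Γ) + K (Quotient.out (g • x)) (basePt Γ)
        + fgenA (Quotient.out (g • x)) φ w (basePt Γ) * ψ (Additive.ofMul (kap Γ g x))
      = K (Quotient.out x) (basePt Γ) + K g x
        + fgenA g φ w x * fgenA (Quotient.out x) ψ u (basePt Γ) := by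
  have h1 := hK (Quotient.out (g • x)) (kap Γ g x : SL(2, ℤ)) (basePt Γ)
  have h2 := hK g (Quotient.out x) (basePt Γ)
  rw [smul_basePt, fgenA_basePt, out_mul_kap] at h1
  rw [out_smul_basePt] at h2
  rw [← h1, h2]

theorem IsCupPrim.kap_of_fixed (hK : IsCupPrim φ ψ w u K) (hφ : IsPEHom Γ φ)
    (hψ : IsPEHom Γ ψ) {g : SL(2, ℤ)} {x : SL(2, ℤ) ⧸ Γ} (hx : g • x = x)
    (htr : (g : Matrix (Fin 2) (Fin 2) ℤ).trace ^ 2 ≤ 4) :
    K (kap Γ g x : SL(2, ℤ)) (basePt Γ) = K g x := by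
  have h := hK.kap_formula g x
  have e1 : ψ (Additive.ofMul (kap Γ g x)) = 0 := cphA_eq_zero_of_fixed hψ hx htr
  have e2 : fgenA g φ w x = 0 := fgenA_eq_zero_of_fixed hφ w hx htr
  rw [e1, e2, hx] at h
  linear_combination h

theorem fgenA_T_pow {ζ : (SL(2, ℤ) ⧸ Γ) → A} (hζ : ∀ x, fgenA T φ w x = ζ (T • x) - ζ x)
    (n : ℕ) (x : SL(2, ℤ) ⧸ Γ) : fgenA (T ^ n) φ w x = ζ (T ^ n • x) - ζ x := by
  induction n generalizing x with
  | zero => simp [fgenA_one]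
  | succ n ih =>
    rw [pow_succ, fgenA_mul, ih, hζ, mul_smul]
    ring

theorem IsCupPrim.sum_T_pow [Fintype (SL(2, ℤ) ⧸ Γ)] (hK : IsCupPrim φ ψ w u K)
    (hKS : ∀ x, K S x = 0) (hKR : ∀ x, K (S * T) x = 0)
    (hw : ∀ x, fgenA S φ w x = 0) (hu : ∀ x, fgenA (S * T) ψ u x = 0)
    {ζ ν : (SL(2, ℤ) ⧸ Γ) → A} (hζ : ∀ x, fgenA T φ w x = ζ (T • x) - ζ x)
    (hν : ∀ x, fgenA S ψ u x = ν x) (n : ℕ) :
    ∑ x, K (T ^ n) x = - ∑ i ∈ Finset.range n, ∑ x, (ζ (T ^ i • x) - ζ x) * ν x := by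
  have hKT : ∀ x, K T x = 0 := by
    intro x
    have h := hK S T x
    rw [hKR, hKS, hw] at h
    linear_combination -h
  have hGT : ∀ x, fgenA T ψ u x = - ν (T • x) := by
    intro x
    have h := fgenA_mul S T ψ u x
    rw [hu, hν] at h
    linear_combination -h
  have hstep : ∀ (n : ℕ) (x : SL(2, ℤ) ⧸ Γ),
      K (T ^ (n + 1)) x = K (T ^ n) (T • x) - (ζ (T ^ n • T • x) - ζ (T • x)) * ν (T • x) := by
    intro n x
    rw [pow_succ, hK, hKT, fgenA_T_pow hζ, hGT]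
    ring
  induction n with
  | zero => simp [hK.one]
  | succ n ih =>
    rw [Finset.sum_range_succ, neg_add, ← ih, ← sub_eq_add_neg, ← Finset.sum_sub_distrib]
    simp only [hstep]
    exact sum_comp_smul T (fun y => K (T ^ n) y - (ζ (T ^ n • y) - ζ y) * ν y)

/-- **Existence of `κ` and its cusp trace.** -/
theorem exists_kappa [Fintype (SL(2, ℤ) ⧸ Γ)]
    (hneg : (-1 : SL(2, ℤ)) ∈ Γ) (hφ : IsPEHom Γ φ) (hψ : IsPEHom Γ ψ)
    {ζ ν : (SL(2, ℤ) ⧸ Γ) → A} (hζ : IsZeta Γ φ ζ) (hν : IsNu Γ ψ ν)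
    {M : ℕ} (hM : ∀ x : SL(2, ℤ) ⧸ Γ, T ^ M • x = x) :
    ∃ κ : Γ → A, IsKappa φ ψ κ ∧ ∑ x, κ (kap Γ (T ^ M) x) = M * ∑ x, ζ x * ν x := by
  have hν' := hν
  obtain ⟨w, hw1, hw2⟩ := hζ
  obtain ⟨u, hu1, hu2⟩ := hν
  obtain ⟨K, hK, hKS, hKR⟩ := exists_cup_primitive hneg hφ hψ w u hw1 hu1
  have hK' : IsCupPrim φ ψ w u K := hK
  refine ⟨fun γ => K (γ : SL(2, ℤ)) (basePt Γ), hK'.isKappa, ?_⟩
  have e1 : ∀ x, K (kap Γ (T ^ M) x : SL(2, ℤ)) (basePt Γ) = K (T ^ M) x := fun x =>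
    hK'.kap_of_fixed hφ hψ (hM x) (trace_T_pow_sq_le M)
  simp only [e1]
  rw [hK'.sum_T_pow hKS hKR hw1 hu1 hw2 hu2 M]
  have hinv : ∀ x, (∑ i ∈ Finset.range M, ζ (T ^ i • T • x))
      = ∑ i ∈ Finset.range M, ζ (T ^ i • x) := by
    intro x
    have h1 := Finset.sum_range_succ (fun i => ζ (T ^ i • x)) M
    have h2 := Finset.sum_range_succ' (fun i => ζ (T ^ i • x)) M
    simp only [pow_zero, one_smul, hM, pow_succ, mul_smul] at h1 h2
    rw [h1] at h2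
    exact (add_right_cancel h2).symm
  have h0 := IsNu.sum_mul_of_T hν' hψ (a := fun x => ∑ i ∈ Finset.range M, ζ (T ^ i • x)) hinv
  simp only [Finset.sum_mul] at h0
  rw [Finset.sum_comm] at h0
  simp only [sub_mul, Finset.sum_sub_distrib, h0, Finset.sum_const, Finset.card_range,
    nsmul_eq_mul]
  ring

/-! ### Formal properties of `IsKappa` -/

theorem IsKappa.one {κ : Γ → A} (h : IsKappa φ ψ κ) : κ 1 = 0 := by
  have h1 := h 1 1
  rw [one_mul, ofMul_one, map_zero, zero_mul, add_zero] at h1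
  exact left_eq_add.mp h1

/-- `κ` is invariant under conjugation on the elements killed by `φ` and `ψ`. -/
theorem IsKappa.conj {κ : Γ → A} (h : IsKappa φ ψ κ) (γ : Γ) {u : Γ}
    (hφu : φ (Additive.ofMul u) = 0) (hψu : ψ (Additive.ofMul u) = 0) :
    κ (γ * u * γ⁻¹) = κ u := by
  have h1 := h (γ * u) γ⁻¹
  have h2 := h γ u
  have h3 := h γ γ⁻¹
  rw [mul_inv_cancel, h.one] at h3
  rw [h1, h2, ofMul_mul, map_add, hφu, hψu]
  rw [ofMul_inv, map_neg] at h3 ⊢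
  linear_combination -h3

/-- `κ` is additive on the powers of an element killed by `ψ`. -/
theorem IsKappa.pow {κ : Γ → A} (h : IsKappa φ ψ κ) {u : Γ}
    (hψu : ψ (Additive.ofMul u) = 0) (n : ℕ) : κ (u ^ n) = n • κ u := by
  induction n with
  | zero => simp [h.one]
  | succ n ih =>
    rw [pow_succ, h, ih, hψu, mul_zero, add_zero, succ_nsmul]

/-- Transport of `κ` along an endomorphism of `Γ`. -/
theorem IsKappa.comp {κ : Γ → A} (h : IsKappa φ ψ κ) (α : Γ →* Γ) {φ' ψ' : Additive Γ →+ A}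
    (hφ' : ∀ γ, φ' (Additive.ofMul γ) = φ (Additive.ofMul (α γ)))
    (hψ' : ∀ γ, ψ' (Additive.ofMul γ) = ψ (Additive.ofMul (α γ))) :
    IsKappa φ' ψ' (fun γ => κ (α γ)) := by
  intro γ δ
  show κ (α (γ * δ)) = _
  rw [map_mul, h, hφ', hψ']

/-- The transposed primitive. -/
theorem IsKappa.swap {κ : Γ → A} (h : IsKappa φ ψ κ) :
    IsKappa ψ φ (fun γ => φ (Additive.ofMul γ) * ψ (Additive.ofMul γ) - κ γ) := by
  intro γ δ
  show φ (Additive.ofMul (γ * δ)) * ψ (Additive.ofMul (γ * δ)) - κ (γ * δ) = _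
  rw [h, ofMul_mul, map_add, map_add]
  ring

end kappa

/-! ### The cusp trace is independent of `κ`; antisymmetry and isometries of `cellB` -/

section int

variable {Γ : Subgroup SL(2, ℤ)} [Fintype (SL(2, ℤ) ⧸ Γ)] {φ ψ : Additive Γ →+ ℤ}

/-- **The cusp trace does not depend on the choice of `κ`** (`Hom(SL(2, ℤ), ℤ) = 0`). -/
theorem cuspTr_eq_of_isKappa {κ κ' : Γ → ℤ} (h : IsKappa φ ψ κ) (h' : IsKappa φ ψ κ') (n : ℕ) :
    ∑ x, κ (kap Γ (T ^ n) x) = ∑ x, κ' (kap Γ (T ^ n) x) := by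
  set L : SL(2, ℤ) → ℤ := fun g => ∑ x, (κ (kap Γ g x) - κ' (kap Γ g x)) with hL
  have hmul : ∀ g k, L (g * k) = L g + L k := by
    intro g k
    simp only [hL]
    rw [← sum_comp_smul k (fun y => κ (kap Γ g y) - κ' (kap Γ g y)), ← Finset.sum_add_distrib]
    refine Finset.sum_congr rfl fun x _ => ?_
    rw [kap_mul, h, h']
    ring
  have h1 : L 1 = 0 := by
    have := hmul 1 1
    rw [one_mul] at this
    exact left_eq_add.mp this
  have hS : L S = 0 := by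
    have e : (S * S * S * S : SL(2, ℤ)) = 1 := by decide
    have h4 : L (S * S * S * S) = 0 := by rw [e, h1]
    rw [hmul, hmul, hmul] at h4
    omega
  have hR : L (S * T) = 0 := by
    have e : ((S * T) * (S * T) * (S * T) * (S * T) * (S * T) * (S * T) : SL(2, ℤ)) = 1 := by
      decide
    have h6 : L ((S * T) * (S * T) * (S * T) * (S * T) * (S * T) * (S * T)) = 0 := by
      rw [e, h1]
    rw [hmul, hmul, hmul, hmul, hmul] at h6
    omega
  have hT : L T = 0 := by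
    have := hmul S T
    omega
  have hTn : L (T ^ n) = 0 := by
    induction n with
    | zero => rw [pow_zero, h1]
    | succ n ih => rw [pow_succ, hmul, ih, hT, add_zero]
  simp only [hL, Finset.sum_sub_distrib] at hTn
  exact sub_eq_zero.mp hTn

/-- **Antisymmetry of the cellular pairing** (over `ℤ`). -/
theorem cellB_antisymm_int
    (hneg : (-1 : SL(2, ℤ)) ∈ Γ) (hφ : IsPEHom Γ φ) (hψ : IsPEHom Γ ψ) :
    cellB Γ ψ φ = - cellB Γ φ ψ := by
  obtain ⟨M, hM0, hM⟩ := exists_pow_smul_trivial (Γ := Γ) T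
  obtain ⟨ζ, hζ⟩ := exists_isZeta hφ
  obtain ⟨ν, hν⟩ := exists_isNu hψ
  obtain ⟨ζ', hζ'⟩ := exists_isZeta hψ
  obtain ⟨ν', hν'⟩ := exists_isNu hφ
  obtain ⟨κ, hκ, hκs⟩ := exists_kappa hneg hφ hψ hζ hν hM
  obtain ⟨κ', hκ', hκs'⟩ := exists_kappa hneg hψ hφ hζ' hν' hM
  have e := cuspTr_eq_of_isKappa hκ' hκ.swap M
  have e0 : ∀ x, φ (Additive.ofMul (kap Γ (T ^ M) x)) = 0 := fun x =>
    cphA_eq_zero_of_fixed hφ (hM x) (trace_T_pow_sq_le M)
  simp only [e0, zero_mul, zero_sub, Finset.sum_neg_distrib] at e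
  rw [hκs', hκs] at e
  rw [cellB_eq hψ hφ hζ' hν', cellB_eq hφ hψ hζ hν]
  have hM' : (M : ℤ) ≠ 0 := by exact_mod_cast hM0.ne'
  apply mul_left_cancel₀ hM'
  rw [e]
  ring

/-- **Invariance of the cellular pairing** (over `ℤ`) under an endomorphism `α` of `Γ` which
permutes the cusp classes, in the sense of the conclusion of `sum_comp_conj_eq` of
`Dual/Cusp.lean` (hypothesis `hsum`; `P` is a class of elements with `tr² ≤ 4`). -/
theorem cellB_comp_hom_int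
    (hneg : (-1 : SL(2, ℤ)) ∈ Γ) (hφ : IsPEHom Γ φ) (hψ : IsPEHom Γ ψ)
    {φ' ψ' : Additive Γ →+ ℤ} (hφ' : IsPEHom Γ φ') (hψ' : IsPEHom Γ ψ') (α : Γ →* Γ)
    (hφα : ∀ γ, φ' (Additive.ofMul γ) = φ (Additive.ofMul (α γ)))
    (hψα : ∀ γ, ψ' (Additive.ofMul γ) = ψ (Additive.ofMul (α γ)))
    (P : Γ → Prop)
    (hP : ∀ u : Γ, P u → ((u : SL(2, ℤ)) : Matrix (Fin 2) (Fin 2) ℤ).trace ^ 2 ≤ 4)
    {M : ℕ} (hM0 : 0 < M) (hM : ∀ x : SL(2, ℤ) ⧸ Γ, T ^ M • x = x)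
    (hsum : ∀ F : Γ → ℤ, (∀ γ u : Γ, P u → F (γ * u * γ⁻¹) = F u) →
      (∀ u : Γ, P u → ∀ n : ℕ, F (u ^ n) = n • F u) →
      ∑ x, F (α (kap Γ (T ^ M) x)) = ∑ x, F (kap Γ (T ^ M) x)) :
    cellB Γ φ' ψ' = cellB Γ φ ψ := by
  obtain ⟨ζ, hζ⟩ := exists_isZeta hφ
  obtain ⟨ν, hν⟩ := exists_isNu hψ
  obtain ⟨ζ', hζ'⟩ := exists_isZeta hφ'
  obtain ⟨ν', hν'⟩ := exists_isNu hψ'
  obtain ⟨κ, hκ, hκs⟩ := exists_kappa hneg hφ hψ hζ hν hM
  obtain ⟨κ', hκ', hκs'⟩ := exists_kappa hneg hφ' hψ' hζ' hν' hM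
  have e := cuspTr_eq_of_isKappa hκ' (hκ.comp α hφα hψα) M
  have e2 := hsum κ (fun γ u hu => hκ.conj γ (hφ u (hP u hu)) (hψ u (hP u hu)))
    (fun u hu n => hκ.pow (hψ u (hP u hu)) n)
  rw [e2, hκs', hκs] at e
  rw [cellB_eq hφ' hψ' hζ' hν', cellB_eq hφ hψ hζ hν]
  have hM' : (M : ℤ) ≠ 0 := by exact_mod_cast hM0.ne'
  exact mul_left_cancel₀ hM' e

omit [Fintype (SL(2, ℤ) ⧸ Γ)] in
/-- Composition with an endomorphism of `Γ` induced by conjugation inside `GL(2, ℝ)` preserves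
parabolic-elliptic homomorphisms. -/
theorem isPEHom_of_conj {A : Type*} [AddCommGroup A] {φ φ' : Additive Γ →+ A}
    (hφ : IsPEHom Γ φ) (w : GL (Fin 2) ℝ) (α : Γ → Γ)
    (hα : ∀ γ, w * jSub Γ γ = jSub Γ (α γ) * w)
    (hφα : ∀ γ, φ' (Additive.ofMul γ) = φ (Additive.ofMul (α γ))) : IsPEHom Γ φ' := by
  intro γ hγ
  rw [hφα]
  apply hφ
  have e := trace_eq_of_conj (γ := (γ : SL(2, ℤ))) (γ' := (α γ : SL(2, ℤ))) w (hα γ)
  rw [e]
  exact hγ

/-- **The cellular pairing (over `ℤ`) is invariant under conjugation by a positive-determinant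
normaliser of `Γ`**: if `α, β : Γ →* Γ` are the conjugations by `w` and `w⁻¹`
(`w γ = α γ w`, `γ w = w β γ`), `φ' = φ ∘ α` and `ψ' = ψ ∘ α`, then
`cellB Γ φ' ψ' = cellB Γ φ ψ`. -/
theorem cellB_eq_of_conj_int (hneg : (-1 : SL(2, ℤ)) ∈ Γ) (w : GL (Fin 2) ℝ)
    (hw : 0 < w.det.val) (α β : Γ →* Γ) (hα : ∀ γ, w * jSub Γ γ = jSub Γ (α γ) * w)
    (hβ : ∀ γ, jSub Γ γ * w = w * jSub Γ (β γ)) (hφ : IsPEHom Γ φ) (hψ : IsPEHom Γ ψ)
    {φ' ψ' : Additive Γ →+ ℤ}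
    (hφα : ∀ γ, φ' (Additive.ofMul γ) = φ (Additive.ofMul (α γ)))
    (hψα : ∀ γ, ψ' (Additive.ofMul γ) = ψ (Additive.ofMul (α γ))) :
    cellB Γ φ' ψ' = cellB Γ φ ψ := by
  obtain ⟨M, hM0, hM⟩ := exists_pow_smul_trivial (Γ := Γ) T
  refine cellB_comp_hom_int hneg hφ hψ (isPEHom_of_conj hφ w α hα hφα)
    (isPEHom_of_conj hψ w α hα hψα) α hφα hψα (fun u => IsPosUnip (u : SL(2, ℤ))) ?_ hM0 hM ?_
  · intro u hu
    rw [hu.1]
    norm_num
  · intro F h1 h2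
    exact sum_comp_conj_eq Γ hneg w hw α β hα hβ M hM0 hM F h1 h2

/-- `cellB_eq_of_conj_int` for the composites `φ ∘ α`, `ψ ∘ α`. -/
theorem cellB_comp_conj_int (hneg : (-1 : SL(2, ℤ)) ∈ Γ) (w : GL (Fin 2) ℝ)
    (hw : 0 < w.det.val) (α β : Γ →* Γ) (hα : ∀ γ, w * jSub Γ γ = jSub Γ (α γ) * w)
    (hβ : ∀ γ, jSub Γ γ * w = w * jSub Γ (β γ)) (hφ : IsPEHom Γ φ) (hψ : IsPEHom Γ ψ) :
    cellB Γ (φ.comp (MonoidHom.toAdditive α)) (ψ.comp (MonoidHom.toAdditive α))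
      = cellB Γ φ ψ :=
  cellB_eq_of_conj_int hneg w hw α β hα hβ hφ hψ (fun _ => rfl) (fun _ => rfl)

/-- **The existence statement `KappaHyp` of `Dual/KappaInv.lean`** holds for every finite-index
subgroup containing `-1`. -/
theorem kappaHyp_of_neg_one_mem (hneg : (-1 : SL(2, ℤ)) ∈ Γ) : KappaHyp Γ :=
  fun _ _ hφ hψ _ _ hζ hν _ _ hMx => exists_kappa hneg hφ hψ hζ hν hMx

end int

end Fermat.Agent.S41.Dual
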