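import Mathlib
import Fermat.Agent.S41.Dual.Cell

/-!
# S41 / WP-D (DUALITY) : bilinearity of the cellular pairing and change of coefficients
-/

set_option autoImplicit false

open scoped MatrixGroups
open ModularGroup

namespace Fermat.Agent.S41.Dual

open Fermat.Agent.ESJ.ParHom Fermat.Agent.S21.ParabolicBound

noncomputable section

variable {Γ : Subgroup SL(2, ℤ)} {A : Type*} [CommRing A]

theorem fgenA_add (g : SL(2, ℤ)) (φ φ' : Additive Γ →+ A) (w w' : (SL(2, ℤ) ⧸ Γ) → A)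
    (x : SL(2, ℤ) ⧸ Γ) : fgenA g (φ + φ') (w + w') x = fgenA g φ w x + fgenA g φ' w' x := by
  simp only [fgenA, cphA, AddMonoidHom.add_apply, Pi.add_apply]
  ring

theorem fgenA_smul (g : SL(2, ℤ)) (c : A) (φ : Additive Γ →+ A) (w : (SL(2, ℤ) ⧸ Γ) → A)
    (x : SL(2, ℤ) ⧸ Γ) : fgenA g (c • φ) (c • w) x = c * fgenA g φ w x := by
  simp only [fgenA, cphA, AddMonoidHom.smul_apply, Pi.smul_apply, smul_eq_mul]
  ring

theorem fgenA_map {A' : Type*} [CommRing A'] (f : A →+* A') (g : SL(2, ℤ)) (φ : Additive Γ →+ A)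
    (w : (SL(2, ℤ) ⧸ Γ) → A) (x : SL(2, ℤ) ⧸ Γ) :
    fgenA g (f.toAddMonoidHom.comp φ) (f ∘ w) x = f (fgenA g φ w x) := by
  simp only [fgenA, cphA, AddMonoidHom.comp_apply, Function.comp_apply, map_add, map_sub]
  rfl

theorem IsZeta.add {φ φ' : Additive Γ →+ A} {ζ ζ' : (SL(2, ℤ) ⧸ Γ) → A} (h : IsZeta Γ φ ζ)
    (h' : IsZeta Γ φ' ζ') : IsZeta Γ (φ + φ') (ζ + ζ') := by
  obtain ⟨w, h1, h2⟩ := h
  obtain ⟨w', h1', h2'⟩ := h'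
  refine ⟨w + w', fun x => ?_, fun x => ?_⟩
  · rw [fgenA_add, h1, h1', add_zero]
  · rw [fgenA_add, h2, h2']
    simp only [Pi.add_apply]
    ring

theorem IsZeta.smul (c : A) {φ : Additive Γ →+ A} {ζ : (SL(2, ℤ) ⧸ Γ) → A} (h : IsZeta Γ φ ζ) :
    IsZeta Γ (c • φ) (c • ζ) := by
  obtain ⟨w, h1, h2⟩ := h
  refine ⟨c • w, fun x => ?_, fun x => ?_⟩
  · rw [fgenA_smul, h1, mul_zero]
  · rw [fgenA_smul, h2]
    simp only [Pi.smul_apply, smul_eq_mul]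
    ring

theorem IsZeta.map {A' : Type*} [CommRing A'] (f : A →+* A') {φ : Additive Γ →+ A}
    {ζ : (SL(2, ℤ) ⧸ Γ) → A} (h : IsZeta Γ φ ζ) :
    IsZeta Γ (f.toAddMonoidHom.comp φ) (f ∘ ζ) := by
  obtain ⟨w, h1, h2⟩ := h
  refine ⟨f ∘ w, fun x => ?_, fun x => ?_⟩
  · rw [fgenA_map, h1, map_zero]
  · rw [fgenA_map, h2, map_sub]
    rfl

theorem IsNu.add {ψ ψ' : Additive Γ →+ A} {ν ν' : (SL(2, ℤ) ⧸ Γ) → A} (h : IsNu Γ ψ ν)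
    (h' : IsNu Γ ψ' ν') : IsNu Γ (ψ + ψ') (ν + ν') := by
  obtain ⟨u, h1, h2⟩ := h
  obtain ⟨u', h1', h2'⟩ := h'
  refine ⟨u + u', fun x => ?_, fun x => ?_⟩
  · rw [fgenA_add, h1, h1', add_zero]
  · rw [fgenA_add, h2, h2']
    rfl

theorem IsNu.smul (c : A) {ψ : Additive Γ →+ A} {ν : (SL(2, ℤ) ⧸ Γ) → A} (h : IsNu Γ ψ ν) :
    IsNu Γ (c • ψ) (c • ν) := by
  obtain ⟨u, h1, h2⟩ := h
  refine ⟨c • u, fun x => ?_, fun x => ?_⟩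
  · rw [fgenA_smul, h1, mul_zero]
  · rw [fgenA_smul, h2]
    rfl

theorem IsNu.map {A' : Type*} [CommRing A'] (f : A →+* A') {ψ : Additive Γ →+ A}
    {ν : (SL(2, ℤ) ⧸ Γ) → A} (h : IsNu Γ ψ ν) :
    IsNu Γ (f.toAddMonoidHom.comp ψ) (f ∘ ν) := by
  obtain ⟨u, h1, h2⟩ := h
  refine ⟨f ∘ u, fun x => ?_, fun x => ?_⟩
  · rw [fgenA_map, h1, map_zero]
  · rw [fgenA_map, h2]
    rfl

theorem isPEHom_add {φ φ' : Additive Γ →+ A} (h : IsPEHom Γ φ) (h' : IsPEHom Γ φ') :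
    IsPEHom Γ (φ + φ') := (peHoms Γ A A).add_mem h h'

theorem isPEHom_smul (c : A) {φ : Additive Γ →+ A} (h : IsPEHom Γ φ) : IsPEHom Γ (c • φ) :=
  (peHoms Γ A A).smul_mem c h

theorem isPEHom_map {A' : Type*} [CommRing A'] (f : A →+* A') {φ : Additive Γ →+ A}
    (h : IsPEHom Γ φ) : IsPEHom Γ (f.toAddMonoidHom.comp φ) := fun γ hγ => by
  rw [AddMonoidHom.comp_apply, h γ hγ]
  exact map_zero f

variable [Finite (SL(2, ℤ) ⧸ Γ)]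

theorem cellB_add_left {φ φ' ψ : Additive Γ →+ A} (hφ : IsPEHom Γ φ) (hφ' : IsPEHom Γ φ')
    (hψ : IsPEHom Γ ψ) : cellB Γ (φ + φ') ψ = cellB Γ φ ψ + cellB Γ φ' ψ := by
  have := Fintype.ofFinite (SL(2, ℤ) ⧸ Γ)
  obtain ⟨ζ, hζ⟩ := exists_isZeta hφ
  obtain ⟨ζ', hζ'⟩ := exists_isZeta hφ'
  obtain ⟨ν, hν⟩ := exists_isNu hψ
  rw [cellB_eq (isPEHom_add hφ hφ') hψ (hζ.add hζ') hν, cellB_eq hφ hψ hζ hν, cellB_eq hφ' hψ hζ' hν,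
    ← Finset.sum_add_distrib]
  exact Finset.sum_congr rfl fun x _ => by rw [Pi.add_apply, add_mul]

theorem cellB_smul_left (c : A) {φ ψ : Additive Γ →+ A} (hφ : IsPEHom Γ φ)
    (hψ : IsPEHom Γ ψ) : cellB Γ (c • φ) ψ = c * cellB Γ φ ψ := by
  have := Fintype.ofFinite (SL(2, ℤ) ⧸ Γ)
  obtain ⟨ζ, hζ⟩ := exists_isZeta hφ
  obtain ⟨ν, hν⟩ := exists_isNu hψ
  rw [cellB_eq (isPEHom_smul c hφ) hψ (hζ.smul c) hν, cellB_eq hφ hψ hζ hν, Finset.mul_sum]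
  exact Finset.sum_congr rfl fun x _ => by rw [Pi.smul_apply, smul_eq_mul, mul_assoc]

theorem cellB_add_right {φ ψ ψ' : Additive Γ →+ A} (hφ : IsPEHom Γ φ) (hψ : IsPEHom Γ ψ)
    (hψ' : IsPEHom Γ ψ') : cellB Γ φ (ψ + ψ') = cellB Γ φ ψ + cellB Γ φ ψ' := by
  have := Fintype.ofFinite (SL(2, ℤ) ⧸ Γ)
  obtain ⟨ζ, hζ⟩ := exists_isZeta hφ
  obtain ⟨ν, hν⟩ := exists_isNu hψ
  obtain ⟨ν', hν'⟩ := exists_isNu hψ'
  rw [cellB_eq hφ (isPEHom_add hψ hψ') hζ (hν.add hν'), cellB_eq hφ hψ hζ hν, cellB_eq hφ hψ' hζ hν',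
    ← Finset.sum_add_distrib]
  exact Finset.sum_congr rfl fun x _ => by rw [Pi.add_apply, mul_add]

theorem cellB_smul_right (c : A) {φ ψ : Additive Γ →+ A} (hφ : IsPEHom Γ φ)
    (hψ : IsPEHom Γ ψ) : cellB Γ φ (c • ψ) = c * cellB Γ φ ψ := by
  have := Fintype.ofFinite (SL(2, ℤ) ⧸ Γ)
  obtain ⟨ζ, hζ⟩ := exists_isZeta hφ
  obtain ⟨ν, hν⟩ := exists_isNu hψ
  rw [cellB_eq hφ (isPEHom_smul c hψ) hζ (hν.smul c), cellB_eq hφ hψ hζ hν, Finset.mul_sum]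
  exact Finset.sum_congr rfl fun x _ => by rw [Pi.smul_apply, smul_eq_mul, mul_left_comm]

/-- The cellular pairing commutes with a change of coefficients. -/
theorem cellB_map {A' : Type*} [CommRing A'] (f : A →+* A') {φ ψ : Additive Γ →+ A}
    (hφ : IsPEHom Γ φ) (hψ : IsPEHom Γ ψ) :
    cellB Γ (f.toAddMonoidHom.comp φ) (f.toAddMonoidHom.comp ψ) = f (cellB Γ φ ψ) := by
  have := Fintype.ofFinite (SL(2, ℤ) ⧸ Γ)
  obtain ⟨ζ, hζ⟩ := exists_isZeta hφ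
  obtain ⟨ν, hν⟩ := exists_isNu hψ
  rw [cellB_eq (isPEHom_map f hφ) (isPEHom_map f hψ) (hζ.map f) (hν.map f), cellB_eq hφ hψ hζ hν, map_sum]
  exact Finset.sum_congr rfl fun x _ => by rw [Function.comp_apply, Function.comp_apply, map_mul]

end

end Fermat.Agent.S41.Dual
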