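import Mathlib
import Fermat.Agent.S41.Dual.CellLin

/-!
# S41 / WP-D (DUALITY) : the cellular pairing is left-nondegenerate over any field

Hypothesis: the Euler-characteristic bound `ESJ.ParHom.finrank_peHoms_add_le` is an equality
(`hcount`; true for `Γ₀(N)`).  Then the modular symbols `ν` of the parabolic-elliptic
homomorphisms fill the whole orthogonal complement of `Inv_S + Inv_T`, so a `ζ` pairing to zero
with all of them lies in `Inv_S + Inv_T`, which forces `φ = 0`.
-/

set_option autoImplicit false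

open scoped MatrixGroups
open ModularGroup

namespace Fermat.Agent.S41.Dual

open Fermat.Agent.ESJ.ParHom Fermat.Agent.S21.ParabolicBound

noncomputable section

variable (Γ : Subgroup SL(2, ℤ)) (k : Type*) [Field k] [Fintype (SL(2, ℤ) ⧸ Γ)]

/-- The dot product on functions on the coset space, as a bilinear map. -/
def dotL : ((SL(2, ℤ) ⧸ Γ) → k) →ₗ[k] ((SL(2, ℤ) ⧸ Γ) → k) →ₗ[k] k :=
  LinearMap.mk₂ k (fun ν ζ => ∑ x, ζ x * ν x)
    (fun ν ν' ζ => by
      simp only [Pi.add_apply]
      rw [← Finset.sum_add_distrib]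
      exact Finset.sum_congr rfl fun x _ => by ring)
    (fun c ν ζ => by
      simp only [Pi.smul_apply, smul_eq_mul]
      rw [Finset.mul_sum]
      exact Finset.sum_congr rfl fun x _ => by ring)
    (fun ν ζ ζ' => by
      simp only [Pi.add_apply]
      rw [← Finset.sum_add_distrib]
      exact Finset.sum_congr rfl fun x _ => by ring)
    (fun c ν ζ => by
      simp only [Pi.smul_apply, smul_eq_mul]
      rw [Finset.mul_sum]
      exact Finset.sum_congr rfl fun x _ => by ring)

theorem dotL_apply (ν ζ : (SL(2, ℤ) ⧸ Γ) → k) : dotL Γ k ν ζ = ∑ x, ζ x * ν x := rfl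

/-- The orthogonal complement of a subspace for the dot product. -/
def orth (W : Submodule k ((SL(2, ℤ) ⧸ Γ) → k)) : Submodule k ((SL(2, ℤ) ⧸ Γ) → k) :=
  LinearMap.ker ((dotL Γ k).domRestrict W).flip

theorem mem_orth {W : Submodule k ((SL(2, ℤ) ⧸ Γ) → k)} {ζ : (SL(2, ℤ) ⧸ Γ) → k} :
    ζ ∈ orth Γ k W ↔ ∀ ν ∈ W, ∑ x, ζ x * ν x = 0 := by
  rw [orth, LinearMap.mem_ker]
  constructor
  · intro h ν hν
    have := LinearMap.congr_fun h ⟨ν, hν⟩
    exact this
  · intro h
    refine LinearMap.ext fun ν => ?_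
    exact h ν.1 ν.2

theorem finrank_add_finrank_orth (W : Submodule k ((SL(2, ℤ) ⧸ Γ) → k)) :
    Module.finrank k W + Module.finrank k (orth Γ k W) = Fintype.card (SL(2, ℤ) ⧸ Γ) := by
  classical
  have hinj : Function.Injective ((dotL Γ k).domRestrict W) := by
    rw [← LinearMap.ker_eq_bot, LinearMap.ker_eq_bot']
    intro ν hν
    apply Subtype.ext
    funext x
    have h := LinearMap.congr_fun hν (Pi.single x 1)
    rw [LinearMap.domRestrict_apply, dotL_apply] at h
    simpa [Pi.single_apply] using h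
  have h := Subspace.finrank_add_finrank_dualCoannihilator_eq
    (LinearMap.range ((dotL Γ k).domRestrict W))
  rw [LinearMap.dualCoannihilator_range_eq_ker_flip, LinearMap.finrank_range_of_inj hinj,
    Module.finrank_fintype_fun_eq_card] at h
  exact h

omit [Fintype (SL(2, ℤ) ⧸ Γ)] in
/-- Functions invariant under `S` and `T` are constant. -/
theorem finrank_Invk_inf_le_one :
    Module.finrank k ↥(Invk Γ k S ⊓ Invk Γ k T) ≤ 1 := by
  let ev : ↥(Invk Γ k S ⊓ Invk Γ k T) →ₗ[k] k :=
    (LinearMap.proj (((1 : SL(2, ℤ)) : SL(2, ℤ) ⧸ Γ))) ∘ₗ (Invk Γ k S ⊓ Invk Γ k T).subtype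
  have key : ∀ ψ : ↥(Invk Γ k S ⊓ Invk Γ k T), ev ψ = 0 → ψ = 0 := by
    intro ψ hψ
    apply Subtype.ext
    funext x
    obtain ⟨g, rfl⟩ := exists_smul_base Γ x
    have hS := (mem_Invk Γ k).mp ψ.2.1
    have hT := (mem_Invk Γ k).mp ψ.2.2
    rw [invariant_of_S_T' hS hT g]
    exact hψ
  have hinj : Function.Injective ev := by
    rw [← LinearMap.ker_eq_bot, LinearMap.ker_eq_bot']
    exact key
  calc Module.finrank k ↥(Invk Γ k S ⊓ Invk Γ k T) ≤ Module.finrank k k :=
        LinearMap.finrank_le_finrank_of_injective hinj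
    _ = 1 := Module.finrank_self k

/-- Rank-nullity for the restriction of a linear map to a subspace, as an inequality between
subspaces of the ambient spaces. -/
theorem finrank_le_finrank_map_add {K V V₂ : Type*} [Field K] [AddCommGroup V] [Module K V]
    [AddCommGroup V₂] [Module K V₂] [FiniteDimensional K V] (f : V →ₗ[K] V₂)
    (p : Submodule K V) :
    Module.finrank K p ≤ Module.finrank K (p.map f) + Module.finrank K ↥(p ⊓ LinearMap.ker f) := by
  have h := LinearMap.finrank_range_add_finrank_ker (f.domRestrict p)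
  rw [LinearMap.range_domRestrict, LinearMap.ker_domRestrict] at h
  have h2 : Module.finrank K ((LinearMap.ker f).comap p.subtype)
      = Module.finrank K ↥(p ⊓ LinearMap.ker f) := by
    rw [← Submodule.finrank_map_subtype_eq p ((LinearMap.ker f).comap p.subtype),
      Submodule.map_comap_subtype]
  omega

/-- The space of modular symbols: the crossed maps of `S` of the pairs in `S * T`-gauge. -/
def nuSpace : Submodule k ((SL(2, ℤ) ⧸ Γ) → k) :=
  (LinearMap.ker (fgenL Γ k (S * T))).map (fgenL Γ k S)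

omit [Fintype (SL(2, ℤ) ⧸ Γ)] in
theorem isNu_of_mem_nuSpace {ν : (SL(2, ℤ) ⧸ Γ) → k} (hν : ν ∈ nuSpace Γ k) :
    ∃ ψ : Additive Γ →+ k, IsPEHom Γ ψ ∧ IsNu Γ ψ ν := by
  obtain ⟨p, hp, rfl⟩ := hν
  refine ⟨(p.1 : Additive Γ →+ k), p.1.2, p.2, fun x => ?_, fun x => rfl⟩
  have h := LinearMap.mem_ker.mp hp
  exact congrFun h x

theorem le_finrank_nuSpace :
    Module.finrank k (peHoms Γ k k) + Module.finrank k (Invk Γ k (S * T))
      ≤ Module.finrank k (nuSpace Γ k) + 1 := by
  have := finite_peHoms Γ k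
  have h4 := LinearMap.finrank_range_add_finrank_ker (fgenL Γ k (S * T))
  rw [Module.finrank_prod, Module.finrank_fintype_fun_eq_card] at h4
  have h5 : Module.finrank k (LinearMap.range (fgenL Γ k (S * T)))
      ≤ Module.finrank k (Rk Γ k (S * T)) :=
    Submodule.finrank_mono (by
      rintro _ ⟨p, rfl⟩
      exact fgenL_mem_Rk Γ k (S * T) trace_ST_pow_sq_le p)
  have h6 := finrank_Rk_add Γ k (S * T)
  rw [Nat.card_eq_fintype_card] at h6
  have h7 := finrank_le_finrank_map_add (fgenL Γ k S) (LinearMap.ker (fgenL Γ k (S * T)))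
  have h8 : Module.finrank k
      ↥(LinearMap.ker (fgenL Γ k (S * T)) ⊓ LinearMap.ker (fgenL Γ k S)) ≤ 1 := by
    refine (Submodule.finrank_mono ?_).trans (finrank_ker_Psi_le Γ k)
    intro p hp
    rw [LinearMap.mem_ker]
    exact Prod.ext (Subtype.ext (LinearMap.mem_ker.mp hp.2))
      (Subtype.ext (LinearMap.mem_ker.mp hp.1))
  have h9 : Module.finrank k (nuSpace Γ k)
      = Module.finrank k ((LinearMap.ker (fgenL Γ k (S * T))).map (fgenL Γ k S)) := rfl
  omega

variable {Γ k}

/-- **Left-nondegeneracy of the cellular pairing** over a field, when the Euler-characteristic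
bound is an equality. -/
theorem cellB_nondeg
    (hcount : Nat.card (SL(2, ℤ) ⧸ Γ) + 2 ≤ Module.finrank k (peHoms Γ k k)
      + Module.finrank k (Invk Γ k S) + Module.finrank k (Invk Γ k (S * T))
      + Module.finrank k (Invk Γ k T))
    {φ : Additive Γ →+ k} (hφ : IsPEHom Γ φ)
    (h : ∀ ψ : Additive Γ →+ k, IsPEHom Γ ψ → cellB Γ φ ψ = 0) : φ = 0 := by
  have := finite_peHoms Γ k
  obtain ⟨ζ, hζ⟩ := exists_isZeta hφ
  -- `ζ` is orthogonal to all modular symbols
  have hζW : ζ ∈ orth Γ k (nuSpace Γ k) := by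
    rw [mem_orth]
    intro ν hν
    obtain ⟨ψ, hψ, hψν⟩ := isNu_of_mem_nuSpace Γ k hν
    rw [← cellB_eq hφ hψ hζ hψν]
    exact h ψ hψ
  -- `Inv_S + Inv_T` is orthogonal to all modular symbols
  have hle : Invk Γ k S ⊔ Invk Γ k T ≤ orth Γ k (nuSpace Γ k) := by
    refine sup_le ?_ ?_
    · intro a ha
      rw [mem_orth]
      intro ν hν
      obtain ⟨ψ, hψ, hψν⟩ := isNu_of_mem_nuSpace Γ k hν
      exact hψν.sum_mul_of_S hψ ((mem_Invk Γ k).mp ha)
    · intro a ha
      rw [mem_orth]
      intro ν hν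
      obtain ⟨ψ, hψ, hψν⟩ := isNu_of_mem_nuSpace Γ k hν
      exact hψν.sum_mul_of_T hψ ((mem_Invk Γ k).mp ha)
  -- dimension count
  have h1 := finrank_add_finrank_orth Γ k (nuSpace Γ k)
  have h4 := le_finrank_nuSpace Γ k
  have h7 := Submodule.finrank_sup_add_finrank_inf_eq (Invk Γ k S) (Invk Γ k T)
  have h8 := finrank_Invk_inf_le_one Γ k
  rw [Nat.card_eq_fintype_card] at hcount
  have hdim : Module.finrank k (orth Γ k (nuSpace Γ k))
      ≤ Module.finrank k ↥(Invk Γ k S ⊔ Invk Γ k T) := by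
    omega
  have heq : Invk Γ k S ⊔ Invk Γ k T = orth Γ k (nuSpace Γ k) :=
    Submodule.eq_of_le_of_finrank_le hle hdim
  rw [← heq] at hζW
  obtain ⟨a, ha, b, hb, hab⟩ := Submodule.mem_sup.mp hζW
  have haS := (mem_Invk Γ k).mp ha
  have hbT := (mem_Invk Γ k).mp hb
  obtain ⟨w, hw1, hw2⟩ := hζ
  have hS : ∀ x, fgenA S φ (w - a) x = 0 := by
    intro x
    have e := hw1 x
    simp only [fgenA] at e
    simp only [fgenA, Pi.sub_apply, haS]
    linear_combination e
  have hT : ∀ x, fgenA T φ (w - a) x = 0 := by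
    intro x
    have e := hw2 x
    rw [← hab] at e
    simp only [fgenA, Pi.add_apply, hbT] at e
    simp only [fgenA, Pi.sub_apply]
    linear_combination e
  have hST : ∀ x, fgenA (S * T) φ (w - a) x = 0 := by
    intro x
    rw [fgenA_mul, hS, hT, add_zero]
  exact (eq_zero_of_fgenA_eq_zero hS hST).1

end

end Fermat.Agent.S41.Dual
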