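import Mathlib
import Fermat.Agent.S41.Dual.Nondeg
import Fermat.Agent.ESJ.ParHom.Gamma0Bound
import Fermat.Agent.ESJ.ParHom.Cmp

/-!
# S41 / WP-D (DUALITY) : the cellular pairing of `Γ₀(N)` is left-nondegenerate over any field
-/

set_option autoImplicit false

open scoped MatrixGroups
open ModularGroup CongruenceSubgroup

namespace Fermat.Agent.S41.Dual

open Fermat.Agent.ESJ.ParHom Fermat.Agent.S21.ParabolicBound

/-- For `Γ₀(N)` the Euler-characteristic bound is an equality, over any field. -/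
theorem count_Gamma0 (k : Type*) [Field k] (N : ℕ) [NeZero N] :
    Nat.card (SL(2, ℤ) ⧸ Gamma0 N) + 2 ≤ Module.finrank k (peHoms (Gamma0 N) k k)
      + Module.finrank k (Invk (Gamma0 N) k S) + Module.finrank k (Invk (Gamma0 N) k (S * T))
      + Module.finrank k (Invk (Gamma0 N) k T) := by
  have hS : Module.finrank k (Invk (Gamma0 N) k S) =
      Nat.card (MulAction.orbitRel.Quotient (Subgroup.zpowers S) (SL(2, ℤ) ⧸ Gamma0 N)) :=
    finrank_invariants_eq_card_orbits' k S
  have hST : Module.finrank k (Invk (Gamma0 N) k (S * T)) =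
      Nat.card (MulAction.orbitRel.Quotient (Subgroup.zpowers (S * T)) (SL(2, ℤ) ⧸ Gamma0 N)) :=
    finrank_invariants_eq_card_orbits' k (S * T)
  have hT : Module.finrank k (Invk (Gamma0 N) k T) =
      Nat.card (MulAction.orbitRel.Quotient (Subgroup.zpowers T) (SL(2, ℤ) ⧸ Gamma0 N)) :=
    finrank_invariants_eq_card_orbits' k T
  rw [hS, hST, hT, finrank_peHoms_self N k]
  have h2 := Fermat.Agent.S21.two_mul_genusFormula_sub_two N
  have h3 := genusNat_eq N
  have h' : ((Nat.card (SL(2, ℤ) ⧸ Gamma0 N) + 2 : ℕ) : ℚ)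
      ≤ ((2 * genusNat N
        + Nat.card (MulAction.orbitRel.Quotient (Subgroup.zpowers S) (SL(2, ℤ) ⧸ Gamma0 N))
        + Nat.card (MulAction.orbitRel.Quotient (Subgroup.zpowers (S * T))
          (SL(2, ℤ) ⧸ Gamma0 N))
        + Nat.card (MulAction.orbitRel.Quotient (Subgroup.zpowers T)
          (SL(2, ℤ) ⧸ Gamma0 N)) : ℕ) : ℚ) := by
    push_cast
    linarith
  exact_mod_cast h'

/-- **Left-nondegeneracy of the cellular pairing of `Γ₀(N)`**, over any field. -/
theorem cellB_nondeg_Gamma0 (k : Type*) [Field k] (N : ℕ) [NeZero N]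
    {φ : Additive (Gamma0 N) →+ k} (hφ : IsPEHom (Gamma0 N) φ)
    (h : ∀ ψ : Additive (Gamma0 N) →+ k, IsPEHom (Gamma0 N) ψ → cellB (Gamma0 N) φ ψ = 0) :
    φ = 0 := by
  have := Fintype.ofFinite (SL(2, ℤ) ⧸ Gamma0 N)
  exact cellB_nondeg (count_Gamma0 k N) hφ h

end Fermat.Agent.S41.Dual
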