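import Mathlib
import Fermat.Agent.S41.Coh.Explicit

/-!
# S41 / WP-D (D3) : restriction and corestriction in the coset model

For subgroups `Γ' ≤ Γ ≤ SL(2, ℤ)`, `X' = SL(2, ℤ) ⧸ Γ'`, `X = SL(2, ℤ) ⧸ Γ`, `pr : X' → X`, and the
crossed maps `fgenA g φ v` of ESJ/ParHom/Bound:

* `fgenA_res` (PULL-BACK): for `φ : Γ → A`, `w : X → A`:
  `fgenA g (φ ∘ incl) (resGauge w) x' = fgenA g φ w (pr x')`;
* `shapiro` (SHAPIRO NORMAL FORM): every cocycle `c : SL(2, ℤ) → X → A` is `fgenA · χ v` with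
  `χ γ = c γ x₀`;
* `pushC` (PUSH-FORWARD): `c g x = ∑_{pr x' = x} fgenA g ψ' u' x'` is a cocycle;
* `exists_fgenA_corCoh` : for `Γ' = Γ₀(N q) ≤ Γ = Γ₀(N)`:
  `∃ v, ∀ g x, fgenA g (corCoh N q ψ) v x = ∑_{pr x' = x} fgenA g ψ u' x'`.
-/

set_option autoImplicit false

open scoped MatrixGroups
open CongruenceSubgroup ModularForm

namespace Fermat.Agent.S41.Dual

open Fermat.Agent.ESJ.ParHom Fermat.Agent.S21.ParabolicBound Fermat.Agent.S41.Coh

noncomputable section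

section General

variable {Γ' Γ : Subgroup SL(2, ℤ)} (hle : Γ' ≤ Γ) {A : Type*} [AddCommGroup A]

/-- The projection `SL(2, ℤ) ⧸ Γ' → SL(2, ℤ) ⧸ Γ`. -/
def prX : SL(2, ℤ) ⧸ Γ' → SL(2, ℤ) ⧸ Γ := Subgroup.quotientMapOfLE hle

theorem prX_mk (g : SL(2, ℤ)) : prX hle (g : SL(2, ℤ) ⧸ Γ') = (g : SL(2, ℤ) ⧸ Γ) := rfl

theorem prX_smul (g : SL(2, ℤ)) (x' : SL(2, ℤ) ⧸ Γ') : prX hle (g • x') = g • prX hle x' := by
  induction x' using QuotientGroup.induction_on with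
  | H a => rfl

theorem mk_out_eq_prX (x' : SL(2, ℤ) ⧸ Γ') :
    ((Quotient.out x' : SL(2, ℤ)) : SL(2, ℤ) ⧸ Γ) = prX hle x' := by
  conv_rhs => rw [← QuotientGroup.out_eq' x']
  rfl

theorem eSec_mem (x' : SL(2, ℤ) ⧸ Γ') :
    (Quotient.out (prX hle x'))⁻¹ * Quotient.out x' ∈ Γ := by
  rw [← QuotientGroup.eq, QuotientGroup.out_eq', mk_out_eq_prX]

/-- The comparison of the two sections: `out x' = out (pr x') * eSec x'`. -/
def eSec (x' : SL(2, ℤ) ⧸ Γ') : Γ := ⟨_, eSec_mem hle x'⟩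

theorem kap_inclusion (g : SL(2, ℤ)) (x' : SL(2, ℤ) ⧸ Γ') :
    Subgroup.inclusion hle (kap Γ' g x')
      = (eSec hle (g • x'))⁻¹ * kap Γ g (prX hle x') * eSec hle x' := by
  apply Subtype.ext
  simp only [kap, eSec, Subgroup.coe_inclusion, Subgroup.coe_mul, Subgroup.coe_inv, prX_smul]
  group

/-- The gauge of the restriction. -/
def resGauge (φ : Additive Γ →+ A) (w : (SL(2, ℤ) ⧸ Γ) → A) (x' : SL(2, ℤ) ⧸ Γ') : A :=
  w (prX hle x') + φ (Additive.ofMul (eSec hle x'))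

/-- **Pull-back.** -/
theorem fgenA_res (φ : Additive Γ →+ A) (w : (SL(2, ℤ) ⧸ Γ) → A) (g : SL(2, ℤ))
    (x' : SL(2, ℤ) ⧸ Γ') :
    fgenA g (φ.comp (Subgroup.inclusion hle).toAdditive) (resGauge hle φ w) x'
      = fgenA g φ w (prX hle x') := by
  have e : (φ.comp (Subgroup.inclusion hle).toAdditive) (Additive.ofMul (kap Γ' g x'))
      = φ (Additive.ofMul (Subgroup.inclusion hle (kap Γ' g x'))) := rfl
  unfold fgenA cphA resGauge
  rw [e, kap_inclusion, ofMul_mul, ofMul_mul, ofMul_inv, map_add, map_add, map_neg, prX_smul]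
  abel

/-! ### Shapiro normal form -/

/-- Cocycles `SL(2, ℤ) → (X → A)`. -/
def IsCoc (c : SL(2, ℤ) → (SL(2, ℤ) ⧸ Γ) → A) : Prop :=
  ∀ g h x, c (g * h) x = c g (h • x) + c h x

theorem smul_base (γ : Γ) :
    (γ : SL(2, ℤ)) • (((1 : SL(2, ℤ)) : SL(2, ℤ) ⧸ Γ)) = (((1 : SL(2, ℤ)) : SL(2, ℤ) ⧸ Γ)) := by
  show (((γ : SL(2, ℤ)) * 1 : SL(2, ℤ)) : SL(2, ℤ) ⧸ Γ) = ((1 : SL(2, ℤ)) : SL(2, ℤ) ⧸ Γ)
  rw [mul_one, QuotientGroup.eq, mul_one]
  exact Γ.inv_mem γ.2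

theorem out_smul_base (x : SL(2, ℤ) ⧸ Γ) :
    (Quotient.out x : SL(2, ℤ)) • (((1 : SL(2, ℤ)) : SL(2, ℤ) ⧸ Γ)) = x := by
  show (((Quotient.out x : SL(2, ℤ)) * 1 : SL(2, ℤ)) : SL(2, ℤ) ⧸ Γ) = x
  rw [mul_one, QuotientGroup.out_eq']

theorem IsCoc.map_one {c : SL(2, ℤ) → (SL(2, ℤ) ⧸ Γ) → A} (hc : IsCoc c) (x : SL(2, ℤ) ⧸ Γ) :
    c 1 x = 0 := by
  have h := hc 1 1 x
  rw [mul_one, one_smul] at h
  exact left_eq_add.mp h

theorem IsCoc.map_inv {c : SL(2, ℤ) → (SL(2, ℤ) ⧸ Γ) → A} (hc : IsCoc c) (h : SL(2, ℤ))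
    (y : SL(2, ℤ) ⧸ Γ) : c h⁻¹ (h • y) = - c h y := by
  have e := hc h⁻¹ h y
  rw [inv_mul_cancel, hc.map_one] at e
  exact eq_neg_of_add_eq_zero_left e.symm

/-- The homomorphism `γ ↦ c γ x₀` attached to a cocycle. -/
def shapiroHom (c : SL(2, ℤ) → (SL(2, ℤ) ⧸ Γ) → A) (hc : IsCoc c) : Additive Γ →+ A :=
  AddMonoidHom.mk'
    (fun γ => c ((Additive.toMul γ : Γ) : SL(2, ℤ)) (((1 : SL(2, ℤ)) : SL(2, ℤ) ⧸ Γ))) (by
      intro γ δ
      rw [toMul_add, Subgroup.coe_mul, hc, smul_base])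

theorem shapiroHom_apply (c : SL(2, ℤ) → (SL(2, ℤ) ⧸ Γ) → A) (hc : IsCoc c) (γ : Γ) :
    shapiroHom c hc (Additive.ofMul γ)
      = c (γ : SL(2, ℤ)) (((1 : SL(2, ℤ)) : SL(2, ℤ) ⧸ Γ)) := rfl

/-- **Shapiro normal form** of a cocycle. -/
theorem shapiro (c : SL(2, ℤ) → (SL(2, ℤ) ⧸ Γ) → A) (hc : IsCoc c) (g : SL(2, ℤ))
    (x : SL(2, ℤ) ⧸ Γ) :
    fgenA g (shapiroHom c hc)
      (fun x => c (Quotient.out x) (((1 : SL(2, ℤ)) : SL(2, ℤ) ⧸ Γ))) x = c g x := by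
  unfold fgenA cphA
  rw [shapiroHom_apply]
  have e1 : ((kap Γ g x : Γ) : SL(2, ℤ)) = (Quotient.out (g • x))⁻¹ * (g * Quotient.out x) := by
    simp only [kap, mul_assoc]
  rw [e1, hc, hc, mul_smul, out_smul_base]
  have e2 := hc.map_inv (Quotient.out (g • x)) (((1 : SL(2, ℤ)) : SL(2, ℤ) ⧸ Γ))
  rw [out_smul_base] at e2
  rw [e2]
  abel

/-! ### Push-forward -/

variable [Fintype (SL(2, ℤ) ⧸ Γ')]

open Classical in
/-- The push-forward (fibre sums) of the crossed map of `(ψ', u')`. -/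
def pushC (ψ' : Additive Γ' →+ A) (u' : (SL(2, ℤ) ⧸ Γ') → A) (g : SL(2, ℤ))
    (x : SL(2, ℤ) ⧸ Γ) : A :=
  ∑ x' ∈ Finset.univ.filter (fun x' => prX hle x' = x), fgenA g ψ' u' x'

open Classical in
theorem sum_fiber_smul (F : (SL(2, ℤ) ⧸ Γ') → A) (h : SL(2, ℤ)) (x : SL(2, ℤ) ⧸ Γ) :
    ∑ x' ∈ Finset.univ.filter (fun x' => prX hle x' = x), F (h • x')
      = ∑ y' ∈ Finset.univ.filter (fun y' => prX hle y' = h • x), F y' := by
  refine Finset.sum_equiv (MulAction.toPerm h) ?_ (fun _ _ => rfl)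
  intro x'
  simp only [Finset.mem_filter, Finset.mem_univ, true_and, MulAction.toPerm_apply, prX_smul]
  exact ⟨fun e => by rw [e], fun e => smul_left_cancel h e⟩

theorem pushC_isCoc (ψ' : Additive Γ' →+ A) (u' : (SL(2, ℤ) ⧸ Γ') → A) :
    IsCoc (pushC hle ψ' u') := by
  intro g h x
  unfold pushC
  simp only [fgenA_mul, Finset.sum_add_distrib]
  rw [sum_fiber_smul hle (fun y' => fgenA g ψ' u' y') h x]

end General

/-! ### The case `Γ₀(N q) ≤ Γ₀(N)` : the push-forward is the corestriction -/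

section Gamma0

variable {N q : ℕ} {A : Type*} [AddCommGroup A]

/-- The points of the fibre of `pr` over the base point: the cosets `R_i⁻¹ Γ₀(N q)`. -/
def fibPt (N q : ℕ) (i : OnePoint (ZMod q)) : SL(2, ℤ) ⧸ Gamma0 (N * q) :=
  (((corRepSL N q i)⁻¹ : SL(2, ℤ)) : SL(2, ℤ) ⧸ Gamma0 (N * q))

theorem prX_fibPt (h : Nat.Coprime q N) (i : OnePoint (ZMod q)) :
    prX (Gamma0_mul_le N q) (fibPt N q i) = ((1 : SL(2, ℤ)) : SL(2, ℤ) ⧸ Gamma0 N) := by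
  rw [fibPt, prX_mk, QuotientGroup.eq, inv_inv, mul_one]
  exact corRepSL_mem h i

theorem delta_mem (i : OnePoint (ZMod q)) :
    corRepSL N q i * Quotient.out (fibPt N q i) ∈ Gamma0 (N * q) := by
  have h := QuotientGroup.out_eq' (fibPt N q i)
  have h2 := QuotientGroup.eq.mp h.symm
  rwa [inv_inv] at h2

/-- The correction `δ_i = R_i · out (R_i⁻¹ Γ') ∈ Γ₀(N q)`. -/
def delta (N q : ℕ) (i : OnePoint (ZMod q)) : Gamma0 (N * q) := ⟨_, delta_mem i⟩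

/-- Restriction as composition with the inclusion. -/
theorem resCoh_eq_comp (φ : Additive (Gamma0 N) →+ A) :
    resCoh N q φ = φ.comp (Subgroup.inclusion (Gamma0_mul_le N q)).toAdditive := by
  refine AddMonoidHom.ext fun γ => ?_
  obtain ⟨γ, rfl⟩ := Additive.ofMul.surjective γ
  rw [resCoh_apply]
  rfl

/-- **Pull-back = restriction.** -/
theorem fgenA_resCoh (φ : Additive (Gamma0 N) →+ A) (w : (SL(2, ℤ) ⧸ Gamma0 N) → A)
    (g : SL(2, ℤ)) (x' : SL(2, ℤ) ⧸ Gamma0 (N * q)) :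
    fgenA g (resCoh N q φ) (resGauge (Gamma0_mul_le N q) φ w) x'
      = fgenA g φ w (prX (Gamma0_mul_le N q) x') := by
  rw [resCoh_eq_comp]
  exact fgenA_res _ φ w g x'

variable [Fact q.Prime]

theorem fibPt_injective (hqN : ¬ q ∣ N) : Function.Injective (fibPt N q) := by
  intro i i' e
  rw [fibPt, fibPt, QuotientGroup.eq, inv_inv] at e
  exact corRepSL_sep hqN i i' e

theorem exists_fibPt (hqN : ¬ q ∣ N) (x' : SL(2, ℤ) ⧸ Gamma0 (N * q))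
    (hx' : prX (Gamma0_mul_le N q) x' = ((1 : SL(2, ℤ)) : SL(2, ℤ) ⧸ Gamma0 N)) :
    ∃ i, fibPt N q i = x' := by
  induction x' using QuotientGroup.induction_on with
  | H g =>
    have hg : g⁻¹ ∈ Gamma0 N := by
      have h1 := QuotientGroup.eq.mp hx'
      rwa [mul_one] at h1
    obtain ⟨i, hi⟩ := exists_corRepSL (q := q) hqN hg
    refine ⟨i, ?_⟩
    rw [fibPt, QuotientGroup.eq, inv_inv]
    have h2 := (Gamma0 (N * q)).inv_mem hi
    rwa [mul_inv_rev, inv_inv, inv_inv] at h2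

/-- The relation `R_i γ = coc · R_{perm i}` in `SL(2, ℤ)`. -/
theorem corRepSL_mul (hqN : ¬ q ∣ N) (γ : Gamma0 N) (i : OnePoint (ZMod q)) :
    corRepSL N q i * (γ : SL(2, ℤ))
      = ((corSys hqN).coc γ i : SL(2, ℤ)) * corRepSL N q ((corSys hqN).perm γ i) := by
  have e := (corSys hqN).spec γ i
  rw [corRep_eq, corRep_eq, jSub_apply, jSub_apply, ← map_mul, ← map_mul] at e
  exact Matrix.SpecialLinearGroup.mapGL_injective e

theorem smul_fibPt (hqN : ¬ q ∣ N) (γ : Gamma0 N) (i : OnePoint (ZMod q)) :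
    (γ : SL(2, ℤ)) • fibPt N q ((corSys hqN).perm γ i) = fibPt N q i := by
  show (((γ : SL(2, ℤ)) * (corRepSL N q ((corSys hqN).perm γ i))⁻¹ : SL(2, ℤ)) :
    SL(2, ℤ) ⧸ Gamma0 (N * q)) = (((corRepSL N q i)⁻¹ : SL(2, ℤ)) : SL(2, ℤ) ⧸ Gamma0 (N * q))
  rw [QuotientGroup.eq]
  have e := corRepSL_mul hqN γ i
  have e2 : ((γ : SL(2, ℤ)) * (corRepSL N q ((corSys hqN).perm γ i))⁻¹)⁻¹ * (corRepSL N q i)⁻¹
      = (((corSys hqN).coc γ i : SL(2, ℤ)))⁻¹ := by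
    rw [← mul_inv_rev, ← mul_assoc, e, mul_inv_cancel_right]
  rw [e2]
  exact (Gamma0 (N * q)).inv_mem ((corSys hqN).coc γ i).2

theorem kap_fibPt (hqN : ¬ q ∣ N) (γ : Gamma0 N) (i : OnePoint (ZMod q)) :
    kap (Gamma0 (N * q)) (γ : SL(2, ℤ)) (fibPt N q ((corSys hqN).perm γ i))
      = (delta N q i)⁻¹ * (corSys hqN).coc γ i * delta N q ((corSys hqN).perm γ i) := by
  apply Subtype.ext
  have e := corRepSL_mul hqN γ i
  have e' : (((corSys hqN).coc γ i : Gamma0 (N * q)) : SL(2, ℤ))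
      = corRepSL N q i * (γ : SL(2, ℤ)) * (corRepSL N q ((corSys hqN).perm γ i))⁻¹ := by
    rw [e, mul_inv_cancel_right]
  simp only [kap, delta, Subgroup.coe_mul, Subgroup.coe_inv, smul_fibPt hqN γ i]
  rw [e']
  group

variable [Fintype (SL(2, ℤ) ⧸ Gamma0 (N * q))]

open Classical in
theorem fiber_eq_image (hqN : ¬ q ∣ N) :
    Finset.univ.filter (fun x' : SL(2, ℤ) ⧸ Gamma0 (N * q) =>
        prX (Gamma0_mul_le N q) x' = ((1 : SL(2, ℤ)) : SL(2, ℤ) ⧸ Gamma0 N))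
      = Finset.univ.image (fibPt N q) := by
  ext x'
  simp only [Finset.mem_filter, Finset.mem_univ, true_and, Finset.mem_image]
  constructor
  · intro hx'
    exact exists_fibPt hqN x' hx'
  · rintro ⟨i, rfl⟩
    exact prX_fibPt (coprime_of_not_dvd hqN) i

/-- The push-forward cocycle at the base point is the corestriction. -/
theorem pushC_base (hqN : ¬ q ∣ N) (ψ : Additive (Gamma0 (N * q)) →+ A)
    (u' : (SL(2, ℤ) ⧸ Gamma0 (N * q)) → A) (γ : Gamma0 N) :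
    pushC (Gamma0_mul_le N q) ψ u' (γ : SL(2, ℤ)) (((1 : SL(2, ℤ)) : SL(2, ℤ) ⧸ Gamma0 N))
      = corCoh N q ψ (Additive.ofMul γ) := by
  classical
  have hC := corSys hqN
  unfold pushC
  rw [fiber_eq_image hqN, Finset.sum_image (fun i _ j _ e => fibPt_injective hqN e),
    corCoh_eq N q hC, hC.op_apply,
    ← Equiv.sum_comp (hC.permEquiv γ)
      (fun i => fgenA (γ : SL(2, ℤ)) ψ u' (fibPt N q i))]
  have key : ∀ i, fgenA (γ : SL(2, ℤ)) ψ u' (fibPt N q (hC.permEquiv γ i))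
      = ψ (Additive.ofMul (hC.coc γ i))
        + (ψ (Additive.ofMul (delta N q (hC.permEquiv γ i))) - ψ (Additive.ofMul (delta N q i)))
        + (u' (fibPt N q i) - u' (fibPt N q (hC.permEquiv γ i))) := by
    intro i
    rw [IsHeckeSys.permEquiv_apply]
    unfold fgenA cphA
    rw [kap_fibPt hqN γ i, smul_fibPt hqN γ i, ofMul_mul, ofMul_mul, ofMul_inv, map_add, map_add,
      map_neg]
    abel
  simp only [key, Finset.sum_add_distrib, Finset.sum_sub_distrib]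
  rw [Equiv.sum_comp (hC.permEquiv γ) (fun i => ψ (Additive.ofMul (delta N q i))),
    Equiv.sum_comp (hC.permEquiv γ) (fun i => u' (fibPt N q i)), sub_self, sub_self, add_zero,
    add_zero]

theorem shapiroHom_pushC (hqN : ¬ q ∣ N) (ψ : Additive (Gamma0 (N * q)) →+ A)
    (u' : (SL(2, ℤ) ⧸ Gamma0 (N * q)) → A) :
    shapiroHom (pushC (Gamma0_mul_le N q) ψ u') (pushC_isCoc _ ψ u') = corCoh N q ψ := by
  refine AddMonoidHom.ext fun γ => ?_
  obtain ⟨γ, rfl⟩ := Additive.ofMul.surjective γ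
  rw [shapiroHom_apply, pushC_base hqN]

/-- **Push-forward = corestriction.**  The fibre sums of the crossed map of `(ψ, u')` form the
crossed map of `(corCoh N q ψ, v)` for a suitable gauge `v`. -/
theorem exists_fgenA_corCoh (hqN : ¬ q ∣ N) (ψ : Additive (Gamma0 (N * q)) →+ A)
    (u' : (SL(2, ℤ) ⧸ Gamma0 (N * q)) → A) :
    ∃ v : (SL(2, ℤ) ⧸ Gamma0 N) → A, ∀ (g : SL(2, ℤ)) (x : SL(2, ℤ) ⧸ Gamma0 N),
      fgenA g (corCoh N q ψ) v x = pushC (Gamma0_mul_le N q) ψ u' g x :=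
  ⟨_, fun g x => by
    rw [← shapiroHom_pushC hqN ψ u']
    exact shapiro _ _ g x⟩

end Gamma0

end

end Fermat.Agent.S41.Dual
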