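import Mathlib
import Fermat.Agent.S41.Dual.Cell
import Fermat.Agent.S41.Dual.Transfer

/-!
# S41 / WP-D (D3) : `res` / `cor` adjointness of the cellular pairing

`cellB_res_cor : cellB (Gamma0 (N*q)) (resCoh N q φ) ψ = cellB (Gamma0 N) φ (corCoh N q ψ)`.

`IsZeta` pulls back along `pr : SL(2, ℤ) ⧸ Γ₀(N q) → SL(2, ℤ) ⧸ Γ₀(N)` (`IsZeta.res`), `IsNu` pushes
forward by fibre sums (`IsNu.cor`), and the two sums agree fibrewise.
-/

set_option autoImplicit false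

open scoped MatrixGroups
open CongruenceSubgroup ModularGroup

namespace Fermat.Agent.S41.Dual

open Fermat.Agent.ESJ.ParHom Fermat.Agent.S21.ParabolicBound Fermat.Agent.S41.Coh

noncomputable section

variable {N q : ℕ} {A : Type*} [CommRing A]

/-- `IsZeta` pulls back along the projection. -/
theorem IsZeta.res {φ : Additive (Gamma0 N) →+ A} {ζ : (SL(2, ℤ) ⧸ Gamma0 N) → A}
    (hζ : IsZeta (Gamma0 N) φ ζ) :
    IsZeta (Gamma0 (N * q)) (resCoh N q φ) (fun x' => ζ (prX (Gamma0_mul_le N q) x')) := by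
  obtain ⟨w, hS, hT⟩ := hζ
  refine ⟨resGauge (Gamma0_mul_le N q) φ w, fun x' => ?_, fun x' => ?_⟩
  · rw [fgenA_resCoh]
    exact hS _
  · show _ = ζ (prX (Gamma0_mul_le N q) (T • x')) - ζ (prX (Gamma0_mul_le N q) x')
    rw [fgenA_resCoh, hT, prX_smul]

open Classical in
/-- `IsNu` pushes forward by fibre sums, to the corestriction. -/
theorem IsNu.cor [Fact q.Prime] (hqN : ¬ q ∣ N) [Fintype (SL(2, ℤ) ⧸ Gamma0 (N * q))]
    {ψ : Additive (Gamma0 (N * q)) →+ A} {ν' : (SL(2, ℤ) ⧸ Gamma0 (N * q)) → A}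
    (hν : IsNu (Gamma0 (N * q)) ψ ν') :
    IsNu (Gamma0 N) (corCoh N q ψ)
      (fun x => ∑ x' ∈ Finset.univ.filter (fun x' => prX (Gamma0_mul_le N q) x' = x), ν' x') := by
  obtain ⟨u', hR, hS⟩ := hν
  obtain ⟨v, hv⟩ := exists_fgenA_corCoh hqN ψ u'
  refine ⟨v, fun x => ?_, fun x => ?_⟩
  · rw [hv, pushC]
    exact Finset.sum_eq_zero fun x' _ => hR x'
  · rw [hv, pushC]
    exact Finset.sum_congr rfl fun x' _ => hS x'

/-- **`res` and `cor` are adjoint for the cellular pairing.** -/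
theorem cellB_res_cor [Fact q.Prime] (hqN : ¬ q ∣ N)
    [Finite (SL(2, ℤ) ⧸ Gamma0 N)] [Finite (SL(2, ℤ) ⧸ Gamma0 (N * q))]
    {φ : Additive (Gamma0 N) →+ A} {ψ : Additive (Gamma0 (N * q)) →+ A}
    (hφ : IsPEHom (Gamma0 N) φ) (hψ : IsPEHom (Gamma0 (N * q)) ψ) :
    cellB (Gamma0 (N * q)) (resCoh N q φ) ψ = cellB (Gamma0 N) φ (corCoh N q ψ) := by
  classical
  let _ : Fintype (SL(2, ℤ) ⧸ Gamma0 N) := Fintype.ofFinite _
  let _ : Fintype (SL(2, ℤ) ⧸ Gamma0 (N * q)) := Fintype.ofFinite _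
  obtain ⟨ζ, hζ⟩ := exists_isZeta hφ
  obtain ⟨ν', hν'⟩ := exists_isNu hψ
  rw [cellB_eq (isPEHom_resCoh N q hφ) hψ (hζ.res (q := q)) hν',
    cellB_eq hφ (isPEHom_corCoh N q hψ) hζ (hν'.cor hqN)]
  rw [← Finset.sum_fiberwise Finset.univ (prX (Gamma0_mul_le N q))
    (fun x' => ζ (prX (Gamma0_mul_le N q) x') * ν' x')]
  refine Finset.sum_congr rfl fun x _ => ?_
  rw [Finset.mul_sum]
  refine Finset.sum_congr rfl fun x' hx' => ?_
  rw [(Finset.mem_filter.mp hx').2]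

end

end Fermat.Agent.S41.Dual
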