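import Mathlib
import Fermat.Agent.S41.Coh.LevelMat

/-!
# S41 / WP-D (DUALITY) : the Atkin–Lehner conjugation as an endomorphism of `Γ₀(N q)`

`wAlpha γ = w γ w⁻¹`, `wBeta γ = w⁻¹ γ w` (`w = wMat N q`), the facts needed to apply
`Dual/Cusp.lean` (`sum_comp_conj_eq`) to `w`, and `wCoh N q ψ = ψ ∘ wAlpha`.
-/

set_option autoImplicit false

open scoped MatrixGroups
open CongruenceSubgroup

namespace Fermat.Agent.S41.Dual

open Fermat.Agent.ESJ.ParHom Fermat.Agent.S41.Coh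

noncomputable section

variable {N q : ℕ}

/-- Conjugation by `w`: `γ ↦ w γ w⁻¹` on `Γ₀(N q)`. -/
def wAlpha (h : Nat.Coprime q N) (hq : q ≠ 0) : Gamma0 (N * q) →* Gamma0 (N * q) where
  toFun γ := (wSys h hq).coc γ ()
  map_one' := (wSys h hq).coc_one ()
  map_mul' γ δ := (wSys h hq).coc_mul γ δ ()

theorem wAlpha_spec (h : Nat.Coprime q N) (hq : q ≠ 0) (γ : Gamma0 (N * q)) :
    wMat N q * jSub (Gamma0 (N * q)) γ = jSub (Gamma0 (N * q)) (wAlpha h hq γ) * wMat N q :=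
  (wSys h hq).spec γ ()

/-- `wCoh ψ = ψ ∘ (conjugation by w)`. -/
theorem wCoh_apply_wAlpha (h : Nat.Coprime q N) (hq : q ≠ 0) {A : Type*} [AddCommGroup A]
    (ψ : Additive (Gamma0 (N * q)) →+ A) (γ : Gamma0 (N * q)) :
    wCoh N q ψ (Additive.ofMul γ) = ψ (Additive.ofMul (wAlpha h hq γ)) := by
  rw [wCoh_eq N q (wSys h hq), IsHeckeSys.op_apply]
  simp only [Finset.univ_unique, Finset.sum_singleton]
  rfl

theorem wCoh_eq_comp_wAlpha (h : Nat.Coprime q N) (hq : q ≠ 0) {A : Type*} [AddCommGroup A]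
    (ψ : Additive (Gamma0 (N * q)) →+ A) :
    wCoh N q ψ = ψ.comp (MonoidHom.toAdditive (wAlpha h hq)) := by
  refine AddMonoidHom.ext fun γ => ?_
  obtain ⟨γ, rfl⟩ := Additive.ofMul.surjective γ
  rw [wCoh_apply_wAlpha h hq]
  rfl

/-- The element `γ₂` with `w * w = q • γ₂`, in `Γ₀(N q)`. -/
def gam2Sub (h : Nat.Coprime q N) : Gamma0 (N * q) := ⟨gam2 N q, gam2_mem h⟩

/-- Conjugation by `w⁻¹`: `γ ↦ w⁻¹ γ w = γ₂⁻¹ (w γ w⁻¹) γ₂` on `Γ₀(N q)`. -/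
def wBeta (h : Nat.Coprime q N) (hq : q ≠ 0) : Gamma0 (N * q) →* Gamma0 (N * q) :=
  (MulAut.conj (gam2Sub h)⁻¹).toMonoidHom.comp (wAlpha h hq)

theorem wBeta_apply (h : Nat.Coprime q N) (hq : q ≠ 0) (γ : Gamma0 (N * q)) :
    wBeta h hq γ = (gam2Sub h)⁻¹ * wAlpha h hq γ * gam2Sub h := by
  simp [wBeta]

theorem conj_aux {G : Type*} [Group G] (w s g2 j ja : G) (h1 : w * w = s * g2)
    (hs : s * ja = ja * s) (h2 : w * j = ja * w) : j * w = w * (g2⁻¹ * ja * g2) := by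
  obtain rfl : g2 = s⁻¹ * (w * w) := by rw [h1]; group
  have h3 : s * ja * s⁻¹ = ja := by rw [hs]; group
  calc j * w = w⁻¹ * (w * j) * w := by group
    _ = w⁻¹ * (ja * w) * w := by rw [h2]
    _ = w⁻¹ * ((s * ja * s⁻¹) * w) * w := by rw [h3]
    _ = w * ((s⁻¹ * (w * w))⁻¹ * ja * (s⁻¹ * (w * w))) := by group

theorem wBeta_spec (h : Nat.Coprime q N) (hq : q ≠ 0) (γ : Gamma0 (N * q)) :
    jSub (Gamma0 (N * q)) γ * wMat N q = wMat N q * jSub (Gamma0 (N * q)) (wBeta h hq γ) := by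
  rw [wBeta_apply, map_mul, map_mul, map_inv]
  exact conj_aux (wMat N q) (scalarGL (q : ℝ)) _ _ _ (wMat_mul_wMat h hq)
    (scalarGL_comm _ _) (wAlpha_spec h hq γ)

theorem det_wMat_pos (h : Nat.Coprime q N) (hq : q ≠ 0) : 0 < (wMat N q).det.val := by
  have e : (wMat N q).det.val = ((wMat N q : GL (Fin 2) ℝ) : Matrix (Fin 2) (Fin 2) ℝ).det := rfl
  rw [e, coe_wMat h hq, det_wMatR h]
  exact_mod_cast Nat.pos_of_ne_zero hq

end

end Fermat.Agent.S41.Dual
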