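import Mathlib
import Fermat.Agent.S41.Dual.NondegGamma0
import Fermat.Agent.S41.Dual.ResCor
import Fermat.Agent.S41.Dual.WConj
import Fermat.Agent.S41.DualIhara
import Fermat.Agent.S41.Ihara.EisFinal
import Fermat.Agent.S41.Coh.CoreData

/-!
# S41 / WP-D (D6) : dual Ihara modulo `p` from the cellular pairing

`dual_ihara_modp_of` : for a prime `ℓ ∤ N q`, the operator `e = T_ℓ - (ℓ + 1)` on
`Hom_PE(Γ₀(N), 𝔽_p)` satisfies: for all `a, b` there is `z` of level `N q` with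
`e a = cor z` and `e b = cor (w z)`.

Inputs: left-nondegeneracy (`cellB_nondeg_Gamma0`), `res`/`cor` adjointness (`cellB_res_cor`),
Ihara's lemma modulo `p` (`Ihara.Eis.ihara_modp_sub`), and the two integral statements
`AntisymmInt` (antisymmetry of the cellular pairing) and `WIsomInt` (the Atkin–Lehner operator is
an isometry), which are reduced modulo `p` here.
-/

set_option autoImplicit false

open scoped MatrixGroups
open CongruenceSubgroup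

namespace Fermat.Agent.S41.Dual

open Fermat.Agent.ESJ.ParHom Fermat.Agent.S41.Coh

noncomputable section

/-- Antisymmetry of the cellular pairing on integral parabolic-elliptic homomorphisms of
`Γ₀(M)`. -/
def AntisymmInt (M : ℕ) [NeZero M] : Prop :=
  ∀ φ ψ : Additive (Gamma0 M) →+ ℤ, IsPEHom (Gamma0 M) φ → IsPEHom (Gamma0 M) ψ →
    cellB (Gamma0 M) ψ φ = - cellB (Gamma0 M) φ ψ

/-- The Atkin–Lehner operator is an isometry of the cellular pairing on integral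
parabolic-elliptic homomorphisms of `Γ₀(N q)`. -/
def WIsomInt (N q : ℕ) [NeZero N] [Fact q.Prime] : Prop :=
  ∀ φ ψ : Additive (Gamma0 (N * q)) →+ ℤ, IsPEHom (Gamma0 (N * q)) φ →
    IsPEHom (Gamma0 (N * q)) ψ →
    cellB (Gamma0 (N * q)) (wCoh N q φ) (wCoh N q ψ) = cellB (Gamma0 (N * q)) φ ψ

/-- Every parabolic-elliptic homomorphism modulo `p` lifts to an integral one. -/
theorem exists_int_lift (M : ℕ) [NeZero M] (p : ℕ) {χ : Additive (Gamma0 M) →+ ZMod p}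
    (hχ : IsPEHom (Gamma0 M) χ) :
    ∃ φ : Additive (Gamma0 M) →+ ℤ, IsPEHom (Gamma0 M) φ ∧
      χ = (Int.castRingHom (ZMod p)).toAddMonoidHom.comp φ := by
  obtain ⟨φ, hφ⟩ := castPE_zmod_surjective M p ⟨χ, hχ⟩
  refine ⟨φ.1, φ.2, ?_⟩
  have h := congrArg Subtype.val hφ
  rw [coe_castPE] at h
  exact h.symm

theorem cellB_antisymm_zmod {M : ℕ} [NeZero M] (hA : AntisymmInt M) (p : ℕ)
    {φ ψ : Additive (Gamma0 M) →+ ZMod p} (hφ : IsPEHom (Gamma0 M) φ)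
    (hψ : IsPEHom (Gamma0 M) ψ) : cellB (Gamma0 M) ψ φ = - cellB (Gamma0 M) φ ψ := by
  obtain ⟨φ₀, hφ₀, rfl⟩ := exists_int_lift M p hφ
  obtain ⟨ψ₀, hψ₀, rfl⟩ := exists_int_lift M p hψ
  rw [cellB_map _ hψ₀ hφ₀, cellB_map _ hφ₀ hψ₀, hA φ₀ ψ₀ hφ₀ hψ₀, map_neg]

theorem cellB_wCoh_zmod {N q : ℕ} [NeZero N] [Fact q.Prime] (hW : WIsomInt N q) (p : ℕ)
    {φ ψ : Additive (Gamma0 (N * q)) →+ ZMod p} (hφ : IsPEHom (Gamma0 (N * q)) φ)
    (hψ : IsPEHom (Gamma0 (N * q)) ψ) :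
    cellB (Gamma0 (N * q)) (wCoh N q φ) (wCoh N q ψ) = cellB (Gamma0 (N * q)) φ ψ := by
  obtain ⟨φ₀, hφ₀, rfl⟩ := exists_int_lift (N * q) p hφ
  obtain ⟨ψ₀, hψ₀, rfl⟩ := exists_int_lift (N * q) p hψ
  have e1 : wCoh N q ((Int.castRingHom (ZMod p)).toAddMonoidHom.comp φ₀)
      = (Int.castRingHom (ZMod p)).toAddMonoidHom.comp (wCoh N q φ₀) := wCoh_comp N q _ φ₀
  have e2 : wCoh N q ((Int.castRingHom (ZMod p)).toAddMonoidHom.comp ψ₀)
      = (Int.castRingHom (ZMod p)).toAddMonoidHom.comp (wCoh N q ψ₀) := wCoh_comp N q _ ψ₀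
  rw [e1, e2, cellB_map _ (isPEHom_wCoh N q hφ₀) (isPEHom_wCoh N q hψ₀),
    cellB_map _ hφ₀ hψ₀, hW φ₀ ψ₀ hφ₀ hψ₀]

/-- The cellular pairing as a bilinear form on `Hom_PE(Γ₀(M), k)`. -/
def cellBL (M : ℕ) [NeZero M] (k : Type*) [Field k] :
    peHoms (Gamma0 M) k k →ₗ[k] peHoms (Gamma0 M) k k →ₗ[k] k :=
  LinearMap.mk₂ k (fun φ ψ => cellB (Gamma0 M) (φ : Additive (Gamma0 M) →+ k)
      (ψ : Additive (Gamma0 M) →+ k))
    (fun φ φ' ψ => cellB_add_left φ.2 φ'.2 ψ.2)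
    (fun c φ ψ => cellB_smul_left c φ.2 ψ.2)
    (fun φ ψ ψ' => cellB_add_right φ.2 ψ.2 ψ'.2)
    (fun c φ ψ => cellB_smul_right c φ.2 ψ.2)

theorem cellBL_apply (M : ℕ) [NeZero M] (k : Type*) [Field k] (φ ψ : peHoms (Gamma0 M) k k) :
    cellBL M k φ ψ = cellB (Gamma0 M) (φ : Additive (Gamma0 M) →+ k)
      (ψ : Additive (Gamma0 M) →+ k) := rfl

theorem cellBL_nondeg (M : ℕ) [NeZero M] (k : Type*) [Field k] (a : peHoms (Gamma0 M) k k)
    (h : ∀ x, cellBL M k a x = 0) : a = 0 := by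
  apply Subtype.ext
  exact cellB_nondeg_Gamma0 k M a.2 (fun ψ hψ => h ⟨ψ, hψ⟩)

/-- `T_ℓ` is self-adjoint for the cellular pairing modulo `p` (`ℓ ∤ N`). -/
theorem cellB_heckeCoh_zmod {N : ℕ} [NeZero N] (p : ℕ) {ℓ : ℕ} [Fact ℓ.Prime] (hℓN : ¬ ℓ ∣ N)
    (hA : AntisymmInt N) (hAℓ : AntisymmInt (N * ℓ)) (hW : WIsomInt N ℓ)
    {φ ψ : Additive (Gamma0 N) →+ ZMod p} (hφ : IsPEHom (Gamma0 N) φ)
    (hψ : IsPEHom (Gamma0 N) ψ) :
    cellB (Gamma0 N) (heckeCoh N ⟨ℓ, Fact.out⟩ φ) ψ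
      = cellB (Gamma0 N) φ (heckeCoh N ⟨ℓ, Fact.out⟩ ψ) := by
  have hrφ := isPEHom_resCoh N ℓ hφ
  have hrψ := isPEHom_resCoh N ℓ hψ
  have hwrφ := isPEHom_wCoh N ℓ hrφ
  have hwrψ := isPEHom_wCoh N ℓ hrψ
  rw [← corCoh_wCoh_resCoh' hℓN φ, ← corCoh_wCoh_resCoh' hℓN ψ]
  rw [cellB_antisymm_zmod hA p hψ (isPEHom_corCoh N ℓ hwrφ), ← cellB_res_cor hℓN hψ hwrφ,
    ← cellB_wCoh_zmod hW p hrψ hwrφ, wCoh_wCoh' hℓN, cellB_antisymm_zmod hAℓ p hrφ hwrψ,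
    neg_neg, cellB_res_cor hℓN hφ hwrψ]

/-- **Dual Ihara modulo `p`** for `e = T_ℓ - (ℓ + 1)`, from the antisymmetry of the cellular
pairing and the isometry property of the Atkin–Lehner operators. -/
theorem dual_ihara_modp_of {N q p : ℕ} [NeZero N] [Fact q.Prime] [Fact p.Prime] (hqN : ¬ q ∣ N)
    (hp2 : p ≠ 2) (ℓ : Nat.Primes) (hℓ : ¬ (ℓ : ℕ) ∣ N * q)
    (hA : ∀ (M : ℕ) [NeZero M], AntisymmInt M)
    (hW : ∀ (N q : ℕ) [NeZero N] [Fact q.Prime], ¬ q ∣ N → WIsomInt N q)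
    (a b : peHoms (Gamma0 N) (ZMod p) (ZMod p)) :
    ∃ z : peHoms (Gamma0 (N * q)) (ZMod p) (ZMod p),
      heckePE N ℓ (ZMod p) (ZMod p) a - ((ℓ : ℕ) + 1) • a = corPE N q (ZMod p) (ZMod p) z ∧
      heckePE N ℓ (ZMod p) (ZMod p) b - ((ℓ : ℕ) + 1) • b
        = corPE N q (ZMod p) (ZMod p) (wPE N q (ZMod p) (ZMod p) z) := by
  have : Fact (ℓ : ℕ).Prime := ⟨ℓ.2⟩
  have hℓN : ¬ (ℓ : ℕ) ∣ N := fun h => hℓ (Dvd.dvd.mul_right h q)
  have hℓeq : (⟨(ℓ : ℕ), Fact.out⟩ : Nat.Primes) = ℓ := Subtype.ext rfl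
  have hN : 0 < N := Nat.pos_of_ne_zero (NeZero.ne N)
  let e : peHoms (Gamma0 N) (ZMod p) (ZMod p) →ₗ[ZMod p] peHoms (Gamma0 N) (ZMod p) (ZMod p) :=
    { toFun := fun a => heckePE N ℓ (ZMod p) (ZMod p) a - ((ℓ : ℕ) + 1) • a
      map_add' := by
        intro x y
        rw [map_add, smul_add]
        abel
      map_smul' := by
        intro c x
        rw [map_smul, RingHom.id_apply, smul_sub, smul_comm ((ℓ : ℕ) + 1) c x] }
  have he_apply : ∀ x, e x = heckePE N ℓ (ZMod p) (ZMod p) x - ((ℓ : ℕ) + 1) • x := fun _ => rfl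
  have key := Fermat.Agent.S41.DualIhara.dual_ihara_of_pairing
    (resPE N q (ZMod p) (ZMod p)) (wPE N q (ZMod p) (ZMod p) ∘ₗ resPE N q (ZMod p) (ZMod p))
    (corPE N q (ZMod p) (ZMod p)) (corPE N q (ZMod p) (ZMod p) ∘ₗ wPE N q (ZMod p) (ZMod p))
    e (cellBL N (ZMod p)) (cellBL (N * q) (ZMod p))
    (cellBL_nondeg N (ZMod p)) (cellBL_nondeg (N * q) (ZMod p))
    (fun a z => by
      rw [cellBL_apply, cellBL_apply, coe_resPE, coe_corPE]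
      exact cellB_res_cor hqN a.2 z.2)
    (fun a z => by
      rw [cellBL_apply, cellBL_apply, LinearMap.comp_apply, LinearMap.comp_apply, coe_wPE,
        coe_resPE, coe_corPE, coe_wPE]
      have h1 := cellB_wCoh_zmod (hW N q hqN) p (isPEHom_resCoh N q a.2)
        (isPEHom_wCoh N q z.2)
      rw [wCoh_wCoh' hqN] at h1
      rw [h1]
      exact cellB_res_cor hqN a.2 (isPEHom_wCoh N q z.2))
    (fun a x => by
      have hT := cellB_heckeCoh_zmod p hℓN (hA N) (hA (N * ℓ)) (hW N ℓ hℓN) a.2 x.2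
      rw [hℓeq] at hT
      rw [he_apply, he_apply, map_sub, LinearMap.sub_apply, map_nsmul, LinearMap.smul_apply,
        map_sub, map_nsmul, cellBL_apply, cellBL_apply, cellBL_apply, coe_heckePE_apply,
        coe_heckePE_apply, hT])
    (fun a b h => by
      have h' := Fermat.Agent.S41.Ihara.Eis.ihara_modp_sub hN hqN (Fact.out : p.Prime) hp2
        hℓN a b h
      rw [hℓeq] at h'
      exact h')
  obtain ⟨z, hz1, hz2⟩ := key a b
  exact ⟨z, hz1, hz2⟩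

end

end Fermat.Agent.S41.Dual
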