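import Mathlib
import Fermat.Agent.S41.Dual.Main
import Fermat.Agent.S41.Dual.Kappa

/-!
# S41 / WP-D (final) : dual Ihara modulo `p`, unconditionally

Discharges the two integral hypotheses `AntisymmInt`, `WIsomInt` of `Dual/Main.lean` with the
`κ`-construction of `Dual/Kappa.lean`.
-/

set_option autoImplicit false

open scoped MatrixGroups
open CongruenceSubgroup

namespace Fermat.Agent.S41.Dual.Uncond

open Fermat.Agent.ESJ.ParHom Fermat.Agent.S41.Coh Fermat.Agent.S41.Dual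

noncomputable section

theorem neg_one_mem_Gamma0_fin (M : ℕ) : (-1 : SL(2, ℤ)) ∈ Gamma0 M := by
  rw [Gamma0_mem]
  simp

theorem antisymmInt_all (M : ℕ) [NeZero M] : AntisymmInt M := by
  intro φ ψ hφ hψ
  let _ : Fintype (SL(2, ℤ) ⧸ Gamma0 M) := Fintype.ofFinite _
  exact cellB_antisymm_int (neg_one_mem_Gamma0_fin M) hφ hψ

theorem wIsomInt_all (N q : ℕ) [NeZero N] [Fact q.Prime] (hqN : ¬ q ∣ N) : WIsomInt N q := by
  intro φ ψ hφ hψ
  let _ : Fintype (SL(2, ℤ) ⧸ Gamma0 (N * q)) := Fintype.ofFinite _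
  have hq : q.Prime := Fact.out
  have h : Nat.Coprime q N := (Nat.Prime.coprime_iff_not_dvd hq).mpr hqN
  have hq0 : q ≠ 0 := hq.ne_zero
  rw [wCoh_eq_comp_wAlpha h hq0, wCoh_eq_comp_wAlpha h hq0]
  exact cellB_comp_conj_int (neg_one_mem_Gamma0_fin (N * q)) (wMat N q) (det_wMat_pos h hq0)
    (wAlpha h hq0) (wBeta h hq0) (wAlpha_spec h hq0) (wBeta_spec h hq0) hφ hψ

/-- **Dual Ihara modulo `p`** for `e = T_ℓ - (ℓ + 1)`, unconditionally. -/
theorem dual_ihara_modp_final {N q p : ℕ} [NeZero N] [Fact q.Prime] [Fact p.Prime]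
    (hqN : ¬ q ∣ N) (hp2 : p ≠ 2) (ℓ : Nat.Primes) (hℓ : ¬ (ℓ : ℕ) ∣ N * q)
    (a b : peHoms (Gamma0 N) (ZMod p) (ZMod p)) :
    ∃ z : peHoms (Gamma0 (N * q)) (ZMod p) (ZMod p),
      heckePE N ℓ (ZMod p) (ZMod p) a - ((ℓ : ℕ) + 1) • a = corPE N q (ZMod p) (ZMod p) z ∧
      heckePE N ℓ (ZMod p) (ZMod p) b - ((ℓ : ℕ) + 1) • b
        = corPE N q (ZMod p) (ZMod p) (wPE N q (ZMod p) (ZMod p) z) :=
  dual_ihara_modp_of hqN hp2 ℓ hℓ (fun M _ => antisymmInt_all M)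
    (fun N q _ _ hqN => wIsomInt_all N q hqN) a b

end

end Fermat.Agent.S41.Dual.Uncond
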