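import Mathlib
import Fermat.Agent.S41.Dual.Main
import Fermat.Agent.S41.Dual.Kappa

/-!
# S41 / WP-D : dual Ihara modulo `p`, unconditionally

The two integral statements `AntisymmInt` and `WIsomInt` of `Dual/Main.lean` follow from the
Heisenberg lift of `Dual/Kappa.lean` (`cellB_antisymm_int`, `cellB_comp_conj_int`) and the
Atkin–Lehner conjugation data of `Dual/WConj.lean`; plugging them into `dual_ihara_modp_of`
gives dual Ihara modulo `p` with no hypothesis left.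
-/

set_option autoImplicit false

open scoped MatrixGroups
open CongruenceSubgroup

namespace Fermat.Agent.S41.Dual

open Fermat.Agent.ESJ.ParHom Fermat.Agent.S41.Coh

noncomputable section

theorem neg_one_mem_Gamma0 (M : ℕ) : (-1 : SL(2, ℤ)) ∈ Gamma0 M := by
  rw [Gamma0_mem]
  simp

/-- Antisymmetry of the cellular pairing on `Hom_PE(Γ₀(M), ℤ)`. -/
theorem antisymmInt_Gamma0 (M : ℕ) [NeZero M] : AntisymmInt M := by
  intro φ ψ hφ ψh
  let _ : Fintype (SL(2, ℤ) ⧸ Gamma0 M) := Fintype.ofFinite _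
  exact cellB_antisymm_int (neg_one_mem_Gamma0 M) hφ ψh

/-- The Atkin–Lehner operator is an isometry of the cellular pairing on
`Hom_PE(Γ₀(N q), ℤ)`. -/
theorem wIsomInt_Gamma0 (N q : ℕ) [NeZero N] [Fact q.Prime] (hqN : ¬ q ∣ N) : WIsomInt N q := by
  intro φ ψ hφ hψ
  have hq : q ≠ 0 := (Fact.out : q.Prime).ne_zero
  have h : Nat.Coprime q N := (Nat.Prime.coprime_iff_not_dvd Fact.out).mpr hqN
  let _ : Fintype (SL(2, ℤ) ⧸ Gamma0 (N * q)) := Fintype.ofFinite _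
  rw [wCoh_eq_comp_wAlpha h hq φ, wCoh_eq_comp_wAlpha h hq ψ]
  exact cellB_comp_conj_int (neg_one_mem_Gamma0 (N * q)) (wMat N q) (det_wMat_pos h hq)
    (wAlpha h hq) (wBeta h hq) (wAlpha_spec h hq) (wBeta_spec h hq) hφ hψ

/-- **Dual Ihara modulo `p`** (`p` odd, `q ∤ N` prime, `ℓ ∤ N q` prime): for all
`a, b ∈ Hom_PE(Γ₀(N), 𝔽_p)` there is `z ∈ Hom_PE(Γ₀(N q), 𝔽_p)` with
`(T_ℓ - (ℓ + 1)) a = cor z` and `(T_ℓ - (ℓ + 1)) b = cor (w z)`. -/
theorem dual_ihara_modp_Gamma0 {N q p : ℕ} [NeZero N] [Fact q.Prime] [Fact p.Prime]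
    (hqN : ¬ q ∣ N) (hp2 : p ≠ 2) (ℓ : Nat.Primes) (hℓ : ¬ (ℓ : ℕ) ∣ N * q)
    (a b : peHoms (Gamma0 N) (ZMod p) (ZMod p)) :
    ∃ z : peHoms (Gamma0 (N * q)) (ZMod p) (ZMod p),
      heckePE N ℓ (ZMod p) (ZMod p) a - ((ℓ : ℕ) + 1) • a = corPE N q (ZMod p) (ZMod p) z ∧
      heckePE N ℓ (ZMod p) (ZMod p) b - ((ℓ : ℕ) + 1) • b
        = corPE N q (ZMod p) (ZMod p) (wPE N q (ZMod p) (ZMod p) z) :=
  dual_ihara_modp_of hqN hp2 ℓ hℓ (fun M _ => antisymmInt_Gamma0 M)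
    (fun N q _ _ hqN => wIsomInt_Gamma0 N q hqN) a b

end

end Fermat.Agent.S41.Dual
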