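import Mathlib
import Fermat.Agent.S41.Dual.KappaInv

/-!
# S41 / WP-D (D5): from the cochain `K` on `SL(2, ℤ)` to `κ` on `Γ` and its cusp trace

`F g x = fgenA g φ w x`, `G g x = fgenA g ψ u x` are the crossed maps of `φ` (in an `S`-gauge
`w`) and of `ψ` (in an `S * T`-gauge `u`).  Given `K : SL(2, ℤ) → X → ℤ` with

  `K (g * h) x = K h x + K g (h • x) + F g (h • x) * G h x`,   `K S = 0`,  `K (S * T) = 0`

(the output of the Heisenberg lift through `PSL(2, ℤ) = C₂ * C₃`), the function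
`κ γ = K γ x₀` (`x₀` the base coset) is a bounding cochain of `φ ∪ ψ` on `Γ`, and its cusp trace
is `M * ∑ x, ζ x * ν x` (`exists_kappa_of_K`).
-/

set_option autoImplicit false

open scoped MatrixGroups
open ModularGroup

namespace Fermat.Agent.S41.Dual

open Fermat.Agent.ESJ.ParHom Fermat.Agent.S21.ParabolicBound

noncomputable section

namespace KappaTrace

variable {Γ : Subgroup SL(2, ℤ)} {φ ψ : Additive Γ →+ ℤ} {w u : (SL(2, ℤ) ⧸ Γ) → ℤ}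
  {K : SL(2, ℤ) → (SL(2, ℤ) ⧸ Γ) → ℤ}

theorem smul_base (γ : Γ) :
    (γ : SL(2, ℤ)) • (((1 : SL(2, ℤ)) : SL(2, ℤ) ⧸ Γ)) = ((1 : SL(2, ℤ)) : SL(2, ℤ) ⧸ Γ) := by
  show (((γ : SL(2, ℤ)) * 1 : SL(2, ℤ)) : SL(2, ℤ) ⧸ Γ) = ((1 : SL(2, ℤ)) : SL(2, ℤ) ⧸ Γ)
  rw [mul_one, QuotientGroup.eq, mul_one]
  exact Γ.inv_mem γ.2

theorem out_smul_base (x : SL(2, ℤ) ⧸ Γ) :
    (Quotient.out x : SL(2, ℤ)) • (((1 : SL(2, ℤ)) : SL(2, ℤ) ⧸ Γ)) = x := by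
  show (((Quotient.out x : SL(2, ℤ)) * 1 : SL(2, ℤ)) : SL(2, ℤ) ⧸ Γ) = x
  rw [mul_one]
  exact QuotientGroup.out_eq' x

theorem fgenA_base (χ : Additive Γ →+ ℤ) (v : (SL(2, ℤ) ⧸ Γ) → ℤ) (γ : Γ) :
    fgenA (γ : SL(2, ℤ)) χ v (((1 : SL(2, ℤ)) : SL(2, ℤ) ⧸ Γ)) = χ (Additive.ofMul γ) := by
  rw [fgenA, cphA_base, smul_base, sub_self, add_zero]

theorem K_one
    (hK : ∀ g h x, K (g * h) x = K h x + K g (h • x) + fgenA g φ w (h • x) * fgenA h ψ u x)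
    (x : SL(2, ℤ) ⧸ Γ) : K 1 x = 0 := by
  have := hK 1 1 x
  rw [mul_one, one_smul, fgenA_one, zero_mul, add_zero] at this
  linarith

/-- the cocycle identity of `κ γ = K γ x₀`. -/
theorem kappa_mul
    (hK : ∀ g h x, K (g * h) x = K h x + K g (h • x) + fgenA g φ w (h • x) * fgenA h ψ u x)
    (γ δ : Γ) :
    K ((γ * δ : Γ) : SL(2, ℤ)) (((1 : SL(2, ℤ)) : SL(2, ℤ) ⧸ Γ))
      = K (γ : SL(2, ℤ)) (((1 : SL(2, ℤ)) : SL(2, ℤ) ⧸ Γ))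
        + K (δ : SL(2, ℤ)) (((1 : SL(2, ℤ)) : SL(2, ℤ) ⧸ Γ))
        + φ (Additive.ofMul γ) * ψ (Additive.ofMul δ) := by
  rw [Subgroup.coe_mul, hK, smul_base, fgenA_base, fgenA_base]
  ring

/-- `κ (kap g x) = K g x` when `g` fixes `x` and both crossed maps vanish at `(g, x)`. -/
theorem kappa_kap
    (hK : ∀ g h x, K (g * h) x = K h x + K g (h • x) + fgenA g φ w (h • x) * fgenA h ψ u x)
    {g : SL(2, ℤ)} {x : SL(2, ℤ) ⧸ Γ} (hx : g • x = x) (hF : fgenA g φ w x = 0)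
    (hG : fgenA g ψ u x = 0) :
    K ((kap Γ g x : Γ) : SL(2, ℤ)) (((1 : SL(2, ℤ)) : SL(2, ℤ) ⧸ Γ)) = K g x := by
  rw [kap_of_smul_eq Γ hx]
  set o : SL(2, ℤ) := Quotient.out x with ho
  have hox : o • (((1 : SL(2, ℤ)) : SL(2, ℤ) ⧸ Γ)) = x := out_smul_base x
  have h1 := hK (o⁻¹ * g) o (((1 : SL(2, ℤ)) : SL(2, ℤ) ⧸ Γ))
  rw [hox] at h1
  have h2 := hK o⁻¹ g x
  rw [hx, hG, mul_zero, add_zero] at h2
  have h3 := fgenA_mul o⁻¹ g φ w x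
  rw [hx, hF, add_zero] at h3
  have h4 := hK o⁻¹ o (((1 : SL(2, ℤ)) : SL(2, ℤ) ⧸ Γ))
  rw [inv_mul_cancel, K_one hK, hox] at h4
  rw [h1, h2, h3]
  linarith

section trace

variable {ζ ν : (SL(2, ℤ) ⧸ Γ) → ℤ}

theorem K_T
    (hK : ∀ g h x, K (g * h) x = K h x + K g (h • x) + fgenA g φ w (h • x) * fgenA h ψ u x)
    (hw1 : ∀ x, fgenA S φ w x = 0) (hKS : ∀ x, K S x = 0) (hKR : ∀ x, K (S * T) x = 0)
    (x : SL(2, ℤ) ⧸ Γ) : K T x = 0 := by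
  have := hK S T x
  rw [hKR, hKS, hw1, zero_mul] at this
  linarith

theorem F_T_pow (hw2 : ∀ x, fgenA T φ w x = ζ (T • x) - ζ x) (n : ℕ) (y : SL(2, ℤ) ⧸ Γ) :
    fgenA (T ^ n) φ w y = ζ (T ^ n • y) - ζ y := by
  induction n generalizing y with
  | zero => rw [pow_zero, fgenA_one, one_smul, sub_self]
  | succ n ih =>
    rw [pow_succ, fgenA_mul, ih, hw2, mul_smul]
    ring

theorem G_T (hu1 : ∀ x, fgenA (S * T) ψ u x = 0) (hu2 : ∀ x, fgenA S ψ u x = ν x)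
    (x : SL(2, ℤ) ⧸ Γ) : fgenA T ψ u x = - ν (T • x) := by
  have := fgenA_mul S T ψ u x
  rw [hu1, hu2] at this
  linarith

theorem K_T_pow_succ
    (hK : ∀ g h x, K (g * h) x = K h x + K g (h • x) + fgenA g φ w (h • x) * fgenA h ψ u x)
    (hw1 : ∀ x, fgenA S φ w x = 0) (hw2 : ∀ x, fgenA T φ w x = ζ (T • x) - ζ x)
    (hu1 : ∀ x, fgenA (S * T) ψ u x = 0) (hu2 : ∀ x, fgenA S ψ u x = ν x)
    (hKS : ∀ x, K S x = 0) (hKR : ∀ x, K (S * T) x = 0) (n : ℕ) (x : SL(2, ℤ) ⧸ Γ) :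
    K (T ^ (n + 1)) x
      = K (T ^ n) (T • x) - (ζ (T ^ n • T • x) - ζ (T • x)) * ν (T • x) := by
  rw [pow_succ, hK, K_T hK hw1 hKS hKR, F_T_pow hw2, G_T hu1 hu2]
  ring

variable [Fintype (SL(2, ℤ) ⧸ Γ)]

theorem sum_K_T_pow
    (hK : ∀ g h x, K (g * h) x = K h x + K g (h • x) + fgenA g φ w (h • x) * fgenA h ψ u x)
    (hw1 : ∀ x, fgenA S φ w x = 0) (hw2 : ∀ x, fgenA T φ w x = ζ (T • x) - ζ x)
    (hu1 : ∀ x, fgenA (S * T) ψ u x = 0) (hu2 : ∀ x, fgenA S ψ u x = ν x)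
    (hKS : ∀ x, K S x = 0) (hKR : ∀ x, K (S * T) x = 0) (n : ℕ) :
    ∑ x, K (T ^ n) x
      = n * ∑ x, ζ x * ν x - ∑ x, (∑ j ∈ Finset.range n, ζ (T ^ j • x)) * ν x := by
  induction n with
  | zero =>
    simp only [pow_zero, K_one hK, Finset.sum_const_zero, Finset.range_zero, Finset.sum_empty,
      zero_mul, Nat.cast_zero, sub_self]
  | succ n ih =>
    have h1 : ∑ x, K (T ^ (n + 1)) x
        = ∑ x, (K (T ^ n) x - (ζ (T ^ n • x) - ζ x) * ν x) := by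
      rw [← sum_comp_smul T (fun x => K (T ^ n) x - (ζ (T ^ n • x) - ζ x) * ν x)]
      exact Finset.sum_congr rfl fun x _ => K_T_pow_succ hK hw1 hw2 hu1 hu2 hKS hKR n x
    rw [h1, Finset.sum_sub_distrib, ih]
    have h2 : ∑ x, (∑ j ∈ Finset.range (n + 1), ζ (T ^ j • x)) * ν x
        = ∑ x, (∑ j ∈ Finset.range n, ζ (T ^ j • x)) * ν x + ∑ x, ζ (T ^ n • x) * ν x := by
      rw [← Finset.sum_add_distrib]
      exact Finset.sum_congr rfl fun x _ => by rw [Finset.sum_range_succ, add_mul]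
    have h3 : ∑ x, (ζ (T ^ n • x) - ζ x) * ν x
        = ∑ x, ζ (T ^ n • x) * ν x - ∑ x, ζ x * ν x := by
      rw [← Finset.sum_sub_distrib]
      exact Finset.sum_congr rfl fun x _ => by rw [sub_mul]
    rw [h2, h3]
    push_cast
    ring

end trace

end KappaTrace

open KappaTrace

variable {Γ : Subgroup SL(2, ℤ)}

/-- **From `K` to `κ`**: the restriction of the cochain `K` to the base coset is a bounding
cochain of `φ ∪ ψ` on `Γ`, with cusp trace `M * ∑ x, ζ x * ν x`. -/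
theorem exists_kappa_of_K [Fintype (SL(2, ℤ) ⧸ Γ)] {φ ψ : Additive Γ →+ ℤ}
    (hφ : IsPEHom Γ φ) (hψ : IsPEHom Γ ψ) {w u ζ ν : (SL(2, ℤ) ⧸ Γ) → ℤ}
    (hw1 : ∀ x, fgenA S φ w x = 0) (hw2 : ∀ x, fgenA T φ w x = ζ (T • x) - ζ x)
    (hu1 : ∀ x, fgenA (S * T) ψ u x = 0) (hu2 : ∀ x, fgenA S ψ u x = ν x)
    (K : SL(2, ℤ) → (SL(2, ℤ) ⧸ Γ) → ℤ)
    (hK : ∀ g h x, K (g * h) x = K h x + K g (h • x) + fgenA g φ w (h • x) * fgenA h ψ u x)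
    (hKS : ∀ x, K S x = 0) (hKR : ∀ x, K (S * T) x = 0)
    {M : ℕ} (hMx : ∀ x : SL(2, ℤ) ⧸ Γ, T ^ M • x = x) :
    ∃ κ : Γ → ℤ,
      (∀ γ δ : Γ, κ (γ * δ) = κ γ + κ δ + φ (Additive.ofMul γ) * ψ (Additive.ofMul δ)) ∧
      ∑ x, κ (kap Γ (T ^ M) x) = M * ∑ x, ζ x * ν x := by
  refine ⟨fun γ => K (γ : SL(2, ℤ)) (((1 : SL(2, ℤ)) : SL(2, ℤ) ⧸ Γ)), kappa_mul hK, ?_⟩
  have h1 : ∀ x, K ((kap Γ (T ^ M) x : Γ) : SL(2, ℤ)) (((1 : SL(2, ℤ)) : SL(2, ℤ) ⧸ Γ))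
      = K (T ^ M) x := fun x =>
    kappa_kap hK (hMx x) (fgenA_eq_zero_of_fixed hφ w (hMx x) (trace_T_pow_sq_le M))
      (fgenA_eq_zero_of_fixed hψ u (hMx x) (trace_T_pow_sq_le M))
  simp only [h1]
  rw [sum_K_T_pow hK hw1 hw2 hu1 hu2 hKS hKR M]
  have hinv : ∀ x : SL(2, ℤ) ⧸ Γ, (∑ j ∈ Finset.range M, ζ (T ^ j • T • x))
      = ∑ j ∈ Finset.range M, ζ (T ^ j • x) := by
    intro x
    have e : ∀ j : ℕ, ζ (T ^ j • T • x) = ζ (T ^ (j + 1) • x) := fun j => by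
      rw [pow_succ, mul_smul]
    simp only [e]
    have h2 := Finset.sum_range_succ (fun j => ζ (T ^ j • x)) M
    have h3 := Finset.sum_range_succ' (fun j => ζ (T ^ j • x)) M
    rw [h2] at h3
    simp only [pow_zero, one_smul, hMx] at h3
    linarith
  have hν : IsNu Γ ψ ν := ⟨u, hu1, hu2⟩
  rw [hν.sum_mul_of_T hψ (a := fun x => ∑ j ∈ Finset.range M, ζ (T ^ j • x)) hinv, sub_zero]

end

end Fermat.Agent.S41.Dual
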