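import Mathlib
import Fermat.Agent.S41.Dual.PSL
import Fermat.Agent.S41.Dual.KappaTrace

/-!
# S41 / WP-D (D5): the Heisenberg lift through `PSL(2, ℤ) = C₂ * C₃`

For `ℤ`-valued parabolic-elliptic homomorphisms `φ, ψ` of `Γ ∋ -1`, with crossed maps
`F g x = fgenA g φ w x` (`F S = 0`) and `G g x = fgenA g ψ u x` (`G (S * T) = 0`), the
permutations of `X × ℤ × ℤ × ℤ`

  `s (x, a, b, k) = (S • x, a, b + G S x, k)`,
  `r (x, a, b, k) = (S * T • x, a + F (S * T) x, b, k + F (S * T) x * b)`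

satisfy `s² = 1`, `r³ = 1`, hence define a homomorphism `Θ` of `SL(2, ℤ)`; every `Θ g` has the
form `(x, a, b, k) ↦ (g • x, a + F g x, b + G g x, k + K g x + F g x * b)`, and `K` is a bounding
cochain of the cup product of the two crossed maps (`exists_K`).  With `Dual/KappaTrace.lean`
this proves `KappaHyp Γ` (`kappaHyp`).
-/

set_option autoImplicit false

open scoped MatrixGroups
open ModularGroup

namespace Fermat.Agent.S41.Dual

open Fermat.Agent.ESJ.ParHom Fermat.Agent.S21.ParabolicBound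

noncomputable section

namespace KappaK

variable {Γ : Subgroup SL(2, ℤ)}

/-- The state space of the Heisenberg lift. -/
abbrev St (Γ : Subgroup SL(2, ℤ)) : Type := (SL(2, ℤ) ⧸ Γ) × ℤ × ℤ × ℤ

/-- the image of `S`. -/
def sFun (g : (SL(2, ℤ) ⧸ Γ) → ℤ) : St Γ → St Γ :=
  fun y => (S • y.1, y.2.1, y.2.2.1 + g y.1, y.2.2.2)

/-- the image of `S * T`. -/
def rFun (f : (SL(2, ℤ) ⧸ Γ) → ℤ) : St Γ → St Γ :=
  fun y => ((S * T) • y.1, y.2.1 + f y.1, y.2.2.1, y.2.2.2 + f y.1 * y.2.2.1)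

theorem sFun_sFun {g : (SL(2, ℤ) ⧸ Γ) → ℤ} (hSS : ∀ x : SL(2, ℤ) ⧸ Γ, S • S • x = x)
    (hg : ∀ x, g (S • x) = - g x) (y : St Γ) : sFun g (sFun g y) = y := by
  obtain ⟨x, a, b, k⟩ := y
  show (S • S • x, a, b + g x + g (S • x), k) = (x, a, b, k)
  rw [hSS, hg]
  simp

theorem rFun_rFun_rFun {f : (SL(2, ℤ) ⧸ Γ) → ℤ}
    (hRRR : ∀ x : SL(2, ℤ) ⧸ Γ, (S * T) • (S * T) • (S * T) • x = x)
    (hf : ∀ x, f ((S * T) • (S * T) • x) + f ((S * T) • x) + f x = 0) (y : St Γ) :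
    rFun f (rFun f (rFun f y)) = y := by
  obtain ⟨x, a, b, k⟩ := y
  show ((S * T) • (S * T) • (S * T) • x, a + f x + f ((S * T) • x) + f ((S * T) • (S * T) • x), b,
    k + f x * b + f ((S * T) • x) * b + f ((S * T) • (S * T) • x) * b) = (x, a, b, k)
  rw [hRRR]
  have h := hf x
  refine Prod.ext rfl (Prod.ext ?_ (Prod.ext rfl ?_))
  · show a + f x + f ((S * T) • x) + f ((S * T) • (S * T) • x) = a
    linarith
  · show k + f x * b + f ((S * T) • x) * b + f ((S * T) • (S * T) • x) * b = k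
    linear_combination b * h

/-- `σ` acts in standard form over `g`, with third cochain `c`. -/
def Std (φ ψ : Additive Γ →+ ℤ) (w u : (SL(2, ℤ) ⧸ Γ) → ℤ) (σ : Equiv.Perm (St Γ))
    (g : SL(2, ℤ)) : Prop :=
  ∃ c : (SL(2, ℤ) ⧸ Γ) → ℤ, ∀ (x : SL(2, ℤ) ⧸ Γ) (a b k : ℤ),
    σ (x, a, b, k) = (g • x, a + fgenA g φ w x, b + fgenA g ψ u x, k + c x + fgenA g φ w x * b)

variable {φ ψ : Additive Γ →+ ℤ} {w u : (SL(2, ℤ) ⧸ Γ) → ℤ}

theorem std_one : Std φ ψ w u 1 1 := by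
  refine ⟨0, fun x a b k => ?_⟩
  simp [fgenA_one]

theorem std_mul {σ τ : Equiv.Perm (St Γ)} {g h : SL(2, ℤ)} (hσ : Std φ ψ w u σ g)
    (hτ : Std φ ψ w u τ h) : Std φ ψ w u (σ * τ) (g * h) := by
  obtain ⟨c, hc⟩ := hσ
  obtain ⟨d, hd⟩ := hτ
  refine ⟨fun x => d x + c (h • x) + fgenA g φ w (h • x) * fgenA h ψ u x, fun x a b k => ?_⟩
  rw [Equiv.Perm.mul_apply, hd, hc, fgenA_mul, fgenA_mul, mul_smul]
  refine Prod.ext rfl (Prod.ext ?_ (Prod.ext ?_ ?_))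
  · show a + fgenA h φ w x + fgenA g φ w (h • x) = a + (fgenA g φ w (h • x) + fgenA h φ w x)
    ring
  · show b + fgenA h ψ u x + fgenA g ψ u (h • x) = b + (fgenA g ψ u (h • x) + fgenA h ψ u x)
    ring
  · show k + d x + fgenA h φ w x * b + c (h • x) + fgenA g φ w (h • x) * (b + fgenA h ψ u x)
      = k + (d x + c (h • x) + fgenA g φ w (h • x) * fgenA h ψ u x)
        + (fgenA g φ w (h • x) + fgenA h φ w x) * b
    ring

theorem std_inv {σ : Equiv.Perm (St Γ)} {g : SL(2, ℤ)} (hσ : Std φ ψ w u σ g) :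
    Std φ ψ w u σ⁻¹ g⁻¹ := by
  obtain ⟨c, hc⟩ := hσ
  refine ⟨fun x => - c (g⁻¹ • x) + fgenA g φ w (g⁻¹ • x) * fgenA g ψ u (g⁻¹ • x),
    fun x a b k => ?_⟩
  rw [Equiv.Perm.inv_eq_iff_eq, hc, fgenA_inv, fgenA_inv, smul_inv_smul]
  refine Prod.ext rfl (Prod.ext ?_ (Prod.ext ?_ ?_))
  · show a = a + -fgenA g φ w (g⁻¹ • x) + fgenA g φ w (g⁻¹ • x)
    ring
  · show b = b + -fgenA g ψ u (g⁻¹ • x) + fgenA g ψ u (g⁻¹ • x)
    ring
  · show k = k + (- c (g⁻¹ • x) + fgenA g φ w (g⁻¹ • x) * fgenA g ψ u (g⁻¹ • x))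
        + -fgenA g φ w (g⁻¹ • x) * b + c (g⁻¹ • x)
        + fgenA g φ w (g⁻¹ • x) * (b + -fgenA g ψ u (g⁻¹ • x))
    ring

theorem trace_neg_one_sq_le :
    (((-1 : SL(2, ℤ)) : SL(2, ℤ)) : Matrix (Fin 2) (Fin 2) ℤ).trace ^ 2 ≤ 4 := by
  rw [Matrix.SpecialLinearGroup.coe_neg, Matrix.SpecialLinearGroup.coe_one, Matrix.trace_neg,
    Matrix.trace_one]
  norm_num

/-- **The Heisenberg lift**: a bounding cochain on `SL(2, ℤ)` of the cup product of the crossed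
maps of `φ` (in an `S`-gauge) and `ψ` (in an `S * T`-gauge), vanishing on `S` and `S * T`. -/
theorem exists_K (hneg : (-1 : SL(2, ℤ)) ∈ Γ) (hφ : IsPEHom Γ φ) (hψ : IsPEHom Γ ψ)
    (hw1 : ∀ x, fgenA S φ w x = 0) (hu1 : ∀ x, fgenA (S * T) ψ u x = 0) :
    ∃ K : SL(2, ℤ) → (SL(2, ℤ) ⧸ Γ) → ℤ,
      (∀ g h x, K (g * h) x = K h x + K g (h • x) + fgenA g φ w (h • x) * fgenA h ψ u x) ∧
      (∀ x, K S x = 0) ∧ (∀ x, K (S * T) x = 0) := by
  have hnegx : ∀ x : SL(2, ℤ) ⧸ Γ, (-1 : SL(2, ℤ)) • x = x := neg_one_smul_coset hneg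
  have hSS : ∀ x : SL(2, ℤ) ⧸ Γ, S • S • x = x := fun x => by
    rw [← mul_smul, S_mul_S, hnegx]
  have hRRR : ∀ x : SL(2, ℤ) ⧸ Γ, (S * T) • (S * T) • (S * T) • x = x := fun x => by
    rw [← mul_smul, ← mul_smul, ST_cube, hnegx]
  have hg : ∀ x, fgenA S ψ u (S • x) = - fgenA S ψ u x := fun x => by
    have h := fgenA_mul S S ψ u x
    rw [S_mul_S, fgenA_eq_zero_of_fixed hψ u (hnegx x) trace_neg_one_sq_le] at h
    linarith
  have hf : ∀ x, fgenA (S * T) φ w ((S * T) • (S * T) • x) + fgenA (S * T) φ w ((S * T) • x)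
      + fgenA (S * T) φ w x = 0 := fun x => by
    have h := fgenA_mul ((S * T) * (S * T)) (S * T) φ w x
    rw [ST_cube, fgenA_eq_zero_of_fixed hφ w (hnegx x) trace_neg_one_sq_le, fgenA_mul] at h
    linarith
  -- the two permutations
  let sP : Equiv.Perm (St Γ) := Function.Involutive.toPerm (sFun (fgenA S ψ u))
    (sFun_sFun hSS hg)
  let rP : Equiv.Perm (St Γ) :=
    ⟨rFun (fgenA (S * T) φ w), rFun (fgenA (S * T) φ w) ∘ rFun (fgenA (S * T) φ w),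
      rFun_rFun_rFun hRRR hf, rFun_rFun_rFun hRRR hf⟩
  have hs : sP * sP = 1 := Equiv.ext fun y => sFun_sFun hSS hg y
  have hr : rP * rP * rP = 1 := Equiv.ext fun y => rFun_rFun_rFun hRRR hf y
  obtain ⟨Θ, hΘS, hΘR⟩ := exists_hom_of_sq_cube sP rP hs hr
  have hS : Std φ ψ w u (Θ S) S := by
    rw [hΘS]
    refine ⟨0, fun x a b k => ?_⟩
    show (S • x, a, b + fgenA S ψ u x, k) = _
    rw [hw1]
    simp
  have hR : Std φ ψ w u (Θ (S * T)) (S * T) := by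
    rw [hΘR]
    refine ⟨0, fun x a b k => ?_⟩
    show ((S * T) • x, a + fgenA (S * T) φ w x, b, k + fgenA (S * T) φ w x * b) = _
    rw [hu1]
    simp
  have hT : Std φ ψ w u (Θ T) T := by
    have h : Std φ ψ w u (Θ (S⁻¹ * (S * T))) (S⁻¹ * (S * T)) := by
      rw [map_mul, map_inv]
      exact std_mul (std_inv hS) hR
    rwa [inv_mul_cancel_left] at h
  have hall : ∀ g, Std φ ψ w u (Θ g) g := by
    intro g
    have hg : g ∈ Subgroup.closure ({S, T} : Set SL(2, ℤ)) := by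
      rw [SpecialLinearGroup.SL2Z_generators]; trivial
    induction hg using Subgroup.closure_induction with
    | mem g hg =>
      rcases hg with rfl | rfl
      · exact hS
      · exact hT
    | one => rw [map_one]; exact std_one
    | mul g h _ _ ihg ihh => rw [map_mul]; exact std_mul ihg ihh
    | inv g _ ih => rw [map_inv]; exact std_inv ih
  -- the cochain
  have hform : ∀ (g : SL(2, ℤ)) (x : SL(2, ℤ) ⧸ Γ) (a b k : ℤ),
      Θ g (x, a, b, k) = (g • x, a + fgenA g φ w x, b + fgenA g ψ u x,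
        k + (Θ g (x, 0, 0, 0)).2.2.2 + fgenA g φ w x * b) := by
    intro g x a b k
    obtain ⟨c, hc⟩ := hall g
    have h0 : (Θ g (x, 0, 0, 0)).2.2.2 = c x := by
      rw [hc]
      simp
    rw [h0, hc]
  refine ⟨fun g x => (Θ g (x, 0, 0, 0)).2.2.2, ?_, ?_, ?_⟩
  · intro g h x
    show (Θ (g * h) (x, 0, 0, 0)).2.2.2 = (Θ h (x, 0, 0, 0)).2.2.2
      + (Θ g (h • x, 0, 0, 0)).2.2.2 + fgenA g φ w (h • x) * fgenA h ψ u x
    rw [map_mul, Equiv.Perm.mul_apply, hform h x 0 0 0, hform g (h • x)]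
    show 0 + (Θ h (x, 0, 0, 0)).2.2.2 + fgenA h φ w x * 0 + (Θ g (h • x, 0, 0, 0)).2.2.2
      + fgenA g φ w (h • x) * (0 + fgenA h ψ u x) = _
    ring
  · intro x
    show (Θ S (x, 0, 0, 0)).2.2.2 = 0
    rw [hΘS]
    rfl
  · intro x
    show (Θ (S * T) (x, 0, 0, 0)).2.2.2 = 0
    rw [hΘR]
    show (0 : ℤ) + fgenA (S * T) φ w x * 0 = 0
    ring

end KappaK

/-- **Existence of `κ` with the trace formula** (`KappaHyp`) for every finite-index subgroup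
containing `-1`. -/
theorem kappaHyp_of_neg_one_mem' {Γ : Subgroup SL(2, ℤ)} [Fintype (SL(2, ℤ) ⧸ Γ)]
    (hneg : (-1 : SL(2, ℤ)) ∈ Γ) : KappaHyp Γ := by
  intro φ ψ hφ hψ ζ ν hζ hν M _ hMx
  obtain ⟨w, hw1, hw2⟩ := hζ
  obtain ⟨u, hu1, hu2⟩ := hν
  obtain ⟨K, hK, hKS, hKR⟩ := KappaK.exists_K hneg hφ hψ hw1 hu1
  exact exists_kappa_of_K hφ hψ hw1 hw2 hu1 hu2 K hK hKS hKR hMx

end

end Fermat.Agent.S41.Dual
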